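import Fermat.Agent.GoodReduction.Lifting
import Fermat.Agent.Deuring.Archimedean
import Fermat.Prelude.Def_GaloisRep_ComplexConjugation

/-!
# Good reduction of `X₀(N)` at a prime not dividing `N`

`x0GoodReduction` proves `X0GoodReduction` at every place of `ℚ̄` over a prime `ℓ ∤ N`, from the
level `M = K² N` ring (`K ∈ {2, 3}` invertible in `A`) via the lifting and descent results of this
directory.  Used by S18, S19, S32, the congruence relation and modularity lifting.
-/

set_option autoImplicit false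

noncomputable section

open ModularCurve Polynomial FLTAgent.LevelM

namespace FLTAgent.GoodReduction

/-- Integrality over `k[s]` is preserved by algebra maps. -/
theorem isIntegral_adjoin_map {k K K' : Type*} [Field k] [Field K] [Field K'] [Algebra k K]
    [Algebra k K'] (φ : K →ₐ[k] K') {s z : K} (h : IsIntegral (Algebra.adjoin k {s}) z) :
    IsIntegral (Algebra.adjoin k {φ s}) (φ z) := by
  obtain ⟨P, hP, hPz⟩ := h
  have hmem : ∀ r : Algebra.adjoin k {s}, φ (r : K) ∈ Algebra.adjoin k {φ s} := fun r => by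
    rw [← Set.image_singleton, ← AlgHom.map_adjoin]
    exact ⟨r, r.2, rfl⟩
  let ψ : Algebra.adjoin k {s} →+* Algebra.adjoin k {φ s} :=
    (φ.toRingHom.comp (Algebra.adjoin k {s}).val.toRingHom).codRestrict
      (Algebra.adjoin k {φ s}).toSubring hmem
  refine ⟨P.map ψ, hP.map ψ, ?_⟩
  rw [eval₂_map]
  have := congrArg φ.toRingHom hPz
  rw [hom_eval₂, map_zero] at this
  exact this

/-- A level `K²N`, `K ∈ {2, 3}`, invertible in `A`. -/
theorem exists_level {L : Type*} [Field L] (A : ValuationSubring L) (N : ℕ) [NeZero N]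
    (hN : IsUnit (N : A)) :
    ∃ K M : ℕ, SmallLevel K ∧ K ∣ M ∧ N ∣ M ∧ 3 ≤ M ∧ IsUnit (M : A) := by
  obtain ⟨K, hK, hKu⟩ : ∃ K : ℕ, SmallLevel K ∧ IsUnit (K : A) := by
    by_cases h2 : IsUnit ((2 : ℕ) : A)
    · exact ⟨2, Or.inl rfl, h2⟩
    · refine ⟨3, Or.inr rfl,
        (IsLocalRing.isUnit_or_isUnit_of_add_one (a := ((3 : ℕ) : A)) (b := -((2 : ℕ) : A))
          (by push_cast; ring)).resolve_right fun h => h2 (IsUnit.neg_iff _ |>.mp h)⟩
  refine ⟨K, K * K * N, hK, ⟨K * N, by ring⟩, ⟨K * K, by ring⟩, ?_, by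
    push_cast
    exact (hKu.mul hKu).mul hN⟩
  have hNpos : 0 < N := Nat.pos_of_ne_zero (NeZero.ne N)
  rcases hK with rfl | rfl <;> omega

section Surjectivity

variable {L : Type} [Field L] [Algebra ℚ L] {A : ValuationSubring L}
  [IsAlgClosed (IsLocalRing.ResidueField A)] {ι : L →+* ℂ} {N M K : ℕ} [NeZero N] [NeZero M]
  [NeZero K] (hK : SmallLevel K) (hKM : K ∣ M) (hNM : N ∣ M) (hM : 3 ≤ M)
  (hO : GoodRing M (coeffRing A ι))
  (hrk : ∀ ϖ : A, ϖ ∈ IsLocalRing.maximalIdeal A → ∀ a : A, a ≠ 0 → ∃ n : ℕ, a ∣ ϖ ^ n)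
  (hmax : ∃ ϖ : A, ϖ ∈ IsLocalRing.maximalIdeal A ∧ ϖ ≠ 0)

local notation "κ" => IsLocalRing.ResidueField A
local notation "inc" => coeffMap (ValuationSubring.subtype A)
local notation "red" => coeffMap (IsLocalRing.residue A)

omit [Algebra ℚ L] in
include hK hKM hNM hM hO hrk hmax in
theorem red_surj_fin_of_level {g : LaurentSeries κ} (hg : g ∈ modularFunctionFieldFullC κ N)
    (hint : IsIntegral (Algebra.adjoin κ {jqModC κ}) g) :
    ∃ y : LaurentSeries A, inc y ∈ modularFunctionFieldFullC L N ∧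
      IsIntegral (baseRing A (jqModC L)) (inc y) ∧ red y = g := by
  have : IsDomain (LevelRing A ι M) := isDomain_levelRing
  let _ := Fintype.ofFinite (LevelGroup A ι M)
  let _ := Fintype.ofFinite (levelSubgroup A ι M K)
  have hd := levelData hK hKM hO hrk hmax
  have hc := LevelM.cuspData hK hKM hM hO
  obtain ⟨f, hf, hfz⟩ := hd.exists_invariant_red_fin hc (gammaZero A ι M N) (qExpand κ M g)
    (inRatio_of_mem_fullC hO hNM hg)
    (by
      rw [redHom_levelJ]
      exact isIntegral_adjoin_map (qExpandAlgHomC κ M) hint)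
  obtain ⟨y, hyF, hy⟩ := exists_series_of_invariant hc hO hNM f hf
  refine ⟨y, hyF, isIntegral_of_levelExp f hy, qExpand_injective M ?_⟩
  rw [← coeffMap_qExpand, hy, ← redHom_apply, hfz]

omit [Algebra ℚ L] in
include hK hKM hNM hM hO hrk hmax in
theorem red_surj_inf_of_level {g : LaurentSeries κ} (hg : g ∈ modularFunctionFieldFullC κ N)
    (hint : IsIntegral (Algebra.adjoin κ {(jqModC κ)⁻¹}) g) :
    ∃ y : LaurentSeries A, inc y ∈ modularFunctionFieldFullC L N ∧
      IsIntegral (baseRing A (jqModC L)⁻¹) (inc y) ∧ red y = g := by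
  have : IsDomain (LevelRing A ι M) := isDomain_levelRing
  let _ := Fintype.ofFinite (LevelGroup A ι M)
  let _ := Fintype.ofFinite (levelSubgroup A ι M K)
  have hd := levelData hK hKM hO hrk hmax
  have hc := LevelM.cuspData hK hKM hM hO
  obtain ⟨n, f, hf, hb, hfz⟩ := hd.exists_invariant_red_inf hc (gammaZero A ι M N) (qExpand κ M g)
    (inRatio_of_mem_fullC hO hNM hg)
    (by
      rw [redHom_levelJ, ← map_inv₀]
      exact isIntegral_adjoin_map (qExpandAlgHomC κ M) hint)
  obtain ⟨y, hyF, hy⟩ := exists_series_of_invariant hc hO hNM f hf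
  obtain ⟨jinv, hjinv⟩ := exists_inc_eq_inv_j A
  have hjA : jinv * jqModC A = 1 := inc_injective A (by
    rw [map_mul, hjinv, coeffMap_jqModC, map_one,
      inv_mul_cancel₀ (jqModC_ne_zero_of_nontrivial L)])
  have hred : red jinv = (jqModC κ)⁻¹ := by
    refine eq_inv_of_mul_eq_one_left ?_
    rw [← coeffMap_jqModC (IsLocalRing.residue A), ← map_mul, hjA, map_one]
  refine ⟨y * jinv ^ n, ?_, isIntegral_of_poleBounded hd hb hy hjinv, qExpand_injective M ?_⟩
  · rw [map_mul, map_pow, hjinv]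
    exact mul_mem hyF (pow_mem (inv_mem (jqModC_mem_full L N)) n)
  · rw [map_mul, map_pow, hred, map_mul, map_pow, map_inv₀, ← coeffMap_qExpand, hy,
      ← redHom_apply, ← redHom_levelJ (A := A) (ι := ι) (M := M), hfz]

end Surjectivity

/-- Good reduction for any algebraically closed field with an embedding into `ℂ` and any valuation
ring of rank one in which `N` is invertible. -/
theorem x0GoodReduction_of {L : Type} [Field L] [IsAlgClosed L] [Algebra ℚ L]
    (A : ValuationSubring L) [IsAlgClosed (IsLocalRing.ResidueField A)] (ι : L →+* ℂ)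
    (hrk : ∀ ϖ : A, ϖ ∈ IsLocalRing.maximalIdeal A → ∀ a : A, a ≠ 0 → ∃ n : ℕ, a ∣ ϖ ^ n)
    (hmax : ∃ ϖ : A, ϖ ∈ IsLocalRing.maximalIdeal A ∧ ϖ ≠ 0) (N : ℕ) [NeZero N]
    (hN : IsUnit (N : A)) : X0GoodReduction A (IsLocalRing.residue A) N := by
  have : CharZero L := ι.charZero
  have hNκ : (N : IsLocalRing.ResidueField A) ≠ 0 := by
    rw [← map_natCast (IsLocalRing.residue A)]
    exact (hN.map _).ne_zero
  have hNL : (N : L) ≠ 0 := Nat.cast_ne_zero.mpr (NeZero.ne N)
  obtain ⟨B⟩ := exists_integralBasis A N hNκ hNL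
  obtain ⟨K, M, hK, hKM, hNM, hM, hMu⟩ := exists_level A N hN
  have : NeZero M := ⟨by omega⟩
  have : NeZero K := ⟨hK.pos.ne'⟩
  have hO := goodRing_coeffRing A ι M (by omega) hMu
  have hj : ∃ y : LaurentSeries A, coeffMap A.subtype y = jqModC L :=
    ⟨jqModC A, coeffMap_jqModC _⟩
  have hF := laurentBaseChange_eq_fullC L N
  refine
    { exists_coeff_fin := fun f hf => ?_
      exists_coeff_inf := fun f hf => ?_
      mem_chart_fin := fun y hy hint => ?_
      mem_chart_inf := fun y hy hint => ?_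
      red_mem := fun y hy => ?_
      red_surj_fin := fun g hg hint => ?_
      red_surj_inf := fun g hg hint => ?_
      degree_pos := ?_
      degree_eq := ?_ }
  · rw [mem_chartRing_iff, hF] at hf
    exact B.exists_coeff_chart hrk hj hf.2 hf.1
  · rw [mem_chartRing_iff, hF] at hf
    exact B.exists_coeff_chart hrk (exists_inc_eq_inv_j A) hf.2 hf.1
  · rw [hF] at hy
    rw [mem_chartRing_iff, hF]
    exact ⟨B.isIntegral_of_adjoin hrk hmax hy hint, hy⟩
  · rw [hF] at hy
    rw [mem_chartRing_iff, hF]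
    exact ⟨B.isIntegral_of_adjoin_inv hrk hmax hy hint, hy⟩
  · rw [hF] at hy
    exact B.red_mem hNL hy
  · obtain ⟨y, hy, hy', hred⟩ := red_surj_fin_of_level hK hKM hNM hM hO hrk hmax hg hint
    exact ⟨y, by rw [mem_chartRing_iff, hF]; exact ⟨hy', hy⟩, hred⟩
  · obtain ⟨y, hy, hy', hred⟩ := red_surj_inf_of_level hK hKM hNM hM hO hrk hmax hg hint
    exact ⟨y, by rw [mem_chartRing_iff, hF]; exact ⟨hy', hy⟩, hred⟩
  · rw [hF]
    exact Igusa.relfinrank_fullC_pos L hNL
  · rw [hF]
    exact Igusa.relfinrank_fullC_eq_relfinrank_fullC _ L hNκ hNL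

/-- **Good reduction of `X₀(N)` at a prime not dividing `N`.** -/
theorem x0GoodReduction (N : ℕ) [NeZero N] {ℓ : ℕ} (hℓ : ℓ.Prime) (hℓN : ¬ℓ ∣ N)
    (A : ValuationSubring (AlgebraicClosure ℚ)) (hA : A.LiesOverPrime ℓ) :
    X0GoodReduction A (IsLocalRing.residue A) N := by
  have : Fact ℓ.Prime := ⟨hℓ⟩
  have : IsAlgClosed (IsLocalRing.ResidueField A) := Deuring.isAlgClosed_residueField A
  obtain ⟨t, ht0, ht⟩ := Deuring.exists_residue_eq_zero hA
  refine x0GoodReduction_of A complexEmbedding.toRingHom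
    (fun ϖ hϖ a ha => Deuring.exists_dvd_pow hA ϖ a
      ((IsLocalRing.residue_eq_zero_iff ϖ).mpr hϖ) ha)
    ⟨t, (IsLocalRing.residue_eq_zero_iff t).mp ht, ht0⟩ N ?_
  rw [← IsLocalRing.residue_ne_zero_iff_isUnit, map_natCast]
  exact Deuring.natCast_residue_ne_zero hA hℓN

end FLTAgent.GoodReduction

end
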