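import Mathlib
import Fermat.Prelude.Def_ModularCurve_X0ModL

/-!
# The statement of good reduction of `X₀(N)` away from the level

`X0GoodReduction A π N` packages, ring-theoretically: the integral closures `chartRing` of `A[j]`
and `A[j⁻¹]` in `F = laurentBaseChange L (modularFunctionFieldFull N) ⊆ L((q))` satisfy the
`q`-expansion principle, their reductions are the integral closures in
`F̄ = modularFunctionFieldFullC k N ⊆ k((q))`, and the degrees over the `j`-line agree.
-/

set_option autoImplicit false

noncomputable section

open ModularCurve

namespace FLTAgent.GoodReduction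

universe u v

variable {L : Type u} [Field L] [Algebra ℚ L]

/-- The subring `A[s]` of `L((q))`. -/
def baseRing (A : ValuationSubring L) (s : LaurentSeries L) : Subring (LaurentSeries L) :=
  Subring.closure (insert s (Set.range ((algebraMap L (LaurentSeries L)).comp A.subtype)))

omit [Algebra ℚ L] in
theorem self_mem_baseRing (A : ValuationSubring L) (s : LaurentSeries L) : s ∈ baseRing A s :=
  Subring.subset_closure (Set.mem_insert _ _)

omit [Algebra ℚ L] in
theorem algebraMap_mem_baseRing (A : ValuationSubring L) (s : LaurentSeries L) (a : A) :
    algebraMap L (LaurentSeries L) a ∈ baseRing A s :=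
  Subring.subset_closure (Set.mem_insert_of_mem _ ⟨a, rfl⟩)

/-- The chart ring: elements of `F` integral over `A[s]`, for `s` one of `j`, `j⁻¹`. -/
def chartRing (A : ValuationSubring L) (N : ℕ) (s : LaurentSeries L) :
    Subring (LaurentSeries L) :=
  (integralClosure (baseRing A s) (LaurentSeries L)).toSubring ⊓
    (laurentBaseChange L (modularFunctionFieldFull N)).toSubfield.toSubring

/-- A series is in a chart ring iff it is integral over the base ring and lies in the function
field. -/
theorem mem_chartRing_iff {A : ValuationSubring L} {N : ℕ} {s f : LaurentSeries L} :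
    f ∈ chartRing A N s ↔
      IsIntegral (baseRing A s) f ∧ f ∈ laurentBaseChange L (modularFunctionFieldFull N) :=
  Iff.rfl

/-- Good reduction data for `X₀(N)` along `π : A →+* k`. -/
structure X0GoodReduction (A : ValuationSubring L) {k : Type v} [Field k] (π : A →+* k)
    (N : ℕ) : Prop where
  /-- Elements of the finite chart have expansions with coefficients in `A`. -/
  exists_coeff_fin : ∀ f ∈ chartRing A N (jqModC L),
    ∃ y : LaurentSeries A, coeffMap A.subtype y = f
  /-- Elements of the chart at infinity have expansions with coefficients in `A`. -/
  exists_coeff_inf : ∀ f ∈ chartRing A N (jqModC L)⁻¹,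
    ∃ y : LaurentSeries A, coeffMap A.subtype y = f
  /-- The `q`-expansion principle on the finite chart. -/
  mem_chart_fin : ∀ y : LaurentSeries A,
    coeffMap A.subtype y ∈ laurentBaseChange L (modularFunctionFieldFull N) →
    IsIntegral (Algebra.adjoin L {jqModC L}) (coeffMap A.subtype y) →
    coeffMap A.subtype y ∈ chartRing A N (jqModC L)
  /-- The `q`-expansion principle on the chart at infinity. -/
  mem_chart_inf : ∀ y : LaurentSeries A,
    coeffMap A.subtype y ∈ laurentBaseChange L (modularFunctionFieldFull N) →
    IsIntegral (Algebra.adjoin L {(jqModC L)⁻¹}) (coeffMap A.subtype y) →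
    coeffMap A.subtype y ∈ chartRing A N (jqModC L)⁻¹
  /-- An integral element of `F` reduces into `F̄`. -/
  red_mem : ∀ y : LaurentSeries A,
    coeffMap A.subtype y ∈ laurentBaseChange L (modularFunctionFieldFull N) →
    coeffMap π y ∈ modularFunctionFieldFullC k N
  /-- The reduction of the finite chart is the integral closure of `k[j̄]` in `F̄`. -/
  red_surj_fin : ∀ g ∈ modularFunctionFieldFullC k N,
    IsIntegral (Algebra.adjoin k {jqModC k}) g →
    ∃ y : LaurentSeries A, coeffMap A.subtype y ∈ chartRing A N (jqModC L) ∧ coeffMap π y = g
  /-- The reduction of the chart at infinity is the integral closure of `k[j̄⁻¹]` in `F̄`. -/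
  red_surj_inf : ∀ g ∈ modularFunctionFieldFullC k N,
    IsIntegral (Algebra.adjoin k {(jqModC k)⁻¹}) g →
    ∃ y : LaurentSeries A, coeffMap A.subtype y ∈ chartRing A N (jqModC L)⁻¹ ∧ coeffMap π y = g
  /-- Degree over the `j`-line on the generic fibre is positive (so finite). -/
  degree_pos : 0 < IntermediateField.relfinrank
    (IntermediateField.adjoin L {jqModC L}) (laurentBaseChange L (modularFunctionFieldFull N))
  /-- Degrees over the `j`-line agree on the two fibres. -/
  degree_eq : IntermediateField.relfinrank
      (IntermediateField.adjoin k {jqModC k}) (modularFunctionFieldFullC k N) =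
    IntermediateField.relfinrank
      (IntermediateField.adjoin L {jqModC L}) (laurentBaseChange L (modularFunctionFieldFull N))

end FLTAgent.GoodReduction

end
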