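import Mathlib.FieldTheory.Minpoly.IsIntegrallyClosed
import Mathlib.RingTheory.Polynomial.ScaleRoots

/-!
# Integrality from two multiples

Over an integrally closed domain, if `a y` and `b y` are integral and every power of `a` is prime
to every power of `b`, then `y` is integral.
-/

set_option autoImplicit false

open Polynomial

namespace FLTAgent.GoodReduction

/-- If `a y` and `b y` are integral, and `a ^ n ∣ g b ^ n` forces `a ^ n ∣ g`, so is `y`. -/
theorem isIntegral_of_coprime_multiples {R K : Type*} [CommRing R] [IsDomain R]
    [IsIntegrallyClosed R] [Field K] [Algebra R K] [FaithfulSMul R K] {a b : R} (ha : a ≠ 0)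
    (hb : b ≠ 0) (hdiv : ∀ (n : ℕ) (g h : R), g * b ^ n = h * a ^ n → a ^ n ∣ g) {y : K}
    (h1 : IsIntegral R (algebraMap R K a * y)) (h2 : IsIntegral R (algebraMap R K b * y)) :
    IsIntegral R y := by
  have hinj := FaithfulSMul.algebraMap_injective R K
  have : Module.IsTorsionFree R K := inferInstance
  -- scaling by a nonzero scalar preserves the degree of the minimal polynomial
  have hscale : ∀ (r : R) (z : K), r ≠ 0 → IsIntegral R z →
      minpoly R (algebraMap R K r * z) = (minpoly R z).scaleRoots r := by
    intro r z hr hz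
    have hrz : IsIntegral R (algebraMap R K r * z) := isIntegral_algebraMap.mul hz
    have hroot : aeval (algebraMap R K r * z) ((minpoly R z).scaleRoots r) = 0 :=
      scaleRoots_aeval_eq_zero (minpoly.aeval R z)
    have hm := (monic_scaleRoots_iff r).mpr (minpoly.monic hz)
    refine (eq_of_monic_of_dvd_of_natDegree_le (minpoly.monic hrz) hm
      (minpoly.isIntegrallyClosed_dvd hrz hroot) ?_).symm
    rw [natDegree_scaleRoots]
    set h := (minpoly R (algebraMap R K r * z)).comp (C r * X)
    have hdeg : h.natDegree = (minpoly R (algebraMap R K r * z)).natDegree := by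
      rw [natDegree_comp, natDegree_C_mul_X r hr, mul_one]
    have hh0 : h ≠ 0 := fun h0 => absurd (minpoly.natDegree_pos hrz)
      (by rw [← hdeg, h0, natDegree_zero]; omega)
    have hhz : aeval z h = 0 := by simp [h, aeval_comp]
    rw [← hdeg]
    exact natDegree_le_of_dvd (minpoly.isIntegrallyClosed_dvd hz hhz) hh0
  set g := minpoly R (algebraMap R K a * y) with hg
  set h := minpoly R (algebraMap R K b * y) with hh
  have hgh : g.scaleRoots b = h.scaleRoots a := by
    rw [hg, hh, ← hscale _ _ hb h1, ← hscale _ _ ha h2]
    congr 1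
    ring
  have hgdeg : g.natDegree = h.natDegree := by
    have := congrArg natDegree hgh
    rwa [natDegree_scaleRoots, natDegree_scaleRoots] at this
  have hdvd : ∀ i, a ^ (g.natDegree - i) ∣ g.coeff i := by
    intro i
    refine hdiv _ _ (h.coeff i) ?_
    have hi := congrArg (fun P => Polynomial.coeff P i) hgh
    simp only [coeff_scaleRoots] at hi
    rw [hi, hgdeg]
  choose c hc using hdvd
  set g' : Polynomial R := ∑ i ∈ Finset.range (g.natDegree + 1), monomial i (c i)
  have haK : algebraMap R K a ≠ 0 := fun h0 => ha (hinj (h0.trans (map_zero _).symm))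
  have hcn : c g.natDegree = 1 := by
    have := hc g.natDegree
    rw [Nat.sub_self, pow_zero, one_mul, show g.coeff g.natDegree = 1 from
      (minpoly.monic h1).coeff_natDegree] at this
    exact this.symm
  refine ⟨g', ?_, ?_⟩
  · refine monic_of_natDegree_le_of_coeff_eq_one g.natDegree ?_ ?_
    · exact natDegree_sum_le_of_forall_le _ _ fun i hi =>
        (natDegree_monomial_le _).trans (Nat.lt_succ_iff.mp (Finset.mem_range.mp hi))
    · simp [g', coeff_monomial, hcn]
  · have h0 := minpoly.aeval R (algebraMap R K a * y)
    rw [← hg, aeval_eq_sum_range] at h0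
    apply mul_left_cancel₀ (pow_ne_zero g.natDegree haK)
    rw [mul_zero, ← h0, eval₂_finsetSum, Finset.mul_sum]
    refine Finset.sum_congr rfl fun i hi => ?_
    have hi' : i ≤ g.natDegree := Nat.lt_succ_iff.mp (Finset.mem_range.mp hi)
    rw [eval₂_monomial, Algebra.smul_def, hc i, map_mul, map_pow]
    conv_lhs => rw [← Nat.sub_add_cancel hi', pow_add]
    ring

end FLTAgent.GoodReduction
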