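import Mathlib
import Fermat.Prelude.Def_ModularCurve_LaurentCoeff
import Fermat.Agent.LevelM.ModularRing
import Fermat.Agent.GoodReduction.TwoMultiples

/-!
# Series over a valuation ring of rank one

Complete integral closedness, normalisation and content of families of polynomials, and
integrality deduced from two multiples (`isIntegralElem_of_two_multiples`).  Used for the integral
basis and the charts.
-/

set_option autoImplicit false

noncomputable section

open ModularCurve Polynomial

namespace FLTAgent.GoodReduction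

variable {L : Type*} [Field L] {A : ValuationSubring L}

/-- In rank one every element becomes integral after multiplying by a power of a nonzero element
of the maximal ideal. -/
theorem exists_pow_mul_mem
    (hrk : ∀ ϖ : A, ϖ ∈ IsLocalRing.maximalIdeal A → ∀ a : A, a ≠ 0 → ∃ n : ℕ, a ∣ ϖ ^ n)
    {ϖ : A} (hϖ : ϖ ∈ IsLocalRing.maximalIdeal A) (x : L) :
    ∃ n : ℕ, (ϖ : L) ^ n * x ∈ A := by
  rcases A.mem_or_inv_mem x with hx | hx
  · exact ⟨0, by simpa using hx⟩
  · by_cases hx0 : x = 0
    · exact ⟨0, by simp [hx0]⟩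
    obtain ⟨n, d, hd⟩ := hrk ϖ hϖ ⟨x⁻¹, hx⟩
      (fun h => inv_ne_zero hx0 (congrArg Subtype.val h))
    refine ⟨n, ?_⟩
    have hd' := congrArg (fun a : A => (a : L)) hd
    simp only [SubmonoidClass.coe_pow, MulMemClass.coe_mul] at hd'
    rw [hd', mul_comm _ (d : L), mul_assoc, inv_mul_cancel₀ hx0, mul_one]
    exact d.2

/-- A valuation ring of rank one is completely integrally closed. -/
theorem mem_of_forall_mul_pow_mem
    (hrk : ∀ ϖ : A, ϖ ∈ IsLocalRing.maximalIdeal A → ∀ a : A, a ≠ 0 → ∃ n : ℕ, a ∣ ϖ ^ n)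
    {b : A} (hb : b ≠ 0) {x : L} (h : ∀ n : ℕ, (b : L) * x ^ n ∈ A) : x ∈ A := by
  by_contra hx
  have hx0 : x ≠ 0 := fun h0 => hx (h0 ▸ zero_mem A)
  have hxi : x⁻¹ ∈ A := (A.mem_or_inv_mem x).resolve_left hx
  set π : A := ⟨x⁻¹, hxi⟩
  have hπ : π ∈ IsLocalRing.maximalIdeal A := by
    rw [IsLocalRing.mem_maximalIdeal, mem_nonunits_iff]
    rintro ⟨u, hu⟩
    apply hx
    have h2 := congrArg (fun a : A => (a : L)) (Units.mul_inv u)
    rw [hu] at h2
    simp only [MulMemClass.coe_mul, OneMemClass.coe_one] at h2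
    rw [← inv_inv x, ← eq_inv_of_mul_eq_one_right h2]
    exact (↑u⁻¹ : A).2
  obtain ⟨n, d, hd⟩ := hrk π hπ b hb
  have hd' := congrArg (fun a : A => (a : L)) hd
  simp only [SubmonoidClass.coe_pow, MulMemClass.coe_mul] at hd'
  set a : A := ⟨_, h (n + 1)⟩
  have h1 : ((a * d * π : A) : L) = 1 := by
    show (b : L) * x ^ (n + 1) * (d : L) * x⁻¹ = 1
    rw [show (b : L) * x ^ (n + 1) * (d : L) * x⁻¹ = ((b : L) * d) * (x ^ n * (x * x⁻¹)) by ring,
      mul_inv_cancel₀ hx0, mul_one, ← hd', ← mul_pow, inv_mul_cancel₀ hx0, one_pow]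
  refine (IsLocalRing.mem_maximalIdeal _).mp hπ (IsUnit.of_mul_eq_one (a * d) ?_)
  rw [mul_comm]
  exact Subtype.ext h1

/-- A Laurent series integral over `A((q))` which has a multiple in `A((q))` lies in `A((q))`. -/
theorem exists_coeff_of_integral
    (hrk : ∀ ϖ : A, ϖ ∈ IsLocalRing.maximalIdeal A → ∀ a : A, a ≠ 0 → ∃ n : ℕ, a ∣ ϖ ^ n)
    {f : LaurentSeries L} (hint : (coeffMap A.subtype).IsIntegralElem f)
    {b a : LaurentSeries A} (hb : b ≠ 0)
    (hbf : coeffMap A.subtype b * f = coeffMap A.subtype a) :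
    ∃ y, coeffMap A.subtype y = f := by
  classical
  set R := (coeffMap A.subtype).range with hR
  obtain ⟨p, hp, hp0⟩ := hint
  set g := b ^ p.natDegree with hg
  have hbase : ∀ n, coeffMap A.subtype g * f ^ n ∈ R := by
    intro n
    induction n using Nat.strong_induction_on with
    | _ n ih =>
      rcases le_or_gt n p.natDegree with hn | hn
      · refine ⟨b ^ (p.natDegree - n) * a ^ n, ?_⟩
        rw [hg, map_mul, map_pow, map_pow, map_pow, ← hbf, mul_pow, ← mul_assoc, ← pow_add,
          Nat.sub_add_cancel hn]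
      · have h0 := hp0
        rw [Polynomial.eval₂_eq_sum_range, Finset.sum_range_succ, hp.coeff_natDegree, map_one,
          one_mul] at h0
        rw [show n = p.natDegree + (n - p.natDegree) by omega, pow_add,
          eq_neg_of_add_eq_zero_right h0, neg_mul, mul_neg, Finset.sum_mul, Finset.mul_sum]
        refine neg_mem (sum_mem fun i hi => ?_)
        have hi' := Finset.mem_range.mp hi
        rw [mul_assoc, mul_left_comm, ← pow_add]
        exact mul_mem ⟨_, rfl⟩ (ih _ (by omega))
  by_contra hne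
  have hbad : ∃ k, f.coeff k ∉ A := by
    by_contra hall
    push Not at hall
    refine hne ⟨⟨fun i => ⟨f.coeff i, hall i⟩, f.isPWO_support.mono fun i hi h0 => hi ?_⟩, ?_⟩
    · exact Subtype.ext h0
    · ext i; rfl
  obtain ⟨k, hk, hmin⟩ : ∃ k, f.coeff k ∉ A ∧ ∀ i < k, f.coeff i ∈ A := by
    obtain ⟨k₀, hk₀⟩ := hbad
    obtain ⟨k, hk, hle⟩ := Int.exists_least_of_bdd
      (P := fun i => f.coeff i ∉ A) ⟨f.order, fun z hz => by
        by_contra hlt
        exact hz (by rw [HahnSeries.coeff_eq_zero_of_lt_order (not_le.mp hlt)]; exact zero_mem A)⟩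
      ⟨k₀, hk₀⟩
    exact ⟨k, hk, fun i hi => by
      by_contra h
      exact absurd (hle i h) (not_le.mpr hi)⟩
  let t : LaurentSeries A :=
    ⟨fun i => if h : i < k then ⟨f.coeff i, hmin i h⟩ else 0,
      f.isPWO_support.mono fun i hi h0 => hi (by
        dsimp only
        split_ifs
        · exact Subtype.ext h0
        · rfl)⟩
  set f' := f - coeffMap A.subtype t with hf'
  have ht : ∀ i, (coeffMap A.subtype t).coeff i = if i < k then f.coeff i else 0 := fun i => by
    rw [coeffMap_coeff]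
    show A.subtype (dite _ _ _) = _
    split_ifs <;> rfl
  have hlow : ∀ i < k, f'.coeff i = 0 := fun i hi => by
    rw [hf', HahnSeries.coeff_sub, ht, if_pos hi, sub_self]
  have hkk : f'.coeff k = f.coeff k := by
    rw [hf', HahnSeries.coeff_sub, ht, if_neg (lt_irrefl k), sub_zero]
  have hbase' : ∀ n, coeffMap A.subtype g * f' ^ n ∈ R := by
    intro n
    rw [hf', sub_eq_add_neg, add_pow, Finset.mul_sum]
    refine sum_mem fun i _ => ?_
    rw [← mul_assoc, ← mul_assoc]
    exact mul_mem (mul_mem (hbase i) (pow_mem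
      (neg_mem (show coeffMap A.subtype t ∈ R from ⟨t, rfl⟩)) _)) (natCast_mem R _)
  have hg0 : g ≠ 0 := pow_ne_zero _ hb
  set s := g.order
  have hgs : g.coeff s ≠ 0 := HahnSeries.coeff_order_eq_zero.not.mpr hg0
  refine hk (mem_of_forall_mul_pow_mem hrk hgs fun n => ?_)
  obtain ⟨r, hr⟩ := hbase' n
  have hgl : ∀ i < s, (coeffMap A.subtype g).coeff i = 0 := fun i hi => by
    rw [coeffMap_coeff, HahnSeries.coeff_eq_zero_of_lt_order hi, map_zero]
  obtain ⟨hp1, hp2⟩ := LevelM.coeff_pow_below hlow n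
  have h := LevelM.coeff_mul_lead hgl hp1
  rw [hp2, hkk, ← hr, coeffMap_coeff, coeffMap_coeff] at h
  have : (g.coeff s : L) * f.coeff k ^ n = (r.coeff (s + (n : ℤ) * k) : L) := h.symm
  rw [this]
  exact (r.coeff _).2

variable (A) in
/-- Scaling a nonzero family of polynomials to a primitive integral one. -/
theorem exists_normalize {ι : Type*} [Fintype ι] (P : ι → Polynomial L) (h : ∃ i, P i ≠ 0) :
    ∃ (c : L) (P' : ι → Polynomial A), c ≠ 0 ∧ (∀ i, (P' i).map A.subtype = C c * P i) ∧
      ∃ i, (P' i).map (IsLocalRing.residue A) ≠ 0 := by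
  classical
  obtain ⟨i₀, hi₀⟩ := h
  set s : Finset ((_ : ι) × ℕ) := Finset.univ.sigma fun i => (P i).support
  have hne : s.Nonempty := ⟨⟨i₀, (P i₀).natDegree⟩, by
    simp [s, Polynomial.mem_support_iff, hi₀]⟩
  obtain ⟨⟨i, n⟩, hin, hmax⟩ :=
    s.exists_max_image (fun x => A.valuation ((P x.1).coeff x.2)) hne
  have hin' : (P i).coeff n ≠ 0 := by simpa [s, Polynomial.mem_support_iff] using hin
  set c := ((P i).coeff n)⁻¹ with hc
  have hmem : ∀ l m, c * (P l).coeff m ∈ A := by
    intro l m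
    by_cases hm : (P l).coeff m = 0
    · rw [hm, mul_zero]; exact zero_mem A
    · rw [← A.valuation_le_one_iff, map_mul, hc, map_inv₀,
        inv_mul_le_iff₀ (zero_lt_iff.mpr (A.valuation.ne_zero_iff.mpr hin')), mul_one]
      exact hmax ⟨l, m⟩ (by simp [s, Polynomial.mem_support_iff, hm])
  choose P' hP' using fun l => (Polynomial.mem_lifts (f := A.subtype) (C c * P l)).mp
    ((Polynomial.lifts_iff_coeff_lifts _).mpr fun m => by
      rw [coeff_C_mul]; exact ⟨⟨_, hmem l m⟩, rfl⟩)
  refine ⟨c, P', inv_ne_zero hin', hP', i, fun h0 => ?_⟩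
  have h1 := congrArg (fun p => Polynomial.coeff p n) h0
  simp only [Polynomial.coeff_map, Polynomial.coeff_zero] at h1
  have h2 : (P' i).coeff n = 1 := by
    have := congrArg (fun p => Polynomial.coeff p n) (hP' i)
    simp only [Polynomial.coeff_map, coeff_C_mul, hc, inv_mul_cancel₀ hin'] at this
    exact Subtype.ext this
  rw [h2, map_one] at h1
  exact one_ne_zero h1

/-- Content decomposition over a valuation ring. -/
theorem exists_content {g : Polynomial A} (hg : g ≠ 0) :
    ∃ (a : A) (g' : Polynomial A), g = C a * g' ∧ g'.map (IsLocalRing.residue A) ≠ 0 := by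
  obtain ⟨c, P', hc, hP', ⟨_, hi⟩⟩ := exists_normalize A (fun _ : Unit => g.map A.subtype)
    ⟨(), (Polynomial.map_ne_zero_iff Subtype.val_injective).mpr hg⟩
  obtain ⟨m, hm⟩ : ∃ m, IsLocalRing.residue A ((P' ()).coeff m) ≠ 0 := by
    by_contra hall
    push Not at hall
    exact hi (Polynomial.ext fun m => by rw [coeff_map, coeff_zero]; exact hall m)
  rw [IsLocalRing.residue_ne_zero_iff_isUnit] at hm
  obtain ⟨u, hu⟩ := hm
  have hcoef : ∀ l, ((P' ()).coeff l : L) = c * (g.coeff l : L) := fun l => by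
    have := congrArg (fun p => Polynomial.coeff p l) (hP' ())
    simpa [coeff_map, coeff_C_mul] using this
  refine ⟨g.coeff m * ↑u⁻¹, P' (), Polynomial.ext fun l => Subtype.ext ?_, hi⟩
  have h1 : ((↑u⁻¹ : A) : L) * (c * (g.coeff m : L)) = 1 := by
    rw [← hcoef, ← hu]
    exact congrArg Subtype.val (Units.inv_mul u)
  rw [coeff_C_mul]
  push_cast
  rw [hcoef]
  calc (g.coeff l : L) = (((↑u⁻¹ : A) : L) * (c * (g.coeff m : L))) * (g.coeff l : L) := by
        rw [h1, one_mul]
    _ = _ := by ring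

/-- Gauss: a constant dividing `g * S`, with `S` primitive, divides `g`. -/
theorem C_dvd_of_dvd_mul {c : A} {g S : Polynomial A}
    (hS : S.map (IsLocalRing.residue A) ≠ 0) (h : C c ∣ g * S) : C c ∣ g := by
  by_cases hg : g = 0
  · rw [hg]; exact dvd_zero _
  obtain ⟨a, g', rfl, hg'⟩ := exists_content hg
  refine (_root_.map_dvd (C : A →+* Polynomial A) ?_).trans (dvd_mul_right _ _)
  have hne : (g' * S).map (IsLocalRing.residue A) ≠ 0 := by
    rw [Polynomial.map_mul]; exact mul_ne_zero hg' hS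
  obtain ⟨m, hm⟩ : ∃ m, IsLocalRing.residue A ((g' * S).coeff m) ≠ 0 := by
    by_contra hall
    push Not at hall
    exact hne (Polynomial.ext fun m => by rw [coeff_map, coeff_zero]; exact hall m)
  rw [IsLocalRing.residue_ne_zero_iff_isUnit] at hm
  rw [mul_assoc, C_dvd_iff_dvd_coeff] at h
  have := h m
  rw [coeff_C_mul] at this
  exact hm.dvd_mul_right.mp this

/-- If `c y` and `S y` are integral over `A[X]`, with `c ≠ 0` and `S` primitive, so is `y`. -/
theorem isIntegralElem_of_two_multiples {K : Type*} [Field K] (φ : Polynomial A →+* K)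
    (hinj : Function.Injective φ) {y : K} {c : A} (hc : c ≠ 0) {S : Polynomial A}
    (hS : S.map (IsLocalRing.residue A) ≠ 0) (h1 : φ.IsIntegralElem (φ (C c) * y))
    (h2 : φ.IsIntegralElem (φ S * y)) : φ.IsIntegralElem y := by
  let _ : Algebra (Polynomial A) K := φ.toAlgebra
  have : FaithfulSMul (Polynomial A) K := (faithfulSMul_iff_algebraMap_injective _ _).mpr hinj
  refine isIntegral_of_coprime_multiples (C_ne_zero.mpr hc)
    (fun h => hS (by rw [h, Polynomial.map_zero])) (fun n g h he => ?_) h1 h2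
  rw [← C_pow] at he ⊢
  refine C_dvd_of_dvd_mul (S := S ^ n) ?_ ⟨h, he.trans (mul_comm _ _)⟩
  rw [Polynomial.map_pow]
  exact pow_ne_zero _ hS

/-- Integrality after multiplying by a power of `u`, when `u` moves `R` into `R'`. -/
theorem exists_pow_mul_isIntegral_subring {K : Type*} [Field K] {R R' : Subring K} {u : K}
    (hu : u ∈ R') (h : ∀ a ∈ R, ∃ N : ℕ, u ^ N * a ∈ R') {x : K} (hx : IsIntegral R x) :
    ∃ N : ℕ, IsIntegral R' (u ^ N * x) := by
  classical
  obtain ⟨p, hmon, hroot⟩ := hx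
  choose N hN using fun i => h _ (p.coeff i).2
  set M := (Finset.range (p.natDegree + 1)).sup N with hM
  set q := (p.map (algebraMap R K)).scaleRoots (u ^ M) with hq
  have hqm : q.Monic := (monic_scaleRoots_iff _).mpr (hmon.map _)
  have hqroot : q.eval (u ^ M * x) = 0 := by
    rw [hq, scaleRoots_eval_mul, eval_map, hroot, mul_zero]
  have hqcoeff : ∀ i, q.coeff i ∈ R' := by
    intro i
    rw [hq, coeff_scaleRoots, coeff_map, hmon.natDegree_map]
    by_cases hi : i < p.natDegree
    · have hle : N i ≤ M * (p.natDegree - i) := le_trans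
        (Finset.le_sup (f := N) (Finset.mem_range.mpr (by omega)))
        (Nat.le_mul_of_pos_right _ (by omega))
      rw [← pow_mul, ← Nat.add_sub_cancel' hle, pow_add, mul_left_comm, ← mul_assoc, mul_comm]
      exact mul_mem (pow_mem hu _) (hN i)
    · rcases (not_lt.mp hi).lt_or_eq with h' | h'
      · rw [coeff_eq_zero_of_natDegree_lt h', map_zero, zero_mul]
        exact zero_mem _
      · rw [← h', hmon.coeff_natDegree, map_one, one_mul, Nat.sub_self, pow_zero]
        exact one_mem _
  obtain ⟨q', hq'q, -, hq'm⟩ := lifts_and_natDegree_eq_and_monic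
    (f := algebraMap R' K) (p := q)
    ((lifts_iff_coeff_lifts q).mpr fun i => ⟨⟨q.coeff i, hqcoeff i⟩, rfl⟩) hqm
  exact ⟨M, q', hq'm, by rw [eval₂_eq_eval_map, hq'q, hqroot]⟩

end FLTAgent.GoodReduction

end
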