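import Mathlib
import Fermat.Agent.GoodReduction.SeriesIntegral
import Fermat.Agent.GoodReduction.Data
import Fermat.Agent.Igusa.Basis
import Fermat.Agent.ModularFF.Field

/-!
# A basis of the function field adapted to reduction

`IntegralBasis`: monomials in the `j(q^d)` over `A` with reductions independent over `k[j̄]`.
They give normal forms with integral coefficients (`exists_repr_integral`), whence integral
elements reduce into the function field of the special fibre (`red_mem`).
-/

set_option autoImplicit false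

noncomputable section

open ModularCurve Polynomial IntermediateField

namespace FLTAgent.GoodReduction

/-- The generators `j(q^d)`, `d ∣ N`, over a ring. -/
def genSet (R : Type*) [CommRing R] (N : ℕ) : Set (LaurentSeries R) :=
  {x | ∃ (d : ℕ) (_ : NeZero d), d ∣ N ∧ x = qExpand R d (jqModC R)}

theorem image_genSet {R : Type*} [CommRing R] {k : Type*} [Field k] (f : R →+* k) (N : ℕ) :
    coeffMap f '' genSet R N = divisorExpansionsC k N := by
  ext x
  constructor
  · rintro ⟨_, ⟨d, hd0, hd, rfl⟩, rfl⟩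
    exact ⟨d, hd0, hd, by rw [coeffMap_qExpand, coeffMap_jqModC]⟩
  · rintro ⟨d, hd0, hd, rfl⟩
    exact ⟨_, ⟨d, hd0, hd, rfl⟩, by rw [coeffMap_qExpand, coeffMap_jqModC]⟩

theorem coeffMap_mem_fullC_of_mem_closure {R : Type*} [CommRing R] {k : Type*} [Field k]
    (f : R →+* k) {N : ℕ} {x : LaurentSeries R} (hx : x ∈ Submonoid.closure (genSet R N)) :
    coeffMap f x ∈ modularFunctionFieldFullC k N := by
  induction hx using Submonoid.closure_induction with
  | mem y hy =>
    exact subset_adjoin k _ ((image_genSet f N).le ⟨y, hy, rfl⟩)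
  | one => rw [map_one]; exact one_mem _
  | mul u v _ _ hu hv => rw [map_mul]; exact mul_mem hu hv

/-- The base change of the modular function field is generated by the `j(q^d)`. -/
theorem laurentBaseChange_eq_fullC (L : Type*) [Field L] [Algebra ℚ L] (N : ℕ) [NeZero N] :
    laurentBaseChange L (modularFunctionFieldFull N) = modularFunctionFieldFullC L N := by
  rw [show laurentBaseChange L (modularFunctionFieldFull N) = ModularFF.modField L N from rfl,
    ModularFF.modField_eq_adjoin, modularFunctionFieldFullC]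
  congr 1
  ext x
  constructor
  · rintro ⟨⟨d, hd⟩, rfl⟩
    exact ⟨d, ⟨(Nat.pos_of_mem_divisors hd).ne'⟩, Nat.dvd_of_mem_divisors hd, rfl⟩
  · rintro ⟨d, hd0, hd, rfl⟩
    exact ⟨⟨d, Nat.mem_divisors.mpr ⟨hd, NeZero.ne N⟩⟩, rfl⟩

variable {L : Type} [Field L] (A : ValuationSubring L) (N : ℕ)

local notation "κ" => IsLocalRing.ResidueField A
local notation "inc" => coeffMap (ValuationSubring.subtype A)
local notation "red" => coeffMap (IsLocalRing.residue A)

theorem inc_injective : Function.Injective (inc : LaurentSeries A →+* LaurentSeries L) :=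
  fun x y h => by
    ext i
    exact congrArg (fun s : LaurentSeries L => s.coeff i) h

/-- Evaluation of a polynomial at `j`. -/
def evJ : Polynomial A →+* LaurentSeries A :=
  eval₂RingHom HahnSeries.C (jqModC A)

theorem coeffMap_evJ {k : Type*} [Field k] (f : A →+* k) (P : Polynomial A) :
    coeffMap f (evJ A P) = aeval (jqModC k) (P.map f) := by
  rw [evJ, coe_eval₂RingHom, hom_eval₂, aeval_def, eval₂_map, coeffMap_jqModC]
  congr 1
  refine RingHom.ext fun a => ?_
  rw [RingHom.comp_apply, RingHom.comp_apply, algebraMap_laurentSeries_eq_single,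
    HahnSeries.C_apply, coeffMap_single]

theorem transcendental_jqModC' (k : Type) [Field k] : Transcendental k (jqModC k) :=
  Igusa.transcendental_of_lead Igusa.lead_jqModC one_ne_zero (by norm_num)

theorem red_evJ_ne_zero {Q : Polynomial A} (hQ : Q.map (IsLocalRing.residue A) ≠ 0) :
    red (evJ A Q) ≠ 0 := by
  rw [coeffMap_evJ]
  exact fun h => hQ ((transcendental_iff.mp (transcendental_jqModC' κ)) _ h)

/-- Monomials in the `j(q^d)` over `A` with reductions independent over `k[j̄]`, as many as the
degree of the function field. -/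
structure IntegralBasis where
  n : ℕ
  e : Fin n → LaurentSeries A
  mem_closure : ∀ i, e i ∈ Submonoid.closure (genSet A N)
  indep : ∀ P : Fin n → Polynomial κ,
    ∑ i, aeval (jqModC κ) (P i) * red (e i) = 0 → ∀ i, P i = 0
  degree_eq : n = relfinrank L⟮jqModC L⟯ (modularFunctionFieldFullC L N)

theorem exists_integralBasis [NeZero N] [IsAlgClosed L] [IsAlgClosed κ] (hN : (N : κ) ≠ 0)
    (hNL : (N : L) ≠ 0) : Nonempty (IntegralBasis A N) := by
  obtain ⟨m, hm, hind⟩ := Igusa.exists_monomial_basis (k := κ) (N := N) hN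
  have hlift : ∀ i, ∃ x ∈ Submonoid.closure (genSet A N), red x = m i := by
    intro i
    have h := hm i
    rw [← image_genSet (IsLocalRing.residue A), ← MonoidHom.map_mclosure (red)] at h
    exact h
  choose e he hem using hlift
  refine ⟨⟨_, e, he, fun P hP => hind P ?_,
    Igusa.relfinrank_fullC_eq_relfinrank_fullC κ L hN hNL⟩⟩
  simpa only [hem] using hP

variable {A N}

namespace IntegralBasis

variable (B : IntegralBasis A N)

/-- A combination of the basis with coefficients in `A[j]`. -/
def comb (P : Fin B.n → Polynomial A) : LaurentSeries A := ∑ i, evJ A (P i) * B.e i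

theorem red_comb_ne_zero {P : Fin B.n → Polynomial A}
    (h : ∃ i, (P i).map (IsLocalRing.residue A) ≠ 0) : red (B.comb P) ≠ 0 := by
  obtain ⟨i, hi⟩ := h
  intro h0
  simp only [comb, map_sum, map_mul, coeffMap_evJ] at h0
  exact hi (B.indep _ h0 i)

theorem inc_comb (P : Fin B.n → Polynomial A) :
    inc (B.comb P) = ∑ i, aeval (jqModC L) ((P i).map A.subtype) * inc (B.e i) := by
  simp only [comb, map_sum, map_mul, coeffMap_evJ]

theorem red_comb_mem (P : Fin B.n → Polynomial A) :
    red (B.comb P) ∈ modularFunctionFieldFullC κ N := by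
  simp only [comb, map_sum, map_mul, coeffMap_evJ]
  refine sum_mem fun i _ => mul_mem ?_ (coeffMap_mem_fullC_of_mem_closure _ (B.mem_closure i))
  exact IntermediateField.algebra_adjoin_le_adjoin κ _ |>.trans
    (adjoin_simple_le_iff.mpr (jqModC_mem_full κ N)) (aeval_mem_adjoin_singleton κ _)

/-- Normal form of an element of the function field. -/
theorem exists_repr [NeZero N] [IsAlgClosed L] (hNL : (N : L) ≠ 0) {f : LaurentSeries L}
    (hf : f ∈ modularFunctionFieldFullC L N) :
    ∃ (Q : Polynomial A) (P : Fin B.n → Polynomial A) (c : L),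
      Q.map (IsLocalRing.residue A) ≠ 0 ∧
      inc (evJ A Q) * f = HahnSeries.C c * inc (B.comb P) ∧
      (c = 0 ∨ red (B.comb P) ≠ 0) := by
  classical
  let v : Option (Fin B.n) → LaurentSeries L := fun o => o.elim f fun i => inc (B.e i)
  obtain ⟨P₀, hne, hrel⟩ := Igusa.exists_relation (k := L) (N := N) hNL
    (ι := Option (Fin B.n)) (by rw [Fintype.card_option, Fintype.card_fin, ← B.degree_eq]; omega)
    (v := v) (by
      rintro (_ | i)
      · exact hf
      · exact coeffMap_mem_fullC_of_mem_closure _ (B.mem_closure i))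
  rw [Fintype.sum_option] at hrel
  simp only [v, Option.elim_none, Option.elim_some] at hrel
  have key : ∀ (b : L) (P' : Fin B.n → Polynomial A),
      (∀ i, (P' i).map A.subtype = C b * P₀ (some i)) →
      inc (B.comb P') = HahnSeries.C b * ∑ i, aeval (jqModC L) (P₀ (some i)) * inc (B.e i) := by
    intro b P' hP'
    rw [B.inc_comb, Finset.mul_sum]
    refine Finset.sum_congr rfl fun i _ => ?_
    rw [hP', map_mul, aeval_C, algebraMap_laurentSeries_eq_single, HahnSeries.C_apply, mul_assoc]
  have hQ0 : P₀ none ≠ 0 := by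
    intro h0
    obtain ⟨o, ho⟩ := hne
    cases o with
    | none => exact ho h0
    | some i =>
      obtain ⟨b, P', -, hP', hred⟩ := exists_normalize A (fun i => P₀ (some i)) ⟨i, ho⟩
      refine B.red_comb_ne_zero hred ?_
      rw [h0, map_zero, zero_mul, zero_add] at hrel
      have : inc (B.comb P') = 0 := by rw [key b P' hP', hrel, mul_zero]
      rw [(map_eq_zero_iff _ (inc_injective A)).mp this, map_zero]
  obtain ⟨a, Q, ha, hQ, ⟨_, hQred⟩⟩ := exists_normalize A (fun _ : Unit => P₀ none) ⟨(), hQ0⟩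
  have hQeq : inc (evJ A (Q ())) * f =
      HahnSeries.C (-a) * ∑ i, aeval (jqModC L) (P₀ (some i)) * inc (B.e i) := by
    rw [coeffMap_evJ, hQ (), map_mul, aeval_C, algebraMap_laurentSeries_eq_single,
      ← HahnSeries.C_apply, mul_assoc, eq_neg_of_add_eq_zero_left hrel, map_neg, mul_neg,
      neg_mul]
  by_cases hP : ∃ i, P₀ (some i) ≠ 0
  · obtain ⟨b, P', hb, hP', hred⟩ := exists_normalize A (fun i => P₀ (some i)) hP
    refine ⟨Q (), P', -a * b⁻¹, hQred, ?_, Or.inr (B.red_comb_ne_zero hred)⟩
    rw [hQeq, key b P' hP', ← mul_assoc (HahnSeries.C (-a * b⁻¹)), ← map_mul, mul_assoc (-a),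
      inv_mul_cancel₀ hb, mul_one]
  · push Not at hP
    refine ⟨Q (), 0, 0, hQred, ?_, Or.inl rfl⟩
    rw [hQeq, map_zero, zero_mul]
    simp [hP]

theorem mem_or_inv_mem_maximal (c : L) :
    c ∈ A ∨ ∃ π : A, π ∈ IsLocalRing.maximalIdeal A ∧ (π : L) = c⁻¹ ∧ c ≠ 0 := by
  by_cases hc : c ∈ A
  · exact Or.inl hc
  have hc0 : c ≠ 0 := fun h => hc (h ▸ zero_mem A)
  refine Or.inr ⟨⟨c⁻¹, (A.mem_or_inv_mem c).resolve_left hc⟩, ?_, rfl, hc0⟩
  rw [IsLocalRing.mem_maximalIdeal, mem_nonunits_iff]
  rintro ⟨u, hu⟩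
  apply hc
  have h : ((u : A) : L) * ((↑u⁻¹ : A) : L) = 1 := congrArg Subtype.val (Units.mul_inv u)
  rw [hu] at h
  rw [← inv_inv c, ← eq_inv_of_mul_eq_one_right h]
  exact (↑u⁻¹ : A).2

theorem inc_C (a : A) : inc (HahnSeries.C a) = HahnSeries.C (a : L) := by
  rw [HahnSeries.C_apply, coeffMap_single, HahnSeries.C_apply]
  rfl

theorem red_C_eq_zero {π : A} (hπ : π ∈ IsLocalRing.maximalIdeal A) :
    red (HahnSeries.C π) = 0 := by
  rw [HahnSeries.C_apply, coeffMap_single, (IsLocalRing.residue_eq_zero_iff π).mpr hπ,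
    HahnSeries.single_eq_zero]

include B in
/-- Elements integral over `A((q))` have expansions in `A((q))`. -/
theorem exists_coeff [NeZero N] [IsAlgClosed L] (hNL : (N : L) ≠ 0)
    (hrk : ∀ ϖ : A, ϖ ∈ IsLocalRing.maximalIdeal A → ∀ a : A, a ≠ 0 → ∃ n : ℕ, a ∣ ϖ ^ n)
    {f : LaurentSeries L} (hf : f ∈ modularFunctionFieldFullC L N)
    (hint : RingHom.IsIntegralElem inc f) : ∃ y, inc y = f := by
  obtain ⟨Q, P, c, hQ, heq, hc⟩ := B.exists_repr hNL hf
  have hQ0 : evJ A Q ≠ 0 := fun h => red_evJ_ne_zero A hQ (by rw [h, map_zero])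
  rcases mem_or_inv_mem_maximal (A := A) c with hcA | ⟨π, hπ, hπc, hc0⟩
  · exact exists_coeff_of_integral hrk hint hQ0 (a := HahnSeries.C ⟨c, hcA⟩ * B.comb P)
      (by rw [heq, map_mul, inc_C])
  · exfalso
    set b := HahnSeries.C π * evJ A Q with hb
    have hbf : inc b * f = inc (B.comb P) := by
      rw [hb, map_mul, inc_C, mul_assoc, heq, ← mul_assoc, ← map_mul, hπc, inv_mul_cancel₀ hc0,
        map_one, one_mul]
    obtain ⟨p, hp, hp0⟩ := hint
    have h1 : (p.scaleRoots b).eval (B.comb P) = 0 := by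
      refine inc_injective A ?_
      rw [map_zero, ← eval₂_at_apply, ← hbf, scaleRoots_eval₂_mul, hp0, mul_zero]
    have h2 := congrArg red h1
    rw [map_zero, eval_eq_sum_range, map_sum, natDegree_scaleRoots, Finset.sum_range_succ,
      Finset.sum_eq_zero fun i hi => ?_, zero_add, map_mul, coeff_scaleRoots_natDegree,
      hp.leadingCoeff, map_one, one_mul, map_pow] at h2
    · exact hc.resolve_left hc0 (eq_zero_of_pow_eq_zero h2)
    · rw [map_mul, coeff_scaleRoots, map_mul, map_pow, hb, map_mul, red_C_eq_zero hπ, zero_mul,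
        zero_pow (Nat.sub_ne_zero_of_lt (Finset.mem_range.mp hi)), mul_zero, zero_mul]

/-- An integral element of the function field is a combination with integral coefficients. -/
theorem exists_repr_integral [NeZero N] [IsAlgClosed L] (hNL : (N : L) ≠ 0)
    {y : LaurentSeries A} (hy : inc y ∈ modularFunctionFieldFullC L N) :
    ∃ (Q : Polynomial A) (P : Fin B.n → Polynomial A) (c : A),
      Q.map (IsLocalRing.residue A) ≠ 0 ∧ evJ A Q * y = HahnSeries.C c * B.comb P := by
  obtain ⟨Q, P, c, hQ, heq, hc⟩ := B.exists_repr hNL hy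
  rcases mem_or_inv_mem_maximal (A := A) c with hcA | ⟨π, hπ, hπc, hc0⟩
  · exact ⟨Q, P, ⟨c, hcA⟩, hQ, inc_injective A (by rw [map_mul, map_mul, inc_C, heq])⟩
  · exfalso
    have h1 : HahnSeries.C π * (evJ A Q * y) = B.comb P := inc_injective A (by
      rw [map_mul, map_mul, inc_C, heq, ← mul_assoc, ← map_mul, hπc, inv_mul_cancel₀ hc0,
        map_one, one_mul])
    refine hc.resolve_left hc0 ?_
    rw [← h1, map_mul, red_C_eq_zero hπ, zero_mul]

include B in
/-- Reductions of integral elements lie in the function field of the special fibre. -/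
theorem red_mem [NeZero N] [IsAlgClosed L] (hNL : (N : L) ≠ 0) {y : LaurentSeries A}
    (hy : inc y ∈ modularFunctionFieldFullC L N) :
    red y ∈ modularFunctionFieldFullC κ N := by
  obtain ⟨Q, P, c, hQ, heq⟩ := B.exists_repr_integral hNL hy
  have h := congrArg red heq
  rw [map_mul, map_mul, HahnSeries.C_apply, coeffMap_single,
    ← algebraMap_laurentSeries_eq_single] at h
  have hne := red_evJ_ne_zero A hQ
  rw [show red y = (red (evJ A Q))⁻¹ * (red (evJ A Q) * red y) by
    rw [← mul_assoc, inv_mul_cancel₀ hne, one_mul], h]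
  refine mul_mem (inv_mem ?_) (mul_mem (IntermediateField.algebraMap_mem _ _) (B.red_comb_mem P))
  rw [coeffMap_evJ]
  exact IntermediateField.algebra_adjoin_le_adjoin κ _ |>.trans
    (adjoin_simple_le_iff.mpr (jqModC_mem_full κ N)) (aeval_mem_adjoin_singleton κ _)

end IntegralBasis

end FLTAgent.GoodReduction

end
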