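import Mathlib
import Fermat.Agent.GoodReduction.IntegralBasis
import Fermat.Agent.Igusa.Integrality

/-!
# The charts of the model and the `q`-expansion principle

Over a valuation ring the two chart rings have expansions with integral coefficients,
and integral expansions which are integral over `L[j]` (or `L[j⁻¹]`) lie in the charts
(`IntegralBasis.isIntegral_of_adjoin`, `IntegralBasis.isIntegral_of_adjoin_inv`).
-/

set_option autoImplicit false

noncomputable section

open ModularCurve Polynomial IntermediateField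

namespace FLTAgent.GoodReduction

variable {L : Type} [Field L] [Algebra ℚ L] (A : ValuationSubring L)

local notation "inc" => coeffMap (ValuationSubring.subtype A)

/-- `A[X] → L((q))`, `X ↦ s`. -/
def evAt (s : LaurentSeries L) : Polynomial A →+* LaurentSeries L :=
  eval₂RingHom ((algebraMap L (LaurentSeries L)).comp A.subtype) s

omit [Algebra ℚ L] in
theorem evAt_eq_aeval (s : LaurentSeries L) (P : Polynomial A) :
    evAt A s P = aeval s (P.map A.subtype) := by
  rw [evAt, coe_eval₂RingHom, aeval_def, eval₂_map]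

omit [Algebra ℚ L] in
theorem evAt_j (P : Polynomial A) : evAt A (jqModC L) P = inc (evJ A P) := by
  rw [evAt_eq_aeval, coeffMap_evJ]

omit [Algebra ℚ L] in
theorem range_evAt (s : LaurentSeries L) : (evAt A s).range = baseRing A s := by
  refine le_antisymm ?_ ((Subring.closure_le (t := (evAt A s).range)).mpr ?_)
  · rintro _ ⟨P, rfl⟩
    induction P using Polynomial.induction_on' with
    | add p q hp hq => rw [map_add]; exact add_mem hp hq
    | monomial n a =>
      rw [evAt, coe_eval₂RingHom, eval₂_monomial]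
      exact mul_mem (algebraMap_mem_baseRing A s a) (pow_mem (self_mem_baseRing A s) n)
  · rintro _ (rfl | ⟨a, rfl⟩)
    · exact ⟨X, by simp [evAt]⟩
    · exact ⟨C a, by simp [evAt]⟩

theorem isIntegral_subring_of_isIntegralElem {K B : Type*} [CommRing K] [CommRing B]
    {R : Subring K} {φ : B →+* K} (h : ∀ b, φ b ∈ R) {x : K} (hx : φ.IsIntegralElem x) :
    IsIntegral R x := by
  obtain ⟨p, hp, hp0⟩ := hx
  refine ⟨p.map (φ.codRestrict R h), hp.map _, ?_⟩
  rw [eval₂_map]
  exact hp0

theorem isIntegralElem_of_isIntegral_subring {K B : Type*} [CommRing K] [CommRing B] [Nontrivial K]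
    {R : Subring K} {φ : B →+* K} (h : R ≤ φ.range) {x : K} (hx : IsIntegral R x) :
    φ.IsIntegralElem x := by
  obtain ⟨p, hp, hp0⟩ := hx
  obtain ⟨q, hq, -, hqm⟩ := lifts_and_natDegree_eq_and_monic (f := φ)
    (p := p.map R.subtype) ((lifts_iff_coeff_lifts _).mpr fun n => by
      rw [coeff_map]; exact h (p.coeff n).2) (hp.map _)
  refine ⟨q, hqm, ?_⟩
  rw [← eval_map, hq, eval_map]
  exact hp0

omit [Algebra ℚ L] in
theorem isIntegral_baseRing_iff (s x : LaurentSeries L) :
    IsIntegral (baseRing A s) x ↔ (evAt A s).IsIntegralElem x :=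
  ⟨isIntegralElem_of_isIntegral_subring (range_evAt A s).ge, isIntegral_subring_of_isIntegralElem
    fun b => (range_evAt A s).le ⟨b, rfl⟩⟩

omit [Algebra ℚ L] in
theorem evAt_injective {s : LaurentSeries L} (hs : Transcendental L s) :
    Function.Injective (evAt A s) := by
  refine (injective_iff_map_eq_zero _).mpr fun P hP => ?_
  rw [evAt_eq_aeval] at hP
  exact (Polynomial.map_eq_zero_iff Subtype.val_injective).mp ((transcendental_iff.mp hs) _ hP)

omit [Algebra ℚ L] in
/-- A series over `A` inverse to `j`. -/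
theorem exists_inc_eq_inv_j : ∃ y : LaurentSeries A, inc y = (jqModC L)⁻¹ := by
  refine ⟨HahnSeries.single 1 1 * HahnSeries.ofPowerSeries ℤ A
    ((jNum.invOfUnit 1).map (Int.castRingHom A)), eq_inv_of_mul_eq_one_left ?_⟩
  rw [← coeffMap_jqModC A.subtype, ← map_mul, jqModC, mul_mul_mul_comm,
    HahnSeries.single_mul_single, ← map_mul, ← map_mul (PowerSeries.map (Int.castRingHom A)),
    mul_comm (jNum.invOfUnit 1),
    PowerSeries.mul_invOfUnit _ _ (by rw [constantCoeff_jNum]; rfl), map_one, map_one]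
  simp

omit [Algebra ℚ L] in
theorem baseRing_le_range {s : LaurentSeries L} (hs : ∃ y : LaurentSeries A, inc y = s) :
    baseRing A s ≤ (inc : LaurentSeries A →+* LaurentSeries L).range := by
  refine Subring.closure_le.mpr ?_
  rintro _ (rfl | ⟨a, rfl⟩)
  · exact hs
  · refine ⟨HahnSeries.C a, ?_⟩
    rw [HahnSeries.C_apply, coeffMap_single, RingHom.comp_apply,
      algebraMap_laurentSeries_eq_single]

omit [Algebra ℚ L] in
/-- `j(q^d)` is integral over `A[j]`. -/
theorem isIntegral_baseRing_qExpand [CharZero L] (d : ℕ) [NeZero d] :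
    IsIntegral (baseRing A (jqModC L)) (qExpand L d (jqModC L)) := by
  obtain ⟨P, hP, hP0⟩ := Igusa.isIntegralElem_qExpand_jq d
  set e : LaurentSeries ℚ →+* LaurentSeries L := coeffMap (Rat.castHom L) with he
  have hej : e jq = jqModC L := by
    rw [he, ← jqModC_rat, coeffMap_jqModC]
  have hed : e (qExpand ℚ d jq) = qExpand L d (jqModC L) := by
    rw [he, coeffMap_qExpand, ← jqModC_rat, coeffMap_jqModC]
  refine isIntegral_subring_of_isIntegralElem (φ := e.comp (Igusa.evInt jq)) (fun p => ?_)
    ⟨P, hP, ?_⟩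
  · induction p using Polynomial.induction_on' with
    | add u v hu hv => rw [map_add]; exact add_mem hu hv
    | monomial n a =>
      rw [RingHom.comp_apply, Igusa.evInt, coe_eval₂RingHom, eval₂_monomial, map_mul, map_pow, hej,
        eq_intCast, map_intCast]
      exact mul_mem (intCast_mem _ a) (pow_mem (self_mem_baseRing A _) n)
  · have := congrArg e hP0
    rwa [map_zero, hom_eval₂, hed] at this

variable {A} {N : ℕ}

omit [Algebra ℚ L] in
theorem IntegralBasis.isIntegral_comb [CharZero L] (B : IntegralBasis A N)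
    (P : Fin B.n → Polynomial A) : IsIntegral (baseRing A (jqModC L)) (inc (B.comb P)) := by
  have he : ∀ x ∈ Submonoid.closure (genSet A N), IsIntegral (baseRing A (jqModC L)) (inc x) := by
    intro x hx
    induction hx using Submonoid.closure_induction with
    | mem y hy =>
      obtain ⟨d, hd0, -, rfl⟩ := hy
      rw [coeffMap_qExpand, coeffMap_jqModC]
      exact isIntegral_baseRing_qExpand A d
    | one => rw [map_one]; exact isIntegral_one
    | mul u v _ _ hu hv => rw [map_mul]; exact hu.mul hv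
  rw [IntegralBasis.comb, map_sum]
  refine IsIntegral.sum _ fun i _ => ?_
  rw [map_mul, ← evAt_j]
  exact (isIntegral_algebraMap (x := (⟨_, (range_evAt A _).le ⟨P i, rfl⟩⟩ :
    baseRing A (jqModC L)))).mul (he _ (B.mem_closure i))

section Main

variable [CharZero L] [IsAlgClosed L] [NeZero N]
  (hrk : ∀ ϖ : A, ϖ ∈ IsLocalRing.maximalIdeal A → ∀ a : A, a ≠ 0 → ∃ n : ℕ, a ∣ ϖ ^ n)
  (B : IntegralBasis A N)

include hrk B

omit [Algebra ℚ L] in
/-- Chart elements have coefficients in `A`. -/
theorem IntegralBasis.exists_coeff_chart {s : LaurentSeries L}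
    (hs : ∃ y : LaurentSeries A, inc y = s) {f : LaurentSeries L}
    (hf : f ∈ modularFunctionFieldFullC L N) (hint : IsIntegral (baseRing A s) f) :
    ∃ y : LaurentSeries A, inc y = f :=
  B.exists_coeff (Nat.cast_ne_zero.mpr (NeZero.ne N)) hrk hf
    (isIntegralElem_of_isIntegral_subring (baseRing_le_range A hs) hint)

omit B [NeZero N] [IsAlgClosed L] [CharZero L] [Algebra ℚ L] in
/-- Clearing the denominators of an integral equation. -/
theorem exists_const_mul_isIntegral {ϖ : A} (hϖ : ϖ ∈ IsLocalRing.maximalIdeal A)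
    (s x : LaurentSeries L) (hx : IsIntegral (Algebra.adjoin L {s}) x) :
    ∃ n : ℕ, (evAt A s).IsIntegralElem (evAt A s (C (ϖ ^ n)) * x) := by
  set u : LaurentSeries L := algebraMap L (LaurentSeries L) ϖ with hu
  obtain ⟨n, hn⟩ := exists_pow_mul_isIntegral_subring (R := (Algebra.adjoin L {s}).toSubring)
    (R' := baseRing A s) (u := u) (algebraMap_mem_baseRing A s ϖ) (fun a ha => by
      rw [Subalgebra.mem_toSubring] at ha
      induction ha using Algebra.adjoin_induction with
      | mem y hy =>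
        rw [Set.mem_singleton_iff] at hy
        exact ⟨0, by rw [pow_zero, one_mul, hy]; exact self_mem_baseRing A s⟩
      | algebraMap c =>
        obtain ⟨n, hn⟩ := exists_pow_mul_mem hrk hϖ c
        exact ⟨n, by rw [hu, ← map_pow, ← map_mul]; exact algebraMap_mem_baseRing A s ⟨_, hn⟩⟩
      | add y z _ _ hy hz =>
        obtain ⟨n, hn⟩ := hy; obtain ⟨m, hm⟩ := hz
        refine ⟨n + m, ?_⟩
        rw [mul_add, pow_add]
        refine add_mem ?_ ?_
        · rw [mul_right_comm]; exact mul_mem hn (pow_mem (algebraMap_mem_baseRing A s ϖ) m)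
        · rw [mul_assoc]; exact mul_mem (pow_mem (algebraMap_mem_baseRing A s ϖ) n) hm
      | mul y z _ _ hy hz =>
        obtain ⟨n, hn⟩ := hy; obtain ⟨m, hm⟩ := hz
        exact ⟨n + m, by rw [pow_add, mul_mul_mul_comm]; exact mul_mem hn hm⟩) hx
  refine ⟨n, (isIntegral_baseRing_iff A s _).mp ?_⟩
  rw [show evAt A s (C (ϖ ^ n)) = u ^ n by
    rw [map_pow C, map_pow, hu]; simp [evAt]]
  exact hn

omit [Algebra ℚ L] in
/-- `q`-expansion principle on the finite chart. -/
theorem IntegralBasis.isIntegral_of_adjoin (hmax : ∃ ϖ : A, ϖ ∈ IsLocalRing.maximalIdeal A ∧ ϖ ≠ 0)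
    {y : LaurentSeries A} (hy : inc y ∈ modularFunctionFieldFullC L N)
    (hint : IsIntegral (Algebra.adjoin L {jqModC L}) (inc y)) :
    IsIntegral (baseRing A (jqModC L)) (inc y) := by
  obtain ⟨ϖ, hϖ, hϖ0⟩ := hmax
  obtain ⟨n, hn⟩ := exists_const_mul_isIntegral hrk hϖ _ _ hint
  obtain ⟨Q, P, c, hQ, heq⟩ := B.exists_repr_integral (Nat.cast_ne_zero.mpr (NeZero.ne N)) hy
  rw [isIntegral_baseRing_iff]
  refine isIntegralElem_of_two_multiples _ (evAt_injective A (transcendental_jqModC' L))
    (pow_ne_zero n hϖ0) hQ hn ?_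
  rw [← isIntegral_baseRing_iff, evAt_j, ← map_mul, heq, map_mul]
  refine IsIntegral.mul ?_ (B.isIntegral_comb P)
  rw [IntegralBasis.inc_C, HahnSeries.C_apply, ← algebraMap_laurentSeries_eq_single]
  exact isIntegral_algebraMap (x := (⟨_, algebraMap_mem_baseRing A _ c⟩ : baseRing A (jqModC L)))

omit [Algebra ℚ L] in
/-- `q`-expansion principle on the chart at infinity. -/
theorem IntegralBasis.isIntegral_of_adjoin_inv
    (hmax : ∃ ϖ : A, ϖ ∈ IsLocalRing.maximalIdeal A ∧ ϖ ≠ 0)
    {y : LaurentSeries A} (hy : inc y ∈ modularFunctionFieldFullC L N)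
    (hint : IsIntegral (Algebra.adjoin L {(jqModC L)⁻¹}) (inc y)) :
    IsIntegral (baseRing A (jqModC L)⁻¹) (inc y) := by
  set J := jqModC L
  have hJ : J ≠ 0 := jqModC_ne_zero_of_nontrivial L
  obtain ⟨ϖ, hϖ, hϖ0⟩ := hmax
  obtain ⟨n, hn⟩ := exists_const_mul_isIntegral hrk hϖ _ _ hint
  obtain ⟨Q, P, c, hQ, heq⟩ := B.exists_repr_integral (Nat.cast_ne_zero.mpr (NeZero.ne N)) hy
  have hQy : IsIntegral (baseRing A J) (evAt A J Q * inc y) := by
    rw [evAt_j, ← map_mul, heq, map_mul]
    refine IsIntegral.mul ?_ (B.isIntegral_comb P)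
    rw [IntegralBasis.inc_C, HahnSeries.C_apply, ← algebraMap_laurentSeries_eq_single]
    exact isIntegral_algebraMap (x := (⟨_, algebraMap_mem_baseRing A _ c⟩ : baseRing A J))
  obtain ⟨r, hr⟩ := exists_pow_mul_isIntegral_subring (R' := baseRing A J⁻¹)
    (self_mem_baseRing A J⁻¹) (fun a ha => by
      induction ha using Subring.closure_induction with
      | mem z hz =>
        rcases hz with rfl | ⟨a, rfl⟩
        · exact ⟨1, by rw [pow_one, inv_mul_cancel₀ hJ]; exact one_mem _⟩
        · exact ⟨0, by rw [pow_zero, one_mul]; exact algebraMap_mem_baseRing A _ a⟩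
      | zero => exact ⟨0, by rw [mul_zero]; exact zero_mem _⟩
      | one => exact ⟨0, by rw [pow_zero, mul_one]; exact one_mem _⟩
      | neg z _ hz =>
        obtain ⟨m, hm⟩ := hz
        exact ⟨m, by rw [mul_neg]; exact neg_mem hm⟩
      | add u v _ _ hu hv =>
        obtain ⟨m, hm⟩ := hu; obtain ⟨l, hl⟩ := hv
        refine ⟨m + l, ?_⟩
        rw [mul_add, pow_add]
        refine add_mem ?_ ?_
        · rw [mul_right_comm]; exact mul_mem hm (pow_mem (self_mem_baseRing A _) l)
        · rw [mul_assoc]; exact mul_mem (pow_mem (self_mem_baseRing A _) m) hl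
      | mul u v _ _ hu hv =>
        obtain ⟨m, hm⟩ := hu; obtain ⟨l, hl⟩ := hv
        exact ⟨m + l, by rw [pow_add, mul_mul_mul_comm]; exact mul_mem hm hl⟩) hQy
  have hrev : (X ^ r * Q.reverse).map (IsLocalRing.residue A) ≠ 0 := by
    rw [Polynomial.map_mul, Polynomial.map_pow, map_X]
    refine mul_ne_zero (pow_ne_zero _ X_ne_zero) fun h => hQ (Polynomial.ext fun i => ?_)
    by_cases hi : i ≤ Q.natDegree
    · have := congrArg (fun R => Polynomial.coeff R (revAt Q.natDegree i)) h
      simpa [coeff_reverse] using this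
    · simp [coeff_eq_zero_of_natDegree_lt (not_le.mp hi)]
  rw [isIntegral_baseRing_iff]
  refine isIntegralElem_of_two_multiples _ (evAt_injective A fun h => transcendental_jqModC' L
    (by simpa using IsAlgebraic.inv h)) (pow_ne_zero n hϖ0) hrev hn ?_
  rw [← isIntegral_baseRing_iff]
  have hrv : evAt A J⁻¹ Q.reverse = J⁻¹ ^ Q.natDegree * evAt A J Q := by
    let _ : Invertible J := invertibleOfNonzero hJ
    have h := eval₂_reverse_mul_pow ((algebraMap L (LaurentSeries L)).comp A.subtype) J Q
    rw [invOf_eq_inv] at h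
    change evAt A J⁻¹ Q.reverse * J ^ Q.natDegree = evAt A J Q at h
    rw [← h, mul_left_comm, ← mul_pow, inv_mul_cancel₀ hJ, one_pow, mul_one]
  rw [map_mul, map_pow, show evAt A J⁻¹ X = J⁻¹ by simp [evAt], hrv, mul_assoc, mul_assoc,
    mul_left_comm (J⁻¹ ^ r)]
  exact (isIntegral_algebraMap (x := (⟨J⁻¹ ^ Q.natDegree, pow_mem (self_mem_baseRing A _) _⟩ :
    baseRing A J⁻¹))).mul hr

end Main

end FLTAgent.GoodReduction

end
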