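import Mathlib

/-!
# Function fields over an invariant line

`IsInvariantLine k Γ x`: a finite group acts faithfully on a field with invariants `k(x)`.  The
integral closure of `k[x]` is then a Dedekind domain, finite over `k[x]`, with an action whose
invariants are `k[x]` (`integralClosure_props`, `exists_adjoin_of_invariant`).
-/

set_option autoImplicit false

noncomputable section

namespace FLTAgent.GoodReduction

variable {k : Type*} [Field k] {E : Type*} [Field E] [Algebra k E]
variable {Γ : Type*} [Group Γ] [MulSemiringAction Γ E]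

/-- The invariants of `Γ` in `E` are the rational functions in the transcendental element `x`. -/
structure IsInvariantLine (k : Type*) [Field k] {E : Type*} [Field E] [Algebra k E] (Γ : Type*)
    [Group Γ] [MulSemiringAction Γ E] (x : E) : Prop where
  smul_eq : ∀ g : Γ, g • x = x
  transcendental : Transcendental k x
  exists_div : ∀ z : E, (∀ g : Γ, g • z = z) → ∃ a b : Algebra.adjoin k {x},
    (b : E) ≠ 0 ∧ z * (b : E) = (a : E)

namespace IsInvariantLine

variable [SMulCommClass Γ k E] {x : E}

theorem smul_adjoin (hx : IsInvariantLine k Γ x) (g : Γ) (a : Algebra.adjoin k {x}) :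
    g • (a : E) = (a : E) := by
  obtain ⟨a, ha⟩ := a
  induction ha using Algebra.adjoin_induction with
  | mem y hy => rw [Set.mem_singleton_iff] at hy; subst hy; exact hx.smul_eq g
  | algebraMap r => exact smul_algebraMap g r
  | add u v _ _ hu hv => simpa only [smul_add] using congrArg₂ (· + ·) hu hv
  | mul u v _ _ hu hv => simpa only [smul_mul'] using congrArg₂ (· * ·) hu hv

theorem smulCommClass (hx : IsInvariantLine k Γ x) :
    SMulCommClass Γ (Algebra.adjoin k {x}) E :=
  ⟨fun g a y => by
      rw [Algebra.smul_def, Algebra.smul_def, smul_mul']; congr 1; exact hx.smul_adjoin g a⟩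

theorem smul_isIntegral (hx : IsInvariantLine k Γ x) (g : Γ) {z : E}
    (hz : IsIntegral (Algebra.adjoin k {x}) z) : IsIntegral (Algebra.adjoin k {x}) (g • z) := by
  have := hx.smulCommClass
  exact hz.map (MulSemiringAction.toAlgHom (Algebra.adjoin k {x}) E g)

omit [SMulCommClass Γ k E] in
theorem adjoin_isPrincipal (_hx : IsInvariantLine k Γ x) :
    IsPrincipalIdealRing (Algebra.adjoin k {x}) := by
  let f : Polynomial k →ₐ[k] Algebra.adjoin k {x} :=
    Polynomial.aeval ⟨x, Algebra.subset_adjoin rfl⟩
  refine IsPrincipalIdealRing.of_surjective f ?_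
  rintro ⟨y, hy⟩
  rw [Algebra.adjoin_singleton_eq_range_aeval] at hy
  obtain ⟨p, rfl⟩ := hy
  exact ⟨p, Subtype.ext (Polynomial.aeval_subalgebra_coe p _ _)⟩

omit [SMulCommClass Γ k E] in
theorem adjoin_isDedekindDomain (hx : IsInvariantLine k Γ x) :
    IsDedekindDomain (Algebra.adjoin k {x}) := by
  have := hx.adjoin_isPrincipal
  exact IsPrincipalIdealRing.isDedekindDomain _

omit [SMulCommClass Γ k E] in
theorem not_isField_adjoin (hx : IsInvariantLine k Γ x) : ¬ IsField (Algebra.adjoin k {x}) := by
  intro h
  obtain ⟨y, hy⟩ := h.mul_inv_cancel (a := ⟨x, Algebra.subset_adjoin rfl⟩)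
    (fun e => hx.transcendental (by
      have : x = 0 := congrArg Subtype.val e
      rw [this]; exact isAlgebraic_zero))
  obtain ⟨y, hymem⟩ := y
  rw [Algebra.adjoin_singleton_eq_range_aeval] at hymem
  obtain ⟨p, rfl⟩ := hymem
  have h1 : Polynomial.aeval x (Polynomial.X * p - 1) = 0 := by
    have := congrArg Subtype.val hy
    simp only [MulMemClass.coe_mul, OneMemClass.coe_one] at this
    rw [map_sub, map_mul, Polynomial.aeval_X, map_one, sub_eq_zero]
    exact this
  have h2 : Polynomial.X * p - 1 = 0 :=
    (transcendental_iff.mp hx.transcendental) _ h1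
  have := congrArg (Polynomial.eval 0) h2
  simp at this

variable [IsAlgClosed k]

/-- Residue fields of finite `k[x]`-algebras are `k`. -/
theorem exists_residue (S : Type*) [CommRing S] [Algebra k S] [Algebra (Algebra.adjoin k {x}) S]
    [IsScalarTower k (Algebra.adjoin k {x}) S] [Module.Finite (Algebra.adjoin k {x}) S]
    (P : Ideal S) (hP : P.IsMaximal) (s : S) :
    ∃ c : k, s - algebraMap k S c ∈ P := by
  have : Algebra.FiniteType k (Algebra.adjoin k {x}) :=
    (Subalgebra.fg_iff_finiteType _).mp
      (Subalgebra.fg_def.mpr ⟨{x}, Set.finite_singleton x, rfl⟩)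
  have : Algebra.FiniteType k S := Algebra.FiniteType.trans (S := Algebra.adjoin k {x})
    inferInstance inferInstance
  let : Field (S ⧸ P) := Ideal.Quotient.field P
  have : Algebra.FiniteType k (S ⧸ P) :=
    Algebra.FiniteType.of_surjective (Ideal.Quotient.mkₐ k P) Ideal.Quotient.mk_surjective
  have : Module.Finite k (S ⧸ P) := finite_of_finite_type_of_isJacobsonRing k (S ⧸ P)
  have : Algebra.IsIntegral k (S ⧸ P) := Algebra.IsIntegral.of_finite k (S ⧸ P)
  obtain ⟨c, hc⟩ := (IsAlgClosed.algebraMap_bijective_of_isIntegral (k := k) (K := S ⧸ P)).2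
    (Ideal.Quotient.mk P s)
  refine ⟨c, Ideal.Quotient.eq.mp ?_⟩
  rw [← hc]
  rfl

omit [IsAlgClosed k] in
/-- The integral closure of `k[x]` is a Dedekind domain, finite over `k[x]`, and not a field. -/
theorem integralClosure_props [Finite Γ] (hx : IsInvariantLine k Γ x) :
    IsDedekindDomain (integralClosure (Algebra.adjoin k {x}) E) ∧
      Module.Finite (Algebra.adjoin k {x}) (integralClosure (Algebra.adjoin k {x}) E) ∧
      ¬ IsField (integralClosure (Algebra.adjoin k {x}) E) := by
  let R := Algebra.adjoin k {x}
  let K0 := FixedPoints.subfield Γ E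
  let algR : Algebra R K0 :=
    ((algebraMap R E).codRestrict K0.toSubring (fun a g => hx.smul_adjoin g a)).toAlgebra
  have : IsScalarTower R K0 E := .of_algebraMap_eq fun _ => rfl
  have : FaithfulSMul R K0 := (faithfulSMul_iff_algebraMap_injective R K0).mpr fun a b h =>
    Subtype.ext (congrArg (fun w : K0 => (w : E)) h)
  have : IsFractionRing R K0 := IsFractionRing.of_field R K0 fun w => by
    obtain ⟨a, b, hb, hab⟩ := hx.exists_div (w : E) w.2
    refine ⟨a, b, Subtype.ext ?_⟩
    change (w : E) = (a : E) / (b : E)
    rw [eq_div_iff hb, hab]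
  have := hx.adjoin_isDedekindDomain
  refine ⟨IsIntegralClosure.isDedekindDomain R K0 E (integralClosure R E),
    IsIntegralClosure.finite R K0 E (integralClosure R E), fun h => ?_⟩
  exact hx.not_isField_adjoin (isField_of_isIntegral_of_isField
    (fun a b e => Subtype.ext (congrArg (fun w : integralClosure R E => (w : E)) e)) h)

/-- The action of `Γ` on the integral closure of `k[x]`. -/
@[reducible]
def closureAction (hx : IsInvariantLine k Γ x) :
    MulSemiringAction Γ (integralClosure (Algebra.adjoin k {x}) E) where
  smul g c := ⟨g • (c : E), hx.smul_isIntegral g c.2⟩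
  one_smul c := Subtype.ext (one_smul Γ (c : E))
  mul_smul a b c := Subtype.ext (mul_smul a b (c : E))
  smul_zero a := Subtype.ext (smul_zero a)
  smul_add a c d := Subtype.ext (smul_add a (c : E) (d : E))
  smul_one a := Subtype.ext (smul_one a)
  smul_mul a c d := Subtype.ext (smul_mul' a (c : E) (d : E))

omit [IsAlgClosed k] [SMulCommClass Γ k E] in
/-- The invariants of the integral closure are `k[x]`. -/
theorem exists_adjoin_of_invariant (hx : IsInvariantLine k Γ x)
    (c : E) (hc : IsIntegral (Algebra.adjoin k {x}) c) (hfix : ∀ g : Γ, g • c = c) :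
    ∃ r : Algebra.adjoin k {x}, (r : E) = c := by
  obtain ⟨a, b, hb, hab⟩ := hx.exists_div c hfix
  let R := Algebra.adjoin k {x}
  have := hx.adjoin_isDedekindDomain
  let K := FractionRing R
  let f : K →+* E := IsFractionRing.lift (g := algebraMap R E) Subtype.val_injective
  have hf : ∀ r : R, f (algebraMap R K r) = (r : E) := fun r =>
    IsFractionRing.lift_algebraMap (g := algebraMap R E) Subtype.val_injective r
  have hc' : c = f (algebraMap R K a / algebraMap R K b) := by
    rw [map_div₀, hf, hf, eq_div_iff hb, hab]
  let algKE : Algebra K E := f.toAlgebra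
  have : IsScalarTower R K E := .of_algebraMap_eq fun r => (hf r).symm
  have hi : IsIntegral R (algebraMap R K a / algebraMap R K b) :=
    (isIntegral_algHom_iff (IsScalarTower.toAlgHom R K E) f.injective).mp (hc' ▸ hc)
  obtain ⟨r, hr⟩ := IsIntegrallyClosed.isIntegral_iff.mp hi
  exact ⟨r, by rw [hc', ← hr, hf]⟩

end IsInvariantLine

end FLTAgent.GoodReduction

end
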