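import Mathlib
import Fermat.Agent.GoodReduction.InvariantLine

/-!
# A ring with a group action mapped into a field

`Model`: a ring map into a field with stable kernel.  The action extends to the field generated by
the image, the invariants are the rational functions in `j` (`isInvariantLine`) and invariants of a
subgroup are ratios of invariant elements (`inRatio_of_fixed`).
-/

set_option autoImplicit false

noncomputable section

namespace FLTAgent.GoodReduction

variable {A : Type*} [CommRing A] {C : Type*} [CommRing C] [Algebra A C]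
variable {Γ : Type*} [Group Γ] [MulSemiringAction Γ C]
variable {k : Type*} [Field k] {K : Type*} [Field K] [Algebra k K]

/-- A model of `C` in a field: `φ` has stable kernel, `Γ` acts faithfully on the image, and the
level one elements are polynomials in `j`. -/
structure Model (Γ : Type*) [Group Γ] [MulSemiringAction Γ C] (θ : A →+* k) (φ : C →+* K)
    (j : C) : Prop where
  map_algebraMap : ∀ a : A, φ (algebraMap A C a) = algebraMap k K (θ a)
  exists_ratio : ∀ c : k, ∃ a b : A, θ b ≠ 0 ∧ c * θ b = θ a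
  smul_algebraMap : ∀ (γ : Γ) (a : A), γ • algebraMap A C a = algebraMap A C a
  ker_stable : ∀ (γ : Γ) (f : C), φ f = 0 → φ (γ • f) = 0
  faithful : ∀ γ : Γ, (∀ f : C, φ (γ • f) = φ f) → γ = 1
  smul_j : ∀ γ : Γ, γ • j = j
  level_one : ∀ f : C, (∀ γ : Γ, γ • f = f) →
    ∃ P : Polynomial A, f = Polynomial.eval₂ (algebraMap A C) j P
  transcendental : Transcendental k (φ j)

/-- `z` is a ratio of `φ`-images of `H`-invariant elements. -/
def InRatio (φ : C →+* K) (H : Subgroup Γ) (z : K) : Prop :=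
  ∃ f g : C, (∀ h ∈ H, h • f = f) ∧ (∀ h ∈ H, h • g = g) ∧ φ g ≠ 0 ∧ z * φ g = φ f

variable (k) in
/-- The field generated by the image of `φ`. -/
def modelField (φ : C →+* K) : IntermediateField k K :=
  IntermediateField.adjoin k (Set.range φ)

theorem map_mem_modelField (φ : C →+* K) (f : C) : φ f ∈ modelField k φ :=
  IntermediateField.subset_adjoin k _ ⟨f, rfl⟩

namespace Model

variable {θ : A →+* k} {φ : C →+* K} {j : C}

theorem mem_modelField_iff (hm : Model Γ θ φ j) (z : K) :
    z ∈ modelField k φ ↔ ∃ f g : C, φ g ≠ 0 ∧ z * φ g = φ f := by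
  constructor
  · intro hz
    induction hz using IntermediateField.adjoin_induction with
    | mem y hy => obtain ⟨f, rfl⟩ := hy; exact ⟨f, 1, by simp, by simp⟩
    | algebraMap c =>
      obtain ⟨a, b, hb, hab⟩ := hm.exists_ratio c
      refine ⟨algebraMap A C a, algebraMap A C b, ?_, ?_⟩
      · rw [hm.map_algebraMap]
        exact fun h => hb ((map_eq_zero _).mp h)
      · rw [hm.map_algebraMap, hm.map_algebraMap, ← map_mul, hab]
    | add u v _ _ hu hv =>
      obtain ⟨f, g, hg, h⟩ := hu; obtain ⟨f', g', hg', h'⟩ := hv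
      refine ⟨f * g' + f' * g, g * g', by rw [map_mul]; exact mul_ne_zero hg hg', ?_⟩
      rw [map_add, map_mul, map_mul, map_mul, ← h, ← h']
      ring
    | inv u _ hu =>
      obtain ⟨f, g, hg, h⟩ := hu
      by_cases hu0 : u = 0
      · exact ⟨0, 1, by simp, by simp [hu0]⟩
      · refine ⟨g, f, ?_, ?_⟩
        · rw [← h]; exact mul_ne_zero hu0 hg
        · rw [← h, ← mul_assoc, inv_mul_cancel₀ hu0, one_mul]
    | mul u v _ _ hu hv =>
      obtain ⟨f, g, hg, h⟩ := hu; obtain ⟨f', g', hg', h'⟩ := hv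
      refine ⟨f * f', g * g', by rw [map_mul]; exact mul_ne_zero hg hg', ?_⟩
      rw [map_mul, map_mul, ← h, ← h']
      ring
  · rintro ⟨f, g, hg, h⟩
    rw [show z = φ f * (φ g)⁻¹ by rw [← h, mul_assoc, mul_inv_cancel₀ hg, mul_one]]
    exact mul_mem (map_mem_modelField φ f) (inv_mem (map_mem_modelField φ g))

theorem map_smul_ne_zero (hm : Model Γ θ φ j) (γ : Γ) {g : C} (hg : φ g ≠ 0) :
    φ (γ • g) ≠ 0 := fun h => hg (by
  have := hm.ker_stable γ⁻¹ _ h
  rwa [inv_smul_smul] at this)

theorem cross (hm : Model Γ θ φ j) (γ : Γ) {z : K} {f g f' g' : C}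
    (h : z * φ g = φ f) (h' : z * φ g' = φ f') :
    φ (γ • f) * φ (γ • g') = φ (γ • f') * φ (γ • g) := by
  have hzero : φ (f * g' - f' * g) = 0 := by
    rw [map_sub, map_mul, map_mul, ← h, ← h']
    ring
  have := hm.ker_stable γ _ hzero
  rw [smul_sub, smul_mul', smul_mul', map_sub, map_mul, map_mul, sub_eq_zero] at this
  exact this

/-- The action of `γ` on the model field. -/
def smulFun (hm : Model Γ θ φ j) (γ : Γ) (z : modelField k φ) : modelField k φ :=
  let h := (hm.mem_modelField_iff z).mp z.2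
  ⟨φ (γ • h.choose) * (φ (γ • h.choose_spec.choose))⁻¹,
    mul_mem (map_mem_modelField φ _) (inv_mem (map_mem_modelField φ _))⟩

theorem smulFun_spec (hm : Model Γ θ φ j) (γ : Γ) (z : modelField k φ) {f g : C}
    (_hg : φ g ≠ 0) (h : (z : K) * φ g = φ f) :
    (hm.smulFun γ z : K) * φ (γ • g) = φ (γ • f) := by
  set h0 := (hm.mem_modelField_iff z).mp z.2
  obtain ⟨hg0, heq0⟩ := h0.choose_spec.choose_spec
  have hc := hm.cross γ heq0 h
  change φ (γ • h0.choose) * (φ (γ • h0.choose_spec.choose))⁻¹ * φ (γ • g) = _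
  rw [mul_right_comm, hc, mul_assoc, mul_inv_cancel₀ (hm.map_smul_ne_zero γ hg0), mul_one]

theorem smulFun_eq (hm : Model Γ θ φ j) (γ : Γ) (z w : modelField k φ) {f g : C}
    (hg : φ g ≠ 0) (h : (z : K) * φ g = φ f) (h' : (w : K) * φ (γ • g) = φ (γ • f)) :
    hm.smulFun γ z = w :=
  Subtype.ext (mul_right_cancel₀ (hm.map_smul_ne_zero γ hg)
    ((hm.smulFun_spec γ z hg h).trans h'.symm))

/-- The action of `Γ` on the model field. -/
@[reducible]
def action (hm : Model Γ θ φ j) : MulSemiringAction Γ (modelField k φ) where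
  smul := hm.smulFun
  one_smul z := by
    obtain ⟨f, g, hg, h⟩ := (hm.mem_modelField_iff z).mp z.2
    exact hm.smulFun_eq 1 z z hg h (by simpa using h)
  mul_smul a b z := by
    obtain ⟨f, g, hg, h⟩ := (hm.mem_modelField_iff z).mp z.2
    refine hm.smulFun_eq (a * b) z _ hg h ?_
    rw [mul_smul, mul_smul]
    exact hm.smulFun_spec a _ (hm.map_smul_ne_zero b hg) (hm.smulFun_spec b z hg h)
  smul_zero a := hm.smulFun_eq a 0 0 (f := 0) (g := 1) (by simp) (by simp) (by simp)
  smul_one a := hm.smulFun_eq a 1 1 (f := 1) (g := 1) (by simp) (by simp) (by simp)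
  smul_add a z w := by
    obtain ⟨f, g, hg, h⟩ := (hm.mem_modelField_iff z).mp z.2
    obtain ⟨f', g', hg', h'⟩ := (hm.mem_modelField_iff w).mp w.2
    refine hm.smulFun_eq a (z + w) _ (f := f * g' + f' * g) (g := g * g')
      (by rw [map_mul]; exact mul_ne_zero hg hg') ?_ ?_
    · rw [map_add, map_mul, map_mul, map_mul, ← h, ← h', IntermediateField.coe_add]
      ring
    · have h1 := hm.smulFun_spec a z hg h
      have h2 := hm.smulFun_spec a w hg' h'
      change ((hm.smulFun a z : K) + (hm.smulFun a w : K)) * _ = _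
      rw [smul_add, smul_mul', smul_mul', smul_mul', map_add, map_mul, map_mul, map_mul,
        ← h1, ← h2]
      ring
  smul_mul a z w := by
    obtain ⟨f, g, hg, h⟩ := (hm.mem_modelField_iff z).mp z.2
    obtain ⟨f', g', hg', h'⟩ := (hm.mem_modelField_iff w).mp w.2
    refine hm.smulFun_eq a (z * w) _ (f := f * f') (g := g * g')
      (by rw [map_mul]; exact mul_ne_zero hg hg') ?_ ?_
    · rw [map_mul, map_mul, ← h, ← h', IntermediateField.coe_mul]
      ring
    · have h1 := hm.smulFun_spec a z hg h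
      have h2 := hm.smulFun_spec a w hg' h'
      change ((hm.smulFun a z : K) * (hm.smulFun a w : K)) * _ = _
      rw [smul_mul', smul_mul', map_mul, map_mul, ← h1, ← h2]
      ring

theorem action_map (hm : Model Γ θ φ j) (γ : Γ) (f : C) :
    hm.smulFun γ ⟨φ f, map_mem_modelField φ f⟩ = ⟨φ (γ • f), map_mem_modelField φ _⟩ :=
  hm.smulFun_eq γ _ _ (f := f) (g := 1) (by simp) (by simp) (by simp)

theorem action_smulCommClass (hm : Model Γ θ φ j) :
    letI := hm.action
    SMulCommClass Γ k (modelField k φ) := by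
  let _ := hm.action
  refine ⟨fun γ c z => ?_⟩
  have hc : ∀ c : k, γ • algebraMap k (modelField k φ) c = algebraMap k (modelField k φ) c := by
    intro c
    obtain ⟨a, b, hb, hab⟩ := hm.exists_ratio c
    refine hm.smulFun_eq γ _ _ (f := algebraMap A C a) (g := algebraMap A C b) ?_ ?_ ?_
    · rw [hm.map_algebraMap]
      exact fun h => hb ((map_eq_zero _).mp h)
    · rw [hm.map_algebraMap, hm.map_algebraMap, ← hab, map_mul]
      rfl
    · rw [hm.smul_algebraMap, hm.smul_algebraMap, hm.map_algebraMap, hm.map_algebraMap, ← hab,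
        map_mul]
      rfl
  rw [Algebra.smul_def, smul_mul', hc, Algebra.smul_def]

theorem action_faithful (hm : Model Γ θ φ j) :
    letI := hm.action
    FaithfulSMul Γ (modelField k φ) := by
  let _ := hm.action
  refine ⟨fun {a b} h => ?_⟩
  have hkey : ∀ f : C, φ ((b⁻¹ * a) • f) = φ f := fun f => by
    have h1 : (b⁻¹ * a) • (⟨φ f, map_mem_modelField φ f⟩ : modelField k φ) =
        ⟨φ f, map_mem_modelField φ f⟩ := by rw [mul_smul, h, inv_smul_smul]
    have h2 := (hm.action_map (b⁻¹ * a) f).symm.trans h1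
    exact congrArg Subtype.val h2
  exact (inv_mul_eq_one.mp (hm.faithful _ hkey)).symm

/-- Some trace has nonzero image. -/
theorem exists_trace_ne_zero (hm : Model Γ θ φ j) (H : Subgroup Γ) [Fintype H] :
    ∃ y : C, φ (∑ h : H, h • y) ≠ 0 := by
  classical
  by_contra hall
  push Not at hall
  let χ : H → (C →* K) := fun h =>
    (φ.comp (MulSemiringAction.toRingHom Γ C (h : Γ))).toMonoidHom
  have hinj : Function.Injective χ := by
    intro a b hab
    apply Subtype.ext
    refine (inv_mul_eq_one.mp (hm.faithful _ fun f => ?_)).symm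
    have := DFunLike.congr_fun hab f
    simp only [χ, RingHom.toMonoidHom_eq_coe, MonoidHom.coe_coe, RingHom.comp_apply,
      MulSemiringAction.toRingHom_apply] at this
    have h3 := hm.ker_stable (b : Γ)⁻¹ ((a : Γ) • f - (b : Γ) • f)
      (by rw [map_sub, this, sub_self])
    rw [smul_sub, map_sub, sub_eq_zero, inv_smul_smul, ← mul_smul] at h3
    exact h3
  have hli := (linearIndependent_monoidHom C K).comp χ hinj
  rw [Fintype.linearIndependent_iff] at hli
  refine one_ne_zero (hli (fun _ => (1 : K)) (funext fun y => ?_) 1)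
  have := hall y
  rw [map_sum] at this
  simpa [χ, Finset.sum_apply, Subgroup.smul_def] using this

/-- An element fixed by `H` is a ratio of `H`-invariant elements. -/
theorem inRatio_of_fixed (hm : Model Γ θ φ j) (H : Subgroup Γ) [Fintype H] (z : modelField k φ)
    (hz : ∀ h ∈ H, hm.smulFun h z = z) : InRatio φ H z := by
  classical
  obtain ⟨f, g, hg, h⟩ := (hm.mem_modelField_iff z).mp z.2
  obtain ⟨y, hy⟩ := hm.exists_trace_ne_zero H
  have hinv : ∀ u : C, ∀ a ∈ H, a • (∑ h : H, h • u) = ∑ h : H, h • u := by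
    intro u a ha
    rw [Finset.smul_sum]
    exact Fintype.sum_equiv (Equiv.mulLeft (⟨a, ha⟩ : H)) _ _ fun b => by
      rw [Subgroup.smul_def, smul_smul]; rfl
  -- make the denominator invariant
  set g' := ∏ h : H, h • g with hg'
  set f' := f * ∏ h ∈ Finset.univ.erase (1 : H), h • g with hf'
  have hg'0 : φ g' ≠ 0 := by
    rw [hg', map_prod]
    exact Finset.prod_ne_zero_iff.mpr fun a _ => hm.map_smul_ne_zero _ hg
  have hg'inv : ∀ a ∈ H, a • g' = g' := by
    intro a ha
    rw [hg', Finset.smul_prod']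
    exact Fintype.prod_equiv (Equiv.mulLeft (⟨a, ha⟩ : H)) _ _ fun b => by
      rw [Subgroup.smul_def, smul_smul]; rfl
  have hzf' : (z : K) * φ g' = φ f' := by
    rw [hg', hf', ← Finset.mul_prod_erase Finset.univ (fun h : H => h • g) (Finset.mem_univ 1),
      one_smul, map_mul, map_mul, ← mul_assoc, h]
  have hfix : ∀ a : H, φ (a • f') = φ f' := by
    intro a
    have h1 := hm.smulFun_spec (a : Γ) z hg'0 hzf'
    rw [hz _ a.2, hg'inv _ a.2, hzf'] at h1
    exact h1.symm
  clear_value f' g'
  refine ⟨∑ h : H, h • (f' * y), g' * ∑ h : H, h • y, hinv _, ?_, ?_, ?_⟩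
  · intro a ha
    rw [smul_mul', hg'inv a ha, hinv y a ha]
  · rw [map_mul]
    exact mul_ne_zero hg'0 hy
  · rw [map_mul, ← mul_assoc, hzf', map_sum, map_sum, Finset.mul_sum]
    exact Finset.sum_congr rfl fun a _ => by rw [smul_mul', map_mul, hfix]

theorem fixed_of_inRatio (hm : Model Γ θ φ j) (H : Subgroup Γ) {z : K} (hz : InRatio φ H z) :
    ∃ hmem : z ∈ modelField k φ, ∀ h ∈ H, hm.smulFun h ⟨z, hmem⟩ = ⟨z, hmem⟩ := by
  obtain ⟨f, g, hf, hg, hg0, h⟩ := hz
  exact ⟨(hm.mem_modelField_iff z).mpr ⟨f, g, hg0, h⟩, fun a ha =>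
    hm.smulFun_eq a _ _ hg0 h (by rw [hf a ha, hg a ha]; exact h)⟩

/-- Invariants of the whole group are rational functions in `j`. -/
theorem exists_div_of_fixed [Finite Γ] (hm : Model Γ θ φ j) (z : modelField k φ)
    (hz : ∀ γ : Γ, hm.smulFun γ z = z) :
    ∃ P Q : Polynomial k, Polynomial.aeval (φ j) Q ≠ 0 ∧
      (z : K) * Polynomial.aeval (φ j) Q = Polynomial.aeval (φ j) P := by
  have := Fintype.ofFinite (⊤ : Subgroup Γ)
  obtain ⟨f, g, hf, hg, hg0, h⟩ := hm.inRatio_of_fixed ⊤ z fun a _ => hz a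
  obtain ⟨P, rfl⟩ := hm.level_one f fun γ => hf γ trivial
  obtain ⟨Q, rfl⟩ := hm.level_one g fun γ => hg γ trivial
  have key : ∀ R : Polynomial A, φ (Polynomial.eval₂ (algebraMap A C) j R) =
      Polynomial.aeval (φ j) (R.map θ) := by
    intro R
    rw [Polynomial.hom_eval₂, Polynomial.aeval_def, Polynomial.eval₂_map]
    congr 1
    exact RingHom.ext hm.map_algebraMap
  exact ⟨P.map θ, Q.map θ, by rw [← key]; exact hg0, by rw [← key, ← key]; exact h⟩

theorem isInvariantLine [Finite Γ] (hm : Model Γ θ φ j) :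
    letI := hm.action
    IsInvariantLine k Γ (⟨φ j, map_mem_modelField φ j⟩ : modelField k φ) := by
  let _ := hm.action
  set x : modelField k φ := ⟨φ j, map_mem_modelField φ j⟩
  refine ⟨fun γ => ?_, ?_, fun z hz => ?_⟩
  · exact (hm.action_map γ j).trans (Subtype.ext (by rw [hm.smul_j]))
  · intro halg
    exact hm.transcendental (halg.algHom (modelField k φ).val)
  · obtain ⟨P, Q, hQ, h⟩ := hm.exists_div_of_fixed z hz
    have e : ∀ R : Polynomial k, ((Polynomial.aeval x R : modelField k φ) : K) =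
        Polynomial.aeval (φ j) R := fun R =>
      (Polynomial.aeval_algHom_apply (modelField k φ).val x R).symm
    refine ⟨⟨Polynomial.aeval x P, Polynomial.aeval_mem_adjoin_singleton k x⟩,
      ⟨Polynomial.aeval x Q, Polynomial.aeval_mem_adjoin_singleton k x⟩, fun h0 => hQ ?_, ?_⟩
    · rw [← e]
      simpa using congrArg (fun w : modelField k φ => (w : K)) h0
    · exact Subtype.ext (by
        change (z : K) * ((Polynomial.aeval x Q : modelField k φ) : K) =
          ((Polynomial.aeval x P : modelField k φ) : K)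
        rw [e, e, h])

theorem isInvariantLine_inv [Finite Γ] (hm : Model Γ θ φ j) :
    letI := hm.action
    IsInvariantLine k Γ (⟨φ j, map_mem_modelField φ j⟩⁻¹ : modelField k φ) := by
  let _ := hm.action
  set y : modelField k φ := ⟨φ j, map_mem_modelField φ j⟩ with hy
  have hy' : IsInvariantLine k Γ y := hm.isInvariantLine
  refine ⟨fun γ => by rw [smul_inv'', hy'.smul_eq], fun halg => hy'.transcendental ?_, ?_⟩
  · simpa using IsAlgebraic.inv halg
  intro z hz
  obtain ⟨a, b, hb, hab⟩ := hy'.exists_div z hz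
  -- clear denominators
  have key : ∀ a : Algebra.adjoin k {y}, ∃ (N : ℕ), ∀ n, N ≤ n →
      ∃ a' : Algebra.adjoin k {y⁻¹}, (a' : modelField k φ) = (a : modelField k φ) * y⁻¹ ^ n := by
    rintro ⟨a, ha⟩
    have hy0 : y ≠ 0 := fun h0 => hy'.transcendental (h0 ▸ isAlgebraic_zero)
    induction ha using Algebra.adjoin_induction with
    | mem w hw =>
      rw [Set.mem_singleton_iff] at hw
      subst hw
      refine ⟨1, fun n hn => ⟨⟨y⁻¹ ^ (n - 1),
        pow_mem (Algebra.subset_adjoin (Set.mem_singleton _)) _⟩, ?_⟩⟩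
      conv_rhs => rw [show n = (n - 1) + 1 by omega, pow_succ', ← mul_assoc,
        mul_inv_cancel₀ hy0, one_mul]
    | algebraMap c =>
      exact ⟨0, fun n _ => ⟨algebraMap k _ c * ⟨y⁻¹ ^ n,
        pow_mem (Algebra.subset_adjoin (Set.mem_singleton _)) _⟩, rfl⟩⟩
    | add u v _ _ hu hv =>
      obtain ⟨N, hN⟩ := hu; obtain ⟨M, hM⟩ := hv
      refine ⟨max N M, fun n hn => ?_⟩
      obtain ⟨a', ha'⟩ := hN n (le_of_max_le_left hn)
      obtain ⟨b', hb'⟩ := hM n (le_of_max_le_right hn)
      exact ⟨a' + b', by rw [AddMemClass.coe_add, ha', hb', add_mul]⟩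
    | mul u v _ _ hu hv =>
      obtain ⟨N, hN⟩ := hu; obtain ⟨M, hM⟩ := hv
      refine ⟨N + M, fun n hn => ?_⟩
      obtain ⟨a', ha'⟩ := hN N le_rfl
      obtain ⟨b', hb'⟩ := hM (n - N) (by omega)
      refine ⟨a' * b', ?_⟩
      rw [MulMemClass.coe_mul, ha', hb', show n = N + (n - N) by omega, pow_add]
      simp only [Nat.add_sub_cancel_left]
      ring
  obtain ⟨N, hN⟩ := key a
  obtain ⟨M, hM⟩ := key b
  obtain ⟨a', ha'⟩ := hN (max N M) (le_max_left _ _)
  obtain ⟨b', hb'⟩ := hM (max N M) (le_max_right _ _)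
  refine ⟨a', b', ?_, ?_⟩
  · rw [hb']
    exact mul_ne_zero hb (pow_ne_zero _ (inv_ne_zero fun h0 =>
      hy'.transcendental (h0 ▸ isAlgebraic_zero)))
  · rw [ha', hb', ← mul_assoc, hab]

end Model

end FLTAgent.GoodReduction

end
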