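import Mathlib
import Fermat.Agent.GoodReduction.Model

/-!
# Galois theory of a model

Ratios of `H`-invariant elements form a field of degree the index of `H` over the rational
functions in `j` (`relfinrank_eq_index`), generated by any invariant elements with joint stabiliser
`H` (`mem_adjoin_of_stabilizer`).
-/

set_option autoImplicit false

noncomputable section

namespace FLTAgent.GoodReduction.Model

variable {A : Type*} [CommRing A] {C : Type*} [CommRing C] [Algebra A C]
variable {Γ : Type*} [Group Γ] [MulSemiringAction Γ C] [Finite Γ]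
variable {k : Type*} [Field k] {K : Type*} [Field K] [Algebra k K]
variable {θ : A →+* k} {φ : C →+* K} {j : C}

theorem relfinrank_eq_index (hm : Model Γ θ φ j) (H : Subgroup Γ) (F₀ : IntermediateField k K)
    (hF₀ : ∀ z, z ∈ F₀ ↔ InRatio φ H z) :
    IntermediateField.relfinrank (IntermediateField.adjoin k {φ j}) F₀ = H.index := by
  classical
  have := Fintype.ofFinite Γ
  let act := hm.action
  have := hm.action_smulCommClass
  have := hm.action_faithful
  let E := modelField k φ
  let x : E := ⟨φ j, map_mem_modelField φ j⟩
  have hline : IsInvariantLine k Γ x := hm.isInvariantLine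
  let X : IntermediateField k E := IntermediateField.adjoin k {x}
  let B : IntermediateField k E := FixedPoints.intermediateField H
  let K0 : IntermediateField k E := FixedPoints.intermediateField Γ
  have hX : X = K0 := by
    refine le_antisymm (IntermediateField.adjoin_le_iff.mpr ?_) fun z hz => ?_
    · rintro _ rfl
      exact FixedPoints.mem_intermediateField_iff.mpr hline.smul_eq
    · obtain ⟨a, b, hb, hab⟩ := hline.exists_div z (FixedPoints.mem_intermediateField_iff.mp hz)
      rw [eq_div_iff hb |>.mpr hab]
      exact div_mem (IntermediateField.algebra_adjoin_le_adjoin k _ a.2)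
        (IntermediateField.algebra_adjoin_le_adjoin k _ b.2)
  have hmapB : B.map E.val = F₀ := by
    ext z
    rw [hF₀]
    constructor
    · rintro ⟨w, hw, rfl⟩
      exact hm.inRatio_of_fixed H w fun h hh =>
        (FixedPoints.mem_intermediateField_iff.mp hw) ⟨h, hh⟩
    · intro hz
      obtain ⟨hmem, hfix⟩ := hm.fixed_of_inRatio H hz
      exact ⟨⟨z, hmem⟩, FixedPoints.mem_intermediateField_iff.mpr fun h => hfix _ h.2, rfl⟩
  have hmapX : X.map E.val = IntermediateField.adjoin k {φ j} := by
    rw [IntermediateField.adjoin_map]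
    simp [x]
  rw [← hmapB, ← hmapX, IntermediateField.relfinrank_map_map, hX]
  have hle : K0 ≤ B := fun z hz => FixedPoints.mem_intermediateField_iff.mpr fun h =>
    FixedPoints.mem_intermediateField_iff.mp hz (h : Γ)
  have hfB : Module.finrank B E = Fintype.card H := FixedPoints.finrank_eq_card H E
  have hfK : Module.finrank K0 E = Fintype.card Γ := FixedPoints.finrank_eq_card Γ E
  have hmul := IntermediateField.relfinrank_mul_finrank_top hle
  rw [hfB, hfK, Fintype.card_eq_nat_card, Fintype.card_eq_nat_card,
    ← H.index_mul_card] at hmul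
  exact Nat.eq_of_mul_eq_mul_right Nat.card_pos hmul

theorem mem_adjoin_of_stabilizer (hm : Model Γ θ φ j) (H : Subgroup Γ) (S : Set C)
    (hstab : ∀ γ : Γ, (∀ s ∈ S, φ (γ • s) = φ s) → γ ∈ H)
    (z : K) (hz : InRatio φ H z) :
    z ∈ IntermediateField.adjoin k (insert (φ j) (φ '' S)) := by
  classical
  let act := hm.action
  have := hm.action_smulCommClass
  have := hm.action_faithful
  let E := modelField k φ
  let x : E := ⟨φ j, map_mem_modelField φ j⟩
  have hline : IsInvariantLine k Γ x := hm.isInvariantLine
  obtain ⟨hmem, hfix⟩ := hm.fixed_of_inRatio H hz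
  let T : Set E := insert x ((fun s => (⟨φ s, map_mem_modelField φ s⟩ : E)) '' S)
  let M : IntermediateField k E := IntermediateField.adjoin k T
  let K0 := FixedPoints.subfield Γ E
  have hK0 : ∀ w : E, w ∈ K0 → w ∈ M := by
    intro w hw
    obtain ⟨a, b, hb, hab⟩ := hline.exists_div w hw
    rw [eq_div_iff hb |>.mpr hab]
    have hmono : Algebra.adjoin k {x} ≤ M.toSubalgebra :=
      (Algebra.adjoin_le (Set.singleton_subset_iff.mpr
        (IntermediateField.subset_adjoin k T (Set.mem_insert _ _))))
    exact div_mem (show (a : E) ∈ M from hmono a.2) (show (b : E) ∈ M from hmono b.2)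
  let M₀ : IntermediateField K0 E :=
    { M.toSubfield with algebraMap_mem' := fun c => hK0 c c.2 }
  have : IsGalois K0 E := { }
  have hzM : (⟨z, hmem⟩ : E) ∈ M₀ := by
    rw [← IsGalois.fixedField_fixingSubgroup M₀, IntermediateField.mem_fixedField_iff]
    intro σ hσ
    obtain ⟨γ, rfl⟩ := FixedPoints.toAlgAut_surjective Γ E σ
    rw [IntermediateField.mem_fixingSubgroup_iff] at hσ
    refine hfix γ (hstab γ fun s hs => ?_)
    have h1 := hσ ⟨φ s, map_mem_modelField φ s⟩
      (IntermediateField.subset_adjoin k T (Set.mem_insert_of_mem _ ⟨s, hs, rfl⟩) :)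
    have h2 := (hm.action_map γ s).symm.trans h1
    exact congrArg Subtype.val h2
  have : z ∈ M.map E.val := ⟨⟨z, hmem⟩, hzM, rfl⟩
  rw [IntermediateField.adjoin_map] at this
  refine IntermediateField.adjoin.mono k _ _ ?_ this
  rintro _ ⟨w, hw, rfl⟩
  rcases hw with rfl | ⟨s, hs, rfl⟩
  · exact Set.mem_insert _ _
  · exact Set.mem_insert_of_mem _ ⟨s, hs, rfl⟩

end FLTAgent.GoodReduction.Model

end
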