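import Mathlib

/-!
# The point at a cusp

Integral elements have expansions without poles and the constant coefficient is a surjective
evaluation `evalCusp`, whose kernel is the maximal ideal of the cusp.
-/

set_option autoImplicit false

noncomputable section

namespace FLTAgent.GoodReduction

section Series

variable {k : Type*} [Field k]

theorem exists_ofPowerSeries (f : LaurentSeries k) (hf : ∀ n < 0, f.coeff n = 0) :
    ∃ p, HahnSeries.ofPowerSeries ℤ k p = f := by
  refine ⟨PowerSeries.mk fun n => f.coeff n, ?_⟩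
  ext n
  rcases le_or_gt 0 n with h | h
  · lift n to ℕ using h
    rw [HahnSeries.ofPowerSeries_apply_coeff, PowerSeries.coeff_mk]
  · rw [hf n h, HahnSeries.ofPowerSeries_apply]
    exact HahnSeries.embDomain_of_notMem_range (by rintro ⟨m, rfl⟩; exact absurd h (by simp))

theorem coeff_ofPowerSeries_neg (p : PowerSeries k) (n : ℤ) (hn : n < 0) :
    (HahnSeries.ofPowerSeries ℤ k p).coeff n = 0 := by
  rw [HahnSeries.ofPowerSeries_apply]
  exact HahnSeries.embDomain_of_notMem_range (by rintro ⟨m, rfl⟩; exact absurd hn (by simp))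

theorem coeff_zero_mul_of_nonneg (f g : LaurentSeries k) (hf : ∀ n < 0, f.coeff n = 0)
    (hg : ∀ n < 0, g.coeff n = 0) : (f * g).coeff 0 = f.coeff 0 * g.coeff 0 := by
  obtain ⟨p, rfl⟩ := exists_ofPowerSeries f hf
  obtain ⟨q, rfl⟩ := exists_ofPowerSeries g hg
  rw [← map_mul, show (0 : ℤ) = ((0 : ℕ) : ℤ) from rfl, HahnSeries.ofPowerSeries_apply_coeff,
    HahnSeries.ofPowerSeries_apply_coeff, HahnSeries.ofPowerSeries_apply_coeff,
    PowerSeries.coeff_zero_eq_constantCoeff, map_mul]

theorem coeff_one_mul_eq_zero (f g : LaurentSeries k) (hf : ∀ n : ℤ, n < 1 → f.coeff n = 0)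
    (hg : ∀ n : ℤ, n < 1 → g.coeff n = 0) : (f * g).coeff 1 = 0 := by
  obtain ⟨p, rfl⟩ := exists_ofPowerSeries f fun n hn => hf n (by omega)
  obtain ⟨q, rfl⟩ := exists_ofPowerSeries g fun n hn => hg n (by omega)
  have hp := hf 0 (by norm_num)
  have hq := hg 0 (by norm_num)
  rw [show (0 : ℤ) = ((0 : ℕ) : ℤ) from rfl, HahnSeries.ofPowerSeries_apply_coeff] at hp hq
  rw [← map_mul, show (1 : ℤ) = ((1 : ℕ) : ℤ) from rfl, HahnSeries.ofPowerSeries_apply_coeff,
    PowerSeries.coeff_mul]
  refine Finset.sum_eq_zero fun ij hij => ?_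
  rw [Finset.HasAntidiagonal.mem_antidiagonal] at hij
  rcases Nat.eq_zero_or_pos ij.1 with h | h
  · rw [h, hp, zero_mul]
  · rw [show ij.2 = 0 by omega, hq, mul_zero]

end Series

namespace IsInvariantLine

variable {k : Type*} [Field k] {E : Type*} [Field E] [Algebra k E]
variable {x : E} (ι : E →ₐ[k] LaurentSeries k)

theorem expansion_nonneg (hxι : ∀ n : ℤ, n < 1 → (ι x).coeff n = 0) {c : E}
    (hc : IsIntegral (Algebra.adjoin k {x}) c) (n : ℤ) (hn : n < 0) : (ι c).coeff n = 0 := by
  obtain ⟨px, hpx⟩ := exists_ofPowerSeries (ι x) fun n hn => hxι n (by omega)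
  have hR : ∀ r : Algebra.adjoin k {x}, ∃ p : PowerSeries k,
      algebraMap (PowerSeries k) (LaurentSeries k) p = ι (r : E) := by
    rintro ⟨r, hr⟩
    induction hr using Algebra.adjoin_induction with
    | mem y hy => rw [Set.mem_singleton_iff] at hy; subst hy; exact ⟨px, hpx⟩
    | algebraMap a =>
      refine ⟨PowerSeries.C a, ?_⟩
      rw [AlgHom.commutes]
      simp [RingHom.algebraMap_toAlgebra]
    | add u v _ _ hu hv =>
      obtain ⟨p, hp⟩ := hu; obtain ⟨q, hq⟩ := hv
      exact ⟨p + q, by rw [map_add, hp, hq, ← map_add]⟩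
    | mul u v _ _ hu hv =>
      obtain ⟨p, hp⟩ := hu; obtain ⟨q, hq⟩ := hv
      exact ⟨p * q, by rw [map_mul, hp, hq, ← map_mul]⟩
  choose pR hpR using hR
  have hinj := IsFractionRing.injective (PowerSeries k) (LaurentSeries k)
  let ρ : Algebra.adjoin k {x} →+* PowerSeries k :=
    { toFun := pR
      map_one' := hinj (by rw [hpR, map_one, OneMemClass.coe_one, map_one])
      map_mul' := fun a b => hinj (by
        rw [map_mul, hpR, hpR, hpR, MulMemClass.coe_mul, map_mul])
      map_zero' := hinj (by rw [hpR, map_zero, ZeroMemClass.coe_zero, map_zero])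
      map_add' := fun a b => hinj (by
        rw [map_add, hpR, hpR, hpR, AddMemClass.coe_add, map_add]) }
  have hi : IsIntegral (PowerSeries k) (ι c) := by
    obtain ⟨P, hP, hPc⟩ := hc
    refine ⟨P.map ρ, hP.map _, ?_⟩
    rw [Polynomial.eval₂_map]
    have := congrArg ι.toRingHom hPc
    rw [Polynomial.hom_eval₂, map_zero] at this
    refine Eq.trans ?_ this
    congr 1
    exact RingHom.ext fun r => hpR r
  obtain ⟨p, hp⟩ := IsIntegrallyClosed.isIntegral_iff.mp hi
  rw [← hp]
  exact coeff_ofPowerSeries_neg p n hn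

/-- The constant coefficient of the expansion at the cusp. -/
def evalCusp (hxι : ∀ n : ℤ, n < 1 → (ι x).coeff n = 0) :
    integralClosure (Algebra.adjoin k {x}) E →+* k where
  toFun c := (ι c).coeff 0
  map_one' := by simp
  map_mul' a b := by
    rw [MulMemClass.coe_mul, map_mul]
    exact coeff_zero_mul_of_nonneg _ _ (expansion_nonneg ι hxι a.2) (expansion_nonneg ι hxι b.2)
  map_zero' := by simp
  map_add' a b := by simp

theorem mem_ker_evalCusp_iff (hxι : ∀ n : ℤ, n < 1 → (ι x).coeff n = 0)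
    (c : integralClosure (Algebra.adjoin k {x}) E) :
    c ∈ RingHom.ker (evalCusp ι hxι) ↔ ∀ n : ℤ, n < 1 → (ι c).coeff n = 0 := by
  refine ⟨fun h n hn => ?_, fun h => h 0 (by norm_num)⟩
  rcases lt_or_ge n 0 with h' | h'
  · exact expansion_nonneg ι hxι c.2 n h'
  · rw [show n = 0 by omega]
    exact h

theorem evalCusp_surjective (hxι : ∀ n : ℤ, n < 1 → (ι x).coeff n = 0) :
    Function.Surjective (evalCusp ι hxι) := fun a => ⟨algebraMap k _ a, by
  change (ι (algebraMap k E a)).coeff 0 = a
  rw [AlgHom.commutes]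
  simp [HahnSeries.algebraMap_apply', HahnSeries.ofPowerSeries_C]⟩

end IsInvariantLine

end FLTAgent.GoodReduction

end
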