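import Mathlib
import Fermat.Agent.GoodReduction.InvariantLine
import Fermat.Agent.GoodReduction.SeriesPoint

/-!
# Separation data for the descent by norms

The whole integral closure separates points (`top_separates`); for a chart at a cusp so does a
subring with a function nonzero only at that cusp and a function of order one there
(`cusp_separates`).
-/

set_option autoImplicit false

noncomputable section

namespace FLTAgent.GoodReduction.IsInvariantLine

variable {k : Type*} [Field k] [IsAlgClosed k] {E : Type*} [Field E] [Algebra k E]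
variable {Γ : Type*} [Group Γ] [Finite Γ] [MulSemiringAction Γ E]
variable [SMulCommClass Γ k E] {x : E}

omit [IsAlgClosed k] in
/-- The whole integral closure has separation data. -/
theorem top_separates (hx : IsInvariantLine k Γ x) :
    (∀ P Q : Ideal (integralClosure (Algebra.adjoin k {x}) E),
      P.IsMaximal → Q.IsMaximal → P ≠ Q →
        ∃ c ∈ (⊤ : Subring (integralClosure (Algebra.adjoin k {x}) E)), c ∈ P ∧ c ∉ Q) ∧
    (∀ P : Ideal (integralClosure (Algebra.adjoin k {x}) E), P.IsMaximal →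
      ∃ c ∈ (⊤ : Subring (integralClosure (Algebra.adjoin k {x}) E)), c ∈ P ∧ c ∉ P ^ 2) := by
  obtain ⟨_, _, hnf⟩ := hx.integralClosure_props
  refine ⟨fun P Q hP hQ hPQ => ?_, fun P hP => ?_⟩
  · obtain ⟨c, hcP, hcQ⟩ := SetLike.not_le_iff_exists.mp
      (fun h => hPQ (hP.eq_of_le hQ.ne_top h))
    exact ⟨c, Subring.mem_top c, hcP, hcQ⟩
  · have hP0 : P ≠ ⊥ := Ring.ne_bot_of_isMaximal_of_not_isField hP hnf
    obtain ⟨c, hcP, hc⟩ := SetLike.exists_of_lt (Ideal.pow_right_strictAnti P hP0 hP.ne_top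
      (show 1 < 2 by norm_num))
    exact ⟨c, Subring.mem_top c, by simpa using hcP, hc⟩

omit [IsAlgClosed k] in
open scoped Pointwise in
/-- `Γ` permutes transitively the maximal ideals over a point of the `x`-line. -/
theorem exists_translate (hx : IsInvariantLine k Γ x)
    (P P₀ : Ideal (integralClosure (Algebra.adjoin k {x}) E)) [P.IsMaximal] [P₀.IsMaximal]
    (h : ∀ r : Algebra.adjoin k {x},
      algebraMap _ (integralClosure (Algebra.adjoin k {x}) E) r ∈ P →
      algebraMap _ (integralClosure (Algebra.adjoin k {x}) E) r ∈ P₀) :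
    ∃ g : Γ, ∀ c d : integralClosure (Algebra.adjoin k {x}) E,
      (d : E) = g • (c : E) → (c ∈ P ↔ d ∈ P₀) := by
  let _ := hx.closureAction
  let R := Algebra.adjoin k {x}
  let S := integralClosure R E
  have : Algebra.IsInvariant R S Γ := ⟨fun c hc => by
    obtain ⟨r, hr⟩ := hx.exists_adjoin_of_invariant (c : E) c.2
      (fun g => congrArg (fun w : S => (w : E)) (hc g))
    exact ⟨r, Subtype.ext hr⟩⟩
  have : SMulCommClass Γ R S := ⟨fun g r c => by
    refine Subtype.ext ?_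
    change g • ((r : E) * (c : E)) = (r : E) * (g • (c : E))
    rw [smul_mul', hx.smul_adjoin g r]⟩
  have : (P.under R).IsMaximal := Ideal.isMaximal_comap_of_isIntegral_of_isMaximal P
  have : (P₀.under R).IsMaximal := Ideal.isMaximal_comap_of_isIntegral_of_isMaximal P₀
  have hunder : P.under R = P₀.under R :=
    Ideal.IsMaximal.eq_of_le inferInstance (Ideal.IsPrime.ne_top') fun r hr => h r hr
  obtain ⟨g, hg⟩ := Algebra.IsInvariant.exists_smul_of_under_eq R S Γ P₀ P hunder.symm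
  refine ⟨g⁻¹, fun c d hd => ?_⟩
  have : d = g⁻¹ • c := Subtype.ext hd
  rw [hg, this]
  exact Ideal.mem_pointwise_smul_iff_inv_smul_mem

/-- Separation data for a chart at a cusp. -/
theorem cusp_separates (hx : IsInvariantLine k Γ x) (ι : E →ₐ[k] LaurentSeries k)
    (hxι : ∀ n : ℤ, n < 1 → (ι x).coeff n = 0)
    (T : Subring (integralClosure (Algebra.adjoin k {x}) E))
    (hk : ∀ (a : k) (c : integralClosure (Algebra.adjoin k {x}) E),
      (c : E) = algebraMap k E a → c ∈ T)
    (hxT : ∀ c : integralClosure (Algebra.adjoin k {x}) E, (c : E) = x → c ∈ T)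
    (hstab : ∀ (h : Γ) (c d : integralClosure (Algebra.adjoin k {x}) E),
      c ∈ T → (d : E) = h • (c : E) → d ∈ T)
    (hloc : ∀ z : E, IsIntegral (Algebra.adjoin k {x}) z → ∃ (n : ℕ)
      (c : integralClosure (Algebra.adjoin k {x}) E), (c : E) = z * x ^ n ∧ c ∈ T)
    (ψ : integralClosure (Algebra.adjoin k {x}) E) (hψT : ψ ∈ T)
    (hψ : (ι ψ).coeff 0 ≠ 0)
    (hψg : ∀ g : Γ, (ι (g • (ψ : E))).coeff 0 = 0 ∨
      ∀ z : E, (∀ n : ℤ, n < 1 → (ι z).coeff n = 0) → ∀ n : ℤ, n < 1 → (ι (g • z)).coeff n = 0)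
    (u : integralClosure (Algebra.adjoin k {x}) E) (huT : u ∈ T)
    (hu0 : (ι u).coeff 0 = 0) (hu1 : (ι u).coeff 1 ≠ 0) :
    (∀ P Q : Ideal (integralClosure (Algebra.adjoin k {x}) E),
      P.IsMaximal → Q.IsMaximal → P ≠ Q → ∃ c ∈ T, c ∈ P ∧ c ∉ Q) ∧
    (∀ P : Ideal (integralClosure (Algebra.adjoin k {x}) E), P.IsMaximal →
      ∃ c ∈ T, c ∈ P ∧ c ∉ P ^ 2) := by
  obtain ⟨hded, hfin, hnf⟩ := hx.integralClosure_props
  let R := Algebra.adjoin k {x}
  let S := integralClosure R E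
  let xS : S := algebraMap R S ⟨x, Algebra.subset_adjoin rfl⟩
  have hxS : xS ∈ T := hxT xS rfl
  let P₀ := RingHom.ker (evalCusp ι hxι)
  have hP₀ : P₀.IsMaximal := RingHom.ker_isMaximal_of_surjective _ (evalCusp_surjective ι hxι)
  have hxP₀ : xS ∈ P₀ := hxι 0 (by norm_num)
  have hres := fun P hP s => exists_residue (k := k) (x := x) S P hP s
  have htrans : ∀ P : Ideal S, P.IsMaximal → xS ∈ P →
      ∃ g : Γ, ∀ c d : S, (d : E) = g • (c : E) → (c ∈ P ↔ d ∈ P₀) := by
    intro P hP hxP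
    refine hx.exists_translate P P₀ fun r hr => ?_
    -- modulo `x` an element of `k[x]` is a constant
    obtain ⟨a, r', hrr⟩ : ∃ (a : k) (r' : S), algebraMap R S r = algebraMap k S a + xS * r' := by
      obtain ⟨r, hrmem⟩ := r
      clear hr
      induction hrmem using Algebra.adjoin_induction with
      | mem y hy =>
        rw [Set.mem_singleton_iff] at hy
        subst hy
        exact ⟨0, 1, by rw [map_zero, zero_add, mul_one]⟩
      | algebraMap a => exact ⟨a, 0, by rw [mul_zero, add_zero]; rfl⟩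
      | add u v hu' hv' hu hv =>
        obtain ⟨a, p, hp⟩ := hu; obtain ⟨b, q, hq⟩ := hv
        refine ⟨a + b, p + q, ?_⟩
        rw [map_add, mul_add, add_add_add_comm, ← hp, ← hq, ← map_add]
        rfl
      | mul u v hu' hv' hu hv =>
        obtain ⟨a, p, hp⟩ := hu; obtain ⟨b, q, hq⟩ := hv
        refine ⟨a * b, algebraMap k S a * q + p * algebraMap k S b + xS * p * q, ?_⟩
        rw [show (⟨u * v, _⟩ : R) = ⟨u, hu'⟩ * ⟨v, hv'⟩ from rfl, map_mul, hp, hq, map_mul]
        ring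
    rw [hrr] at hr ⊢
    have ha : a = 0 := by
      by_contra hne
      exact hP.ne_top (Ideal.eq_top_of_isUnit_mem _
        ((Ideal.add_mem_iff_left _ (P.mul_mem_right _ hxP)).mp hr) ((IsUnit.mk0 _ hne).map _))
    rw [ha, map_zero, zero_add]
    exact P₀.mul_mem_right _ hxP₀
  have hlocS : ∀ c : S, ∃ (n : ℕ), c * xS ^ n ∈ T := by
    intro c
    obtain ⟨n, d, hd, hdT⟩ := hloc c c.2
    refine ⟨n, ?_⟩
    rwa [show c * xS ^ n = d from Subtype.ext (by rw [hd]; simp [xS])]
  have hnpow : ∀ P : Ideal S, P.IsMaximal → xS ∉ P → ∀ n, xS ^ n ∉ P :=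
    fun P hP hxP n h => hxP (hP.isPrime.mem_of_pow_mem n h)
  have hsm : ∀ (g : Γ) (c : S), ∃ d : S, (d : E) = g • (c : E) :=
    fun g c => ⟨⟨_, hx.smul_isIntegral g c.2⟩, rfl⟩
  refine ⟨fun P Q hP hQ hPQ => ?_, fun P hP => ?_⟩
  · by_cases hxP : xS ∈ P <;> by_cases hxQ : xS ∈ Q
    · obtain ⟨g, hg⟩ := htrans P hP hxP
      obtain ⟨g', hg'⟩ := htrans Q hQ hxQ
      obtain ⟨d, hd⟩ := hsm g'⁻¹ ψ
      refine ⟨d, hstab _ _ _ hψT hd, ?_, ?_⟩
      · obtain ⟨e, he⟩ := hsm (g * g'⁻¹) ψ
        rw [hg d e (by rw [hd, he, mul_smul])]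
        rcases hψg (g * g'⁻¹) with h | h
        · change (ι e).coeff 0 = 0
          rw [he]
          exact h
        · exfalso
          apply hPQ
          refine (hQ.eq_of_le hP.ne_top fun c hc => ?_).symm
          obtain ⟨c₁, hc₁⟩ := hsm g c
          obtain ⟨c₂, hc₂⟩ := hsm g' c
          rw [hg c c₁ hc₁]
          rw [hg' c c₂ hc₂, mem_ker_evalCusp_iff] at hc
          rw [mem_ker_evalCusp_iff]
          intro n hn
          have := h c₂ hc n hn
          rwa [hc₂, smul_smul, inv_mul_cancel_right, ← hc₁] at this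
      · rw [hg' d ψ (by rw [hd, smul_inv_smul])]
        exact hψ
    · exact ⟨xS, hxS, hxP, hxQ⟩
    · obtain ⟨a, ha⟩ := hres P hP xS
      refine ⟨xS - algebraMap k S a, sub_mem hxS (hk a _ rfl), ha, fun h => ?_⟩
      have ha0 : a ≠ 0 := by
        rintro rfl
        rw [map_zero, sub_zero] at ha
        exact hxP ha
      exact hQ.ne_top (Ideal.eq_top_of_isUnit_mem _ (by simpa using Q.sub_mem hxQ h)
        ((IsUnit.mk0 _ ha0).map _))
    · obtain ⟨c, hcP, hcQ⟩ := SetLike.not_le_iff_exists.mp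
        (fun h => hPQ (hP.eq_of_le hQ.ne_top h))
      obtain ⟨n, hn⟩ := hlocS c
      exact ⟨_, hn, P.mul_mem_right _ hcP,
        fun h => (hQ.isPrime.mem_or_mem h).elim hcQ (hnpow Q hQ hxQ n)⟩
  · have hP0 : P ≠ ⊥ := Ring.ne_bot_of_isMaximal_of_not_isField hP hnf
    by_cases hxP : xS ∈ P
    · obtain ⟨g, hg⟩ := htrans P hP hxP
      obtain ⟨d, hd⟩ := hsm g⁻¹ u
      refine ⟨d, hstab _ _ _ huT hd, ?_, fun h => ?_⟩
      · rw [hg d u (by rw [hd, smul_inv_smul])]
        exact hu0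
      apply hu1
      suffices h2 : (ι (g • (d : E))).coeff 1 = 0 by rwa [hd, smul_inv_smul] at h2
      rw [pow_two] at h
      refine Submodule.mul_induction_on h (fun a ha b hb => ?_) (fun a b ha hb => ?_)
      · obtain ⟨a₁, ha₁⟩ := hsm g a
        obtain ⟨b₁, hb₁⟩ := hsm g b
        rw [MulMemClass.coe_mul, smul_mul', ← ha₁, ← hb₁, map_mul]
        exact coeff_one_mul_eq_zero _ _
          ((mem_ker_evalCusp_iff ι hxι _).mp ((hg a a₁ ha₁).mp ha))
          ((mem_ker_evalCusp_iff ι hxι _).mp ((hg b b₁ hb₁).mp hb))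
      · rw [AddMemClass.coe_add, smul_add, map_add, HahnSeries.coeff_add, ha, hb, add_zero]
    · obtain ⟨c, hcP, hc⟩ := SetLike.exists_of_lt (Ideal.pow_right_strictAnti P hP0 hP.ne_top
        (show 1 < 2 by norm_num))
      obtain ⟨n, hn⟩ := hlocS c
      refine ⟨_, hn, P.mul_mem_right _ (by simpa using hcP), fun h => hc ?_⟩
      rw [mul_comm] at h
      exact (Ideal.IsPrime.mul_mem_pow P h).resolve_left (hnpow P hP hxP n)

end FLTAgent.GoodReduction.IsInvariantLine

end
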