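import Mathlib

/-!
# When a subalgebra of a Dedekind domain is everything

Over a base with trivial residue extensions, a subalgebra which separates maximal ideals and
contains an element of order one at each is the whole ring (`subalgebra_eq_top_of_separates`).
-/

set_option autoImplicit false

noncomputable section

namespace FLTAgent.GoodReduction

variable {R S : Type*} [CommRing R] [CommRing S] [Algebra R S]

theorem subalgebra_eq_top_of_separates [IsDedekindDomain S] [Module.Finite R S]
    (D : Subalgebra R S)
    (hres : ∀ P : Ideal S, P.IsMaximal → ∀ s : S, ∃ r : R, s - algebraMap R S r ∈ P)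
    (hsep : ∀ P Q : Ideal S, P.IsMaximal → Q.IsMaximal → P ≠ Q → ∃ d ∈ D, d ∈ P ∧ d ∉ Q)
    (htan : ∀ P : Ideal S, P.IsMaximal → ∃ d ∈ D, d ∈ P ∧ d ∉ P ^ 2) :
    D = ⊤ := by
  classical
  have hfinD : Module.Finite D S := Module.Finite.of_restrictScalars_finite R D S
  have : Algebra.IsIntegral D S := Algebra.IsIntegral.of_finite D S
  -- the conductor of `D` in `S`
  let I : Ideal D :=
    { carrier := {d | ∀ s : S, (d : S) * s ∈ D}
      zero_mem' := fun s => by simp
      add_mem' := fun {a b} ha hb s => by
        rw [AddMemClass.coe_add, add_mul]; exact add_mem (ha s) (hb s)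
      smul_mem' := fun c a ha s => by
        rw [smul_eq_mul, MulMemClass.coe_mul, mul_assoc]; exact mul_mem c.2 (ha s) }
  suffices hI : (1 : D) ∈ I by
    refine eq_top_iff.mpr fun s _ => ?_
    simpa using hI s
  by_contra h1
  obtain ⟨p, hp, hIp⟩ := Ideal.exists_le_maximal I ((Ideal.ne_top_iff_one I).mpr h1)
  obtain ⟨P, hP, hPp⟩ := Ideal.exists_ideal_over_maximal_of_isIntegral (S := S) p
    (by
      rw [show RingHom.ker (algebraMap D S) = ⊥ from
        (RingHom.injective_iff_ker_eq_bot _).mp Subtype.val_injective]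
      exact bot_le)
  -- `P` is the only maximal ideal over `p`
  have huniq : ∀ Q : Ideal S, Q.IsMaximal → p.map (algebraMap D S) ≤ Q → Q = P := by
    intro Q hQ hpQ
    by_contra hne
    obtain ⟨d, hdD, hdP, hdQ⟩ := hsep P Q hP hQ (Ne.symm hne)
    apply hdQ
    exact hpQ (Ideal.mem_map_of_mem (algebraMap D S) (x := ⟨d, hdD⟩)
      (hPp ▸ (hdP : algebraMap D S ⟨d, hdD⟩ ∈ P)))
  obtain ⟨d, hdD, hdP, hdP2⟩ := htan P hP
  have hdp : d ∈ p.map (algebraMap D S) :=
    Ideal.mem_map_of_mem (algebraMap D S) (x := ⟨d, hdD⟩)
      (hPp ▸ (hdP : algebraMap D S ⟨d, hdD⟩ ∈ P))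
  have hpP : p.map (algebraMap D S) ≤ P := Ideal.map_le_iff_le_comap.mpr hPp.ge
  have hne0 : p.map (algebraMap D S) ≠ ⊥ := by
    intro h
    rw [h, Ideal.mem_bot] at hdp
    exact hdP2 (hdp ▸ zero_mem _)
  have hP0 : P ≠ ⊥ := fun h => hne0 (le_bot_iff.mp (h ▸ hpP))
  have hmap : p.map (algebraMap D S) = P := by
    open UniqueFactorizationMonoid in
    have hfac : normalizedFactors (p.map (algebraMap D S)) =
        Multiset.replicate (Multiset.card (normalizedFactors (p.map (algebraMap D S)))) P := by
      refine Multiset.eq_replicate_card.mpr fun Q hQ => ?_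
      have hQp := (Ideal.mem_normalizedFactors_iff hne0).mp hQ
      have hQ0 : Q ≠ ⊥ := fun h => by
        have := (prime_of_normalized_factor Q hQ).ne_zero
        exact this h
      exact huniq Q (hQp.1.isMaximal hQ0) hQp.2
    open UniqueFactorizationMonoid in
    have hprod := associated_iff_eq.mp (prod_normalizedFactors hne0)
    rw [hfac, Multiset.prod_replicate] at hprod
    rcases Nat.lt_or_ge (Multiset.card (UniqueFactorizationMonoid.normalizedFactors
      (p.map (algebraMap D S)))) 2 with h | h
    · interval_cases hc : Multiset.card (UniqueFactorizationMonoid.normalizedFactors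
        (p.map (algebraMap D S)))
      · exfalso
        rw [pow_zero, Ideal.one_eq_top] at hprod
        exact hP.ne_top (top_le_iff.mp (hprod ▸ hpP))
      · rw [← hprod, pow_one]
    · exfalso
      apply hdP2
      rw [← hprod] at hdp
      exact Ideal.pow_le_pow_right h hdp
  -- Nakayama for the quotient `S / D`
  let N : Submodule D S := Submodule.span D {1}
  have hN : ∀ s : S, s ∈ D → s ∈ N := fun s hs =>
    Submodule.mem_span_singleton.mpr ⟨⟨s, hs⟩, mul_one _⟩
  have hN' : ∀ s : S, s ∈ N → s ∈ D := by
    intro s hs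
    obtain ⟨c, rfl⟩ := Submodule.mem_span_singleton.mp hs
    exact mul_mem c.2 (one_mem D)
  have hle : (⊤ : Submodule D (S ⧸ N)) ≤ p • (⊤ : Submodule D (S ⧸ N)) := by
    intro q _
    obtain ⟨s, rfl⟩ := Submodule.Quotient.mk_surjective N q
    obtain ⟨r, hr⟩ := hres P hP s
    have : Submodule.Quotient.mk (p := N) s = Submodule.Quotient.mk (s - algebraMap R S r) :=
      (Submodule.Quotient.eq N).mpr (by
        rw [sub_sub_cancel]; exact hN _ (D.algebraMap_mem r))
    rw [this]
    have hmem : s - algebraMap R S r ∈ p • (⊤ : Submodule D S) := by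
      rw [Ideal.smul_top_eq_map]
      exact (by rw [hmap]; exact hr : s - algebraMap R S r ∈ p.map (algebraMap D S))
    have := Submodule.mem_map_of_mem (f := N.mkQ) hmem
    rw [Submodule.map_smul'', Submodule.map_top, Submodule.range_mkQ] at this
    exact this
  obtain ⟨a, ha, haM⟩ := Submodule.exists_sub_one_mem_and_smul_eq_zero_of_fg_of_le_smul p ⊤
    Module.Finite.fg_top hle
  have haI : a ∈ I := by
    intro s
    have := haM (Submodule.Quotient.mk (p := N) s) Submodule.mem_top
    rw [← Submodule.Quotient.mk_smul, Submodule.Quotient.mk_eq_zero] at this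
    exact hN' _ this
  exact hp.ne_top ((Ideal.eq_top_iff_one p).mpr (by
    have := sub_mem (hIp haI) ha
    simpa using this))

end FLTAgent.GoodReduction

end
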