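import Mathlib
import Fermat.Agent.GoodReduction.SubalgebraCriterion

/-!
# Norms of a separating subring generate the invariants

In a Dedekind domain with an action of a finite group `H`, a stable subring which separates
maximal ideals and has elements of order one everywhere has norms generating the invariants
(`subalgebra_eq_top_of_norms`).
-/

set_option autoImplicit false

noncomputable section

open scoped Pointwise

namespace FLTAgent.GoodReduction

variable {S : Type*} [CommRing S]

/-- An element of order one times an element outside `P` has order one. -/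
theorem mul_notMem_sq {P : Ideal S} [P.IsMaximal] {d e : S} (hdP : d ∈ P) (hd : d ∉ P ^ 2)
    (he : e ∉ P) : d * e ∈ P ∧ d * e ∉ P ^ 2 := by
  refine ⟨P.mul_mem_right _ hdP, fun h => hd ?_⟩
  obtain ⟨u, hu⟩ := Ideal.IsMaximal.exists_inv (I := P) inferInstance he
  obtain ⟨i, hi, hue⟩ := hu
  have : d = d * e * (u * (1 + i)) + d * i * i := by linear_combination (-d - d * i) * hue
  rw [this]
  exact add_mem (Ideal.mul_mem_right _ _ h)
    (by rw [mul_assoc, sq]; exact Ideal.mul_mem_mul hdP (P.mul_mem_right _ hi))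

variable {T : Subring S}

/-- Pairwise separation gives an element vanishing on a finite set and not at a further point. -/
theorem exists_separating_finset
    (hsep : ∀ P Q : Ideal S, P.IsMaximal → Q.IsMaximal → P ≠ Q → ∃ c ∈ T, c ∈ P ∧ c ∉ Q)
    (F : Finset (Ideal S)) (hF : ∀ P ∈ F, P.IsMaximal) (Q : Ideal S) (hQ : Q.IsMaximal)
    (hQF : Q ∉ F) : ∃ c ∈ T, (∀ P ∈ F, c ∈ P) ∧ c ∉ Q := by
  classical
  induction F using Finset.induction_on with
  | empty => exact ⟨1, one_mem T, by simp, fun h => hQ.ne_top ((Ideal.eq_top_iff_one Q).mpr h)⟩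
  | insert P F hPF ih =>
    obtain ⟨c, hcT, hcF, hcQ⟩ := ih (fun P' hP' => hF P' (Finset.mem_insert_of_mem hP'))
      (fun h => hQF (Finset.mem_insert_of_mem h))
    obtain ⟨d, hdT, hdP, hdQ⟩ := hsep P Q (hF P (Finset.mem_insert_self _ _)) hQ
      (fun h => hQF (h ▸ Finset.mem_insert_self _ _))
    refine ⟨d * c, mul_mem hdT hcT, fun P' hP' => ?_, fun h => ?_⟩
    · rcases Finset.mem_insert.mp hP' with rfl | hP'
      · exact Ideal.mul_mem_right _ _ hdP
      · exact Ideal.mul_mem_left _ _ (hcF P' hP')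
    · rcases hQ.isPrime.mem_or_mem h with h | h
      · exact hdQ h
      · exact hcQ h

variable {R S' : Type*} [CommRing R] [CommRing S'] [Algebra R S'] [Algebra S' S] [Algebra R S]
  [IsScalarTower R S' S]
variable {H : Type*} [Group H] [Fintype H] [MulSemiringAction H S]

omit [Fintype H] in
/-- A conjugate of a maximal ideal is maximal. -/
private theorem isMaximal_smul {P : Ideal S} (hP : P.IsMaximal) (h : H) : (h • P).IsMaximal := by
  rw [Ideal.pointwise_smul_eq_comap]
  exact Ideal.comap_isMaximal_of_surjective (H := hP) _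
    (MulSemiringAction.toRingEquiv H S h).symm.surjective

/-- An element of `T` vanishing on one finite set of maximal ideals and at no point of another. -/
private theorem exists_mem_of_disjoint
    (hsep : ∀ P Q : Ideal S, P.IsMaximal → Q.IsMaximal → P ≠ Q → ∃ c ∈ T, c ∈ P ∧ c ∉ Q)
    {OP OQ : Finset (Ideal S)} (hOP : ∀ U ∈ OP, U.IsMaximal) (hOQ : ∀ U ∈ OQ, U.IsMaximal)
    (hdisj : ∀ U ∈ OP, U ∉ OQ) : ∃ c ∈ T, (∀ U ∈ OP, c ∈ U) ∧ ∀ U ∈ OQ, c ∉ U := by
  classical
  choose e heT he0 he1 using fun U : OQ => exists_separating_finset hsep ((OP ∪ OQ).erase U.1)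
    (fun V hV => by
      rcases Finset.mem_union.mp (Finset.mem_of_mem_erase hV) with h | h
      · exact hOP V h
      · exact hOQ V h) U.1 (hOQ U.1 U.2) (Finset.notMem_erase _ _)
  set c := ∑ U : OQ, e U with hc
  have hcT : c ∈ T := sum_mem fun U _ => heT U
  have hcP : ∀ U ∈ OP, c ∈ U := fun U hU => Ideal.sum_mem _ fun V _ => he0 V U
    (Finset.mem_erase.mpr ⟨fun h => hdisj U hU (h ▸ V.2), Finset.mem_union_left _ hU⟩)
  have hcQ : ∀ U ∈ OQ, c ∉ U := by
    intro U hU hcU
    rw [hc, Finset.sum_eq_add_sum_sdiff_singleton_of_mem (Finset.mem_univ (⟨U, hU⟩ : OQ))] at hcU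
    apply he1 ⟨U, hU⟩
    refine (Ideal.add_mem_iff_left _ ?_).mp hcU
    refine Ideal.sum_mem _ fun V hV => he0 V U
      (Finset.mem_erase.mpr ⟨fun h => ?_, Finset.mem_union_right _ hU⟩)
    simp only [Finset.mem_sdiff, Finset.mem_singleton] at hV
    exact hV.2 (Subtype.ext h.symm)
  exact ⟨c, hcT, hcP, hcQ⟩

/-- An element of `T` of order one at `P` outside finitely many other maximal ideals. -/
private theorem exists_order_one_avoiding
    (hsep : ∀ P Q : Ideal S, P.IsMaximal → Q.IsMaximal → P ≠ Q → ∃ c ∈ T, c ∈ P ∧ c ∉ Q)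
    {P : Ideal S} [hP : P.IsMaximal] (htan : ∃ c ∈ T, c ∈ P ∧ c ∉ P ^ 2)
    {O : Finset (Ideal S)} (hO : ∀ U ∈ O, U.IsMaximal) (hPO : P ∉ O) :
    ∃ c ∈ T, c ∈ P ∧ c ∉ P ^ 2 ∧ ∀ U ∈ O, c ∉ U := by
  classical
  obtain ⟨eP, hePT, heP0, heP1⟩ :=
    exists_separating_finset hsep O hO P hP hPO
  choose e heT he0 he1 using fun U : O => exists_separating_finset hsep
    (insert P (O.erase U.1))
    (fun V hV => by
      rcases Finset.mem_insert.mp hV with rfl | h
      · exact hP
      · exact hO V (Finset.mem_of_mem_erase h)) U.1 (hO U.1 U.2)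
    (fun h => (Finset.mem_insert.mp h).elim
      (fun e => hPO (e ▸ U.2)) (Finset.notMem_erase _ _))
  obtain ⟨d, hdT, hdP, hdP2⟩ := htan
  obtain ⟨hdeP, hdeP2⟩ := mul_notMem_sq hdP hdP2 heP1
  set c := d * eP + ∑ U : O, e U ^ 2 with hc
  have hcT : c ∈ T := add_mem (mul_mem hdT hePT) (sum_mem fun U _ => pow_mem (heT U) 2)
  have hsum2 : ∑ U : O, e U ^ 2 ∈ P ^ 2 :=
    Ideal.sum_mem _ fun U _ => Ideal.pow_mem_pow (he0 U P (Finset.mem_insert_self _ _)) 2
  have hcP : c ∈ P := add_mem hdeP (Ideal.pow_le_self two_ne_zero hsum2)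
  have hcP2 : c ∉ P ^ 2 := fun h => hdeP2 ((Ideal.add_mem_iff_left _ hsum2).mp h)
  have hcO : ∀ U ∈ O, c ∉ U := by
    intro U hU hcU
    have h1 : d * eP ∈ U := Ideal.mul_mem_left _ _ (heP0 U hU)
    rw [hc, Ideal.add_mem_iff_right _ h1,
      Finset.sum_eq_add_sum_sdiff_singleton_of_mem (Finset.mem_univ (⟨U, hU⟩ : O))] at hcU
    apply he1 ⟨U, hU⟩
    refine (hO U hU).isPrime.mem_of_pow_mem 2 ((Ideal.add_mem_iff_left _ ?_).mp hcU)
    refine Ideal.sum_mem _ fun V hV => Ideal.pow_mem_of_mem _ (he0 V U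
      (Finset.mem_insert_of_mem (Finset.mem_erase.mpr ⟨fun h => ?_, hU⟩))) 2 two_pos
    simp only [Finset.mem_sdiff, Finset.mem_singleton] at hV
    exact hV.2 (Subtype.ext h.symm)
  exact ⟨c, hcT, hcP, hcP2, hcO⟩

omit [Fintype H] in
open IsDedekindDomain in
/-- If `c` has order one at `P` and order zero at the other conjugates of `P`, then `h • c` has
order one at `P` for `h` fixing `P` and order zero otherwise. -/
private theorem intValuation_smul [IsDedekindDomain S] (v : HeightOneSpectrum S) {c : S}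
    (hcP : c ∈ v.asIdeal) (hcP2 : c ∉ v.asIdeal ^ 2)
    (hcO : ∀ h : H, h • v.asIdeal ≠ v.asIdeal → c ∉ h • v.asIdeal) (h : H)
    [Decidable (h ∈ MulAction.stabilizer H v.asIdeal)] :
    v.intValuation (h • c) =
      if h ∈ MulAction.stabilizer H v.asIdeal then WithZero.exp (-(1 : ℤ)) else 1 := by
  set P := v.asIdeal with hPdef
  split_ifs with hh
  · have hfix : h⁻¹ • P = P := inv_smul_eq_iff.mpr (MulAction.mem_stabilizer_iff.mp hh).symm
    have h1 : h • c ∈ v.asIdeal ^ 1 := by
      rw [pow_one]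
      show h • c ∈ P
      rw [← Ideal.mem_inv_pointwise_smul_iff, hfix]
      exact hcP
    have h2 : h • c ∉ v.asIdeal ^ 2 := by
      show h • c ∉ P ^ 2
      intro hmem
      apply hcP2
      have := Ideal.smul_mem_pointwise_smul h⁻¹ _ _ hmem
      rw [inv_smul_smul, smul_pow', hfix] at this
      exact this
    refine le_antisymm ((v.intValuation_le_pow_iff_mem _ 1).mpr h1) ?_
    by_contra hlt
    push Not at hlt
    apply h2
    rw [← v.intValuation_le_pow_iff_mem]
    rcases eq_or_ne (v.intValuation (h • c)) 0 with h0 | h0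
    · rw [h0]; exact zero_le
    · obtain ⟨m, hm⟩ : ∃ m : ℤ, v.intValuation (h • c) = WithZero.exp m :=
        ⟨_, (WithZero.exp_log h0).symm⟩
      rw [hm, WithZero.exp_lt_exp] at hlt
      rw [hm, WithZero.exp_le_exp]
      push_cast
      omega
  · rw [HeightOneSpectrum.intValuation_eq_one_iff]
    show h • c ∉ P
    rw [← Ideal.mem_inv_pointwise_smul_iff]
    refine hcO _ fun e => hh ?_
    rw [MulAction.mem_stabilizer_iff]
    exact (inv_smul_eq_iff.mp e).symm

/-- The stabiliser of `P` has the order of the ramification index, residue degrees being one. -/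
private theorem ramificationIdx_eq_card_stabilizer [IsDedekindDomain S] [IsDedekindDomain S']
    [Module.Finite S' S] [Module.IsTorsionFree S' S] [IsGaloisGroup H S' S]
    (hres : ∀ P : Ideal S, P.IsMaximal → ∀ s : S, ∃ r : R, s - algebraMap R S r ∈ P)
    {p : Ideal S'} (hp : p.IsMaximal) {P : Ideal S} [hP : P.IsMaximal] [P.LiesOver p] :
    P.ramificationIdx S' = Nat.card (MulAction.stabilizer H P) := by
  classical
  have hf : P.inertiaDeg S' = 1 := by
    let : Field (S' ⧸ p) := Ideal.Quotient.field p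
    rw [Ideal.inertiaDeg_eq_of_isMaximal p P]
    refine finrank_eq_one (1 : S ⧸ P) one_ne_zero fun w => ?_
    obtain ⟨w, rfl⟩ := Ideal.Quotient.mk_surjective w
    obtain ⟨r, hr⟩ := hres P hP w
    refine ⟨Ideal.Quotient.mk p (algebraMap R S' r), ?_⟩
    rw [Algebra.smul_def, mul_one, Ideal.Quotient.algebraMap_mk_of_liesOver,
      ← IsScalarTower.algebraMap_apply]
    exact (Ideal.Quotient.eq.mpr hr).symm
  have hcard := Ideal.ncard_primesOver_mul_ramificationIdxIn_mul_inertiaDegIn p S H
  rw [Ideal.ramificationIdxIn_eq_ramificationIdx p P H,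
    Ideal.inertiaDegIn_eq_inertiaDeg p P H, hf, mul_one,
    ← Algebra.IsInvariant.orbit_eq_primesOver S' S H p P] at hcard
  have hos := Nat.card_congr (MulAction.orbitProdStabilizerEquivGroup H P)
  rw [Nat.card_prod, Nat.card_coe_set_eq] at hos
  exact Nat.eq_of_mul_eq_mul_left (by
      rw [Set.ncard_pos (show (MulAction.orbit H P).Finite from Set.finite_range _)]
      exact ⟨P, MulAction.mem_orbit_self P⟩) (hcard.trans hos.symm)

open IsDedekindDomain in
/-- The norm of an element of order one at `P` and zero at the other conjugates has order one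
below `P`. -/
private theorem norm_notMem_sq [IsDedekindDomain S] [IsDedekindDomain S']
    [Module.Finite S' S] [Module.IsTorsionFree S' S] [IsGaloisGroup H S' S] (hnf : ¬ IsField S)
    (hres : ∀ P : Ideal S, P.IsMaximal → ∀ s : S, ∃ r : R, s - algebraMap R S r ∈ P)
    {p : Ideal S'} (hp : p.IsMaximal) {P : Ideal S} [hP : P.IsMaximal]
    (hPp : P.comap (algebraMap S' S) = p) {c : S} (hcP : c ∈ P) (hcP2 : c ∉ P ^ 2)
    (hcO : ∀ h : H, h • P ≠ P → c ∉ h • P) {s : S'}
    (hs : algebraMap S' S s = ∏ h : H, h • c) : s ∉ p ^ 2 := by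
  classical
  have : Algebra.IsIntegral S' S := Algebra.IsIntegral.of_finite S' S
  intro hsq
  have hP0 : P ≠ ⊥ := Ring.ne_bot_of_isMaximal_of_not_isField hP hnf
  let v : HeightOneSpectrum S := ⟨P, hP.isPrime, hP0⟩
  have hvc : ∀ h : H, v.intValuation (h • c) =
      if h ∈ MulAction.stabilizer H P then WithZero.exp (-(1 : ℤ)) else 1 :=
    fun h => intValuation_smul v hcP hcP2 hcO h
  have hval : v.intValuation (∏ h : H, h • c) =
      WithZero.exp (-(Nat.card (MulAction.stabilizer H P) : ℤ)) := by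
    rw [map_prod]
    simp_rw [hvc]
    rw [Finset.prod_ite, Finset.prod_const, Finset.prod_const_one, mul_one, ← WithZero.exp_nsmul,
      Nat.card_eq_fintype_card, Fintype.card_subtype]
    congr 1
    simp
  have : P.LiesOver p := ⟨by rw [Ideal.under_def, hPp]⟩
  have hp0 : p ≠ ⊥ := by
    intro h
    apply hP0
    exact Ideal.eq_bot_of_comap_eq_bot (R := S') (by rw [hPp, h])
  have he : P.ramificationIdx S' = Nat.card (MulAction.stabilizer H P) :=
    ramificationIdx_eq_card_stabilizer hres hp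
  have hle : p.map (algebraMap S' S) ≤ P ^ P.ramificationIdx S' := by
    rw [← Ideal.ramificationIdx'_eq_ramificationIdx p P hp0]
    exact Ideal.le_pow_ramificationIdx'
  have h2 : ∏ h : H, h • c ∈ v.asIdeal ^ (Nat.card (MulAction.stabilizer H P) * 2) := by
    rw [← hs]
    show algebraMap S' S s ∈ P ^ _
    rw [pow_mul, ← he]
    refine Ideal.pow_right_mono hle 2 ?_
    rw [← Ideal.map_pow]
    exact Ideal.mem_map_of_mem _ hsq
  rw [← v.intValuation_le_pow_iff_mem, hval, WithZero.exp_le_exp] at h2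
  have : 0 < Nat.card (MulAction.stabilizer H P) := Nat.card_pos
  push_cast at h2
  omega

open IsDedekindDomain in
theorem subalgebra_eq_top_of_norms [IsDedekindDomain S] [IsDedekindDomain S']
    [Module.Finite R S'] [Module.Finite S' S] [Module.IsTorsionFree S' S] [IsGaloisGroup H S' S]
    (hnf : ¬ IsField S)
    (hres : ∀ P : Ideal S, P.IsMaximal → ∀ s : S, ∃ r : R, s - algebraMap R S r ∈ P)
    (_hstab : ∀ (h : H), ∀ c ∈ T, h • c ∈ T)
    (hsep : ∀ P Q : Ideal S, P.IsMaximal → Q.IsMaximal → P ≠ Q → ∃ c ∈ T, c ∈ P ∧ c ∉ Q)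
    (htan : ∀ P : Ideal S, P.IsMaximal → ∃ c ∈ T, c ∈ P ∧ c ∉ P ^ 2)
    (D : Subalgebra R S')
    (hnorm : ∀ c ∈ T, ∀ s : S', algebraMap S' S s = ∏ h : H, h • c → s ∈ D) :
    D = ⊤ := by
  classical
  have : Algebra.IsIntegral S' S := Algebra.IsIntegral.of_finite S' S
  have hker : ∀ p : Ideal S', RingHom.ker (algebraMap S' S) ≤ p := by
    intro p
    rw [(RingHom.injective_iff_ker_eq_bot _).mp (FaithfulSMul.algebraMap_injective S' S)]
    exact bot_le
  have hover : ∀ p : Ideal S', p.IsMaximal →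
      ∃ P : Ideal S, P.IsMaximal ∧ P.comap (algebraMap S' S) = p :=
    fun p hp => Ideal.exists_ideal_over_maximal_of_isIntegral p (hker p)
  have hcomap : ∀ (P : Ideal S) (h : H),
      (h • P).comap (algebraMap S' S) = P.comap (algebraMap S' S) := by
    intro P h
    ext s
    rw [Ideal.mem_comap, Ideal.mem_comap, Ideal.mem_pointwise_smul_iff_inv_smul_mem,
      smul_algebraMap]
  have hnormS : ∀ c : S, ∃ s : S', algebraMap S' S s = ∏ h : H, h • c := by
    intro c
    obtain ⟨s, hs⟩ := Algebra.IsInvariant.isInvariant (A := S') (G := H) (∏ h : H, h • c)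
      (fun g => by
        rw [Finset.smul_prod']
        exact Fintype.prod_equiv (Equiv.mulLeft g) _ _ fun h => by rw [smul_smul]; rfl)
    exact ⟨s, hs⟩
  refine subalgebra_eq_top_of_separates D ?_ ?_ ?_
  · intro p hp s
    obtain ⟨P, hP, rfl⟩ := hover p hp
    obtain ⟨r, hr⟩ := hres P hP (algebraMap S' S s)
    refine ⟨r, ?_⟩
    rwa [Ideal.mem_comap, map_sub, ← IsScalarTower.algebraMap_apply R S' S]
  · intro p q hp hq hpq
    obtain ⟨P, hP, hPp⟩ := hover p hp
    obtain ⟨Q, hQ, hQq⟩ := hover q hq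
    obtain ⟨c, hcT, hcP, hcQ⟩ := exists_mem_of_disjoint hsep
      (OP := Finset.univ.image fun h : H => h • P) (OQ := Finset.univ.image fun h : H => h • Q)
      (by simpa using isMaximal_smul hP) (by simpa using isMaximal_smul hQ) fun U hU hU' => by
        obtain ⟨h, -, rfl⟩ := Finset.mem_image.mp hU
        obtain ⟨h', -, e⟩ := Finset.mem_image.mp hU'
        apply hpq
        rw [← hPp, ← hQq, ← hcomap P h, ← e, hcomap]
    obtain ⟨s, hs⟩ := hnormS c
    refine ⟨s, hnorm c hcT s hs, ?_, ?_⟩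
    · rw [← hPp, Ideal.mem_comap, hs]
      have : (1 : H) • c ∈ P := by
        rw [one_smul]
        exact hcP P (Finset.mem_image.mpr ⟨1, Finset.mem_univ _, one_smul _ _⟩)
      exact Ideal.prod_mem _ (Finset.mem_univ (1 : H)) this
    · rw [← hQq, Ideal.mem_comap, hs]
      intro h
      obtain ⟨g, -, hg⟩ := (hQ.isPrime.prod_mem_iff).mp h
      exact hcQ (g⁻¹ • Q) (Finset.mem_image.mpr ⟨g⁻¹, Finset.mem_univ _, rfl⟩)
        (Ideal.mem_inv_pointwise_smul_iff.mpr hg)
  · intro p hp
    obtain ⟨P, hP, hPp⟩ := hover p hp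
    obtain ⟨c, hcT, hcP, hcP2, hcO⟩ := exists_order_one_avoiding hsep (htan P hP)
      (O := (Finset.univ.image fun h : H => h • P).erase P)
      (fun U hU => by
        obtain ⟨h, -, rfl⟩ := Finset.mem_image.mp (Finset.mem_of_mem_erase hU)
        exact isMaximal_smul hP h)
      (Finset.notMem_erase _ _)
    obtain ⟨s, hs⟩ := hnormS c
    refine ⟨s, hnorm c hcT s hs, ?_, norm_notMem_sq hnf hres hp hPp hcP hcP2 (fun h hh => hcO _
      (Finset.mem_erase.mpr ⟨hh, Finset.mem_image.mpr ⟨h, Finset.mem_univ _, rfl⟩⟩)) hs⟩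
    rw [← hPp, Ideal.mem_comap, hs]
    exact Ideal.prod_mem _ (Finset.mem_univ (1 : H)) (by rwa [one_smul])

end FLTAgent.GoodReduction

end
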