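import Mathlib
import Fermat.Agent.GoodReduction.InvariantLine
import Fermat.Agent.GoodReduction.NormDescent

/-!
# Descent by norms over an invariant line

Invariant elements integral over `k[x]` are generated by `x` and the norms of a separating stable
subring (`mem_adjoin_norms`).  Used to show that reduction commutes with invariants.
-/

set_option autoImplicit false

noncomputable section

namespace FLTAgent.GoodReduction.IsInvariantLine

variable {k : Type*} [Field k] [IsAlgClosed k] {E : Type*} [Field E] [Algebra k E]
variable {Γ : Type*} [Group Γ] [Finite Γ] [MulSemiringAction Γ E] [FaithfulSMul Γ E]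
variable [SMulCommClass Γ k E] {x : E}

theorem mem_adjoin_norms (hx : IsInvariantLine k Γ x) (H : Subgroup Γ) [Fintype H]
    (T : Subring (integralClosure (Algebra.adjoin k {x}) E))
    (hstab : ∀ (h : Γ) (c d : integralClosure (Algebra.adjoin k {x}) E),
      c ∈ T → (d : E) = h • (c : E) → d ∈ T)
    (hsep : ∀ P Q : Ideal (integralClosure (Algebra.adjoin k {x}) E),
      P.IsMaximal → Q.IsMaximal → P ≠ Q → ∃ c ∈ T, c ∈ P ∧ c ∉ Q)
    (htan : ∀ P : Ideal (integralClosure (Algebra.adjoin k {x}) E),
      P.IsMaximal → ∃ c ∈ T, c ∈ P ∧ c ∉ P ^ 2)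
    (z : E) (hz : ∀ h ∈ H, h • z = z) (hzint : IsIntegral (Algebra.adjoin k {x}) z) :
    z ∈ Algebra.adjoin k
      (insert x ((fun c : integralClosure (Algebra.adjoin k {x}) E => ∏ h : H, h • (c : E)) ''
        (T : Set (integralClosure (Algebra.adjoin k {x}) E)))) := by
  classical
  let R := Algebra.adjoin k {x}
  let K0 := FixedPoints.subfield Γ E
  let algR : Algebra R K0 :=
    ((algebraMap R E).codRestrict K0.toSubring (fun a g => hx.smul_adjoin g a)).toAlgebra
  have towR : IsScalarTower R K0 E := .of_algebraMap_eq fun _ => rfl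
  have : FaithfulSMul R K0 := (faithfulSMul_iff_algebraMap_injective R K0).mpr fun a b h =>
    Subtype.ext (congrArg (fun w : K0 => (w : E)) h)
  have : IsFractionRing R K0 := IsFractionRing.of_field R K0 fun w => by
    obtain ⟨a, b, hb, hab⟩ := hx.exists_div (w : E) w.2
    refine ⟨a, b, Subtype.ext ?_⟩
    change (w : E) = (a : E) / (b : E)
    rw [eq_div_iff hb, hab]
  have := hx.adjoin_isDedekindDomain
  -- the integral closure of `k[x]` in `E`
  let S := integralClosure R E
  have : IsDedekindDomain S := IsIntegralClosure.isDedekindDomain R K0 E S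
  have hfinS : Module.Finite R S := IsIntegralClosure.finite R K0 E S
  -- the invariant subfield and its integral closure
  let KH : IntermediateField K0 E := FixedPoints.intermediateField H
  have towKH : IsScalarTower R KH E := .of_algebraMap_eq fun _ => rfl
  let S' := integralClosure R KH
  have : IsDedekindDomain S' := IsIntegralClosure.isDedekindDomain R K0 KH S'
  have : Module.Finite R S' := IsIntegralClosure.finite R K0 KH S'
  let incl : S' →+* S :=
    { toFun := fun s => ⟨((s : KH) : E), s.2.map (IsScalarTower.toAlgHom R KH E)⟩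
      map_one' := rfl
      map_mul' := fun _ _ => rfl
      map_zero' := rfl
      map_add' := fun _ _ => rfl }
  let : Algebra S' S := incl.toAlgebra
  have : IsScalarTower R S' S := .of_algebraMap_eq fun _ => rfl
  have : Module.Finite S' S := Module.Finite.of_restrictScalars_finite R S' S
  have hinj : Function.Injective (algebraMap S' S) := fun a b h => by
    apply Subtype.ext; apply Subtype.ext
    exact congrArg (fun u : S => (u : E)) h
  have : FaithfulSMul S' S := (faithfulSMul_iff_algebraMap_injective S' S).mpr hinj
  -- the action on `S`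
  let : SMul H S := ⟨fun h c => ⟨(h : Γ) • (c : E), hx.smul_isIntegral h c.2⟩⟩
  have hsmul : ∀ (h : H) (c : S), ((h • c : S) : E) = h • (c : E) := fun _ _ => rfl
  let : MulSemiringAction H S :=
    { one_smul := fun c => Subtype.ext (one_smul Γ (c : E))
      mul_smul := fun a b c => Subtype.ext (mul_smul (a : Γ) (b : Γ) (c : E))
      smul_zero := fun a => Subtype.ext (smul_zero (a : Γ))
      smul_add := fun a c d => Subtype.ext (smul_add (a : Γ) (c : E) (d : E))
      smul_one := fun a => Subtype.ext (smul_one (a : Γ))
      smul_mul := fun a c d => Subtype.ext (smul_mul' (a : Γ) (c : E) (d : E)) }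
  have hfrac : IsFractionRing S E := IsIntegralClosure.isFractionRing_of_finite_extension R K0 E S
  have hgal : IsGaloisGroup H S' S := by
    refine ⟨⟨fun {a b} h => ?_⟩, ⟨fun g c y => ?_⟩, ⟨fun c hc => ?_⟩⟩
    · refine eq_of_smul_eq_smul (α := E) fun e => ?_
      obtain ⟨u, v, -, rfl⟩ := IsFractionRing.div_surjective S e
      have hu : a • (u : E) = b • (u : E) := congrArg (fun w : S => (w : E)) (h u)
      have hv : a • (v : E) = b • (v : E) := congrArg (fun w : S => (w : E)) (h v)
      change a • ((u : E) / (v : E)) = b • ((u : E) / (v : E))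
      rw [smul_div₀', smul_div₀', hu, hv]
    · refine Subtype.ext ?_
      change (g : Γ) • (((c : KH) : E) * (y : E)) = ((c : KH) : E) * ((g : Γ) • (y : E))
      rw [smul_mul']
      congr 1
      exact (FixedPoints.mem_intermediateField_iff.mp (c : KH).2) g
    · have hmem : (c : E) ∈ KH := FixedPoints.mem_intermediateField_iff.mpr fun g =>
        congrArg (fun w : S => (w : E)) (hc g)
      exact ⟨⟨⟨(c : E), hmem⟩,
        (isIntegral_algHom_iff (IsScalarTower.toAlgHom R KH E) Subtype.val_injective).mp c.2⟩, rfl⟩
  have : Module.IsTorsionFree S' S := inferInstance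
  have hnf : ¬ IsField S := fun h =>
    hx.not_isField_adjoin (isField_of_isIntegral_of_isField
      (fun a b e => Subtype.ext (congrArg (fun w : S => (w : E)) e)) h)
  let adj := Algebra.adjoin k
    (insert x ((fun c : S => ∏ h : H, h • (c : E)) '' (T : Set S)))
  have hRadj : ∀ r : R, (r : E) ∈ adj := fun r =>
    Algebra.adjoin_mono (Set.singleton_subset_iff.mpr (Set.mem_insert _ _)) r.2
  let D : Subalgebra R S' :=
    { carrier := {s | ((s : KH) : E) ∈ adj}
      one_mem' := one_mem adj
      zero_mem' := zero_mem adj
      add_mem' := fun {a b} ha hb => (adj.add_mem ha hb :)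
      mul_mem' := fun {a b} ha hb => (adj.mul_mem ha hb :)
      algebraMap_mem' := fun r => hRadj r }
  have htop : D = ⊤ := by
    refine subalgebra_eq_top_of_norms (S := S) (H := H) (T := T) hnf ?_ ?_ hsep htan D ?_
    · intro P hP s
      obtain ⟨c, hc⟩ := exists_residue (k := k) (x := x) S P hP s
      exact ⟨algebraMap k R c, hc⟩
    · intro h c hc
      exact hstab h c _ hc (hsmul h c)
    · intro c hc s hs
      have hs' : ((s : KH) : E) = ∏ h : H, h • (c : E) := by
        have h1 : ((algebraMap S' S s : S) : E) = ((∏ h : H, h • c : S) : E) :=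
          congrArg Subtype.val hs
        rw [SubmonoidClass.coe_finsetProd] at h1
        exact h1
      change ((s : KH) : E) ∈ adj
      rw [hs']
      exact Algebra.subset_adjoin (Set.mem_insert_of_mem _ ⟨c, hc, rfl⟩)
  have hzKH : z ∈ KH := FixedPoints.mem_intermediateField_iff.mpr fun g => hz g g.2
  have hzS' : IsIntegral R (⟨z, hzKH⟩ : KH) :=
    (isIntegral_algHom_iff (IsScalarTower.toAlgHom R KH E) Subtype.val_injective).mp hzint
  have : (⟨⟨z, hzKH⟩, hzS'⟩ : S') ∈ D := htop ▸ Algebra.mem_top
  exact this

end FLTAgent.GoodReduction.IsInvariantLine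

end
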