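import Mathlib

/-!
# Idempotent Laurent series with nilpotent coefficients

A Laurent series with nilpotent coefficients is nilpotent up to a series without polar part, so an
idempotent one vanishes (`eq_zero_of_idempotent_of_nilpotent_coeff`).
-/

set_option autoImplicit false

noncomputable section

namespace FLTAgent.GoodReduction

section Nilpotent

variable {B : Type*} [CommRing B]

theorem isNilpotent_laurent_single {k : ℤ} {c : B} (hc : IsNilpotent c) :
    IsNilpotent (HahnSeries.single k c) := by
  obtain ⟨n, hn⟩ := hc
  exact ⟨n, by rw [HahnSeries.single_pow, hn, map_zero]⟩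

/-- A Laurent series with nilpotent coefficients is the sum of a nilpotent series and a series in
`X • B[[X]]`. -/
theorem exists_nilpotent_add (s : LaurentSeries B) (hs : ∀ n, IsNilpotent (s.coeff n)) :
    ∃ (u : LaurentSeries B) (p : PowerSeries B), IsNilpotent u ∧
      s = u + HahnSeries.ofPowerSeries ℤ B (PowerSeries.X * p) := by
  classical
  refine ⟨∑ k ∈ Finset.Icc s.order 0, HahnSeries.single k (s.coeff k),
    PowerSeries.mk fun n => s.coeff (n + 1), ?_, ?_⟩
  · exact isNilpotent_sum fun k _ => isNilpotent_laurent_single (hs k)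
  · ext n
    rw [HahnSeries.coeff_add, HahnSeries.coeff_sum]
    have hsum : ∑ k ∈ Finset.Icc s.order 0, (HahnSeries.single k (s.coeff k)).coeff n =
        if n ∈ Finset.Icc s.order 0 then s.coeff n else 0 := by
      split_ifs with hm
      · rw [Finset.sum_eq_single_of_mem n hm
          (fun k _ hk => HahnSeries.coeff_single_of_ne hk.symm)]
        exact HahnSeries.coeff_single_same n _
      · exact Finset.sum_eq_zero fun k hk => HahnSeries.coeff_single_of_ne
          (fun e => hm (e ▸ hk))
    rw [hsum]
    by_cases hn : n ≤ 0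
    · have h0 : (HahnSeries.ofPowerSeries ℤ B
          (PowerSeries.X * PowerSeries.mk fun m => s.coeff (m + 1))).coeff n = 0 := by
        rcases hn.lt_or_eq with h | h
        · rw [HahnSeries.ofPowerSeries_apply]
          refine HahnSeries.embDomain_of_notMem_range ?_
          rintro ⟨m, rfl⟩
          exact absurd h (not_lt.mpr (Int.natCast_nonneg m))
        · subst h
          rw [show (0 : ℤ) = ((0 : ℕ) : ℤ) from rfl, HahnSeries.ofPowerSeries_apply_coeff]
          simp
      rw [h0, add_zero]
      by_cases hm : n ∈ Finset.Icc s.order 0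
      · rw [if_pos hm]
      · rw [if_neg hm]
        by_contra h
        exact hm (Finset.mem_Icc.mpr ⟨HahnSeries.order_le_of_coeff_ne_zero h, hn⟩)
    · rw [if_neg (fun h => hn (Finset.mem_Icc.mp h).2), zero_add]
      push Not at hn
      obtain ⟨m, rfl⟩ : ∃ m : ℕ, n = ((m + 1 : ℕ) : ℤ) := ⟨(n - 1).toNat, by omega⟩
      rw [HahnSeries.ofPowerSeries_apply_coeff, PowerSeries.coeff_succ_X_mul,
        PowerSeries.coeff_mk]
      push_cast
      rfl

theorem isUnit_one_sub_of_nilpotent_coeff (s : LaurentSeries B)
    (hs : ∀ n, IsNilpotent (s.coeff n)) : IsUnit (1 - s) := by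
  obtain ⟨u, p, hu, rfl⟩ := exists_nilpotent_add s hs
  have h1 : IsUnit (1 - HahnSeries.ofPowerSeries ℤ B (PowerSeries.X * p)) := by
    have h : IsUnit ((1 : PowerSeries B) - PowerSeries.X * p) := by
      rw [PowerSeries.isUnit_iff_constantCoeff]
      simp
    simpa using h.map (HahnSeries.ofPowerSeries ℤ B)
  have := IsNilpotent.isUnit_add_left_of_commute hu.neg h1 (Commute.all _ _)
  convert this using 1
  ring

/-- An idempotent Laurent series with nilpotent coefficients is zero. -/
theorem eq_zero_of_idempotent_of_nilpotent_coeff (s : LaurentSeries B) (hss : s * s = s)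
    (hs : ∀ n, IsNilpotent (s.coeff n)) : s = 0 := by
  have h : s * (1 - s) = 0 := by rw [mul_sub, mul_one, hss, sub_self]
  exact ((isUnit_one_sub_of_nilpotent_coeff s hs).mul_left_eq_zero).mp h

end Nilpotent

end FLTAgent.GoodReduction

end
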