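import Mathlib
import Fermat.Prelude.Def_ModularCurve_LaurentCoeff
import Fermat.Agent.GoodReduction.IdempotentSeries

/-!
# Coefficient bounds for Laurent series

Leading terms of powers of a series with a monic pole, the degree of a polynomial from the pole
order of its value, and vanishing modulo an element of series which are idempotent modulo it, in a
valuation ring of rank one.  Used for the pole bounds and for connectedness.
-/

set_option autoImplicit false

noncomputable section

open ModularCurve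

namespace FLTAgent.GoodReduction

variable {R : Type*} [CommRing R]

theorem laurent_coeff_natCast_sub (J : LaurentSeries R) (d : ℤ)
    (hJ : ∀ n, n < d → J.coeff n = 0) :
    J = HahnSeries.single d 1 *
      HahnSeries.ofPowerSeries ℤ R (PowerSeries.mk fun n => J.coeff (n + d)) := by
  ext n
  rw [HahnSeries.coeff_single_mul, one_mul]
  by_cases h : n < d
  · rw [hJ n h, HahnSeries.ofPowerSeries_apply]
    symm
    refine HahnSeries.embDomain_of_notMem_range ?_
    rintro ⟨m, hm⟩
    have : (m : ℤ) = n - d := hm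
    omega
  · obtain ⟨m, hm⟩ : ∃ m : ℕ, n - d = m := ⟨(n - d).toNat, by omega⟩
    rw [hm, HahnSeries.ofPowerSeries_apply_coeff, PowerSeries.coeff_mk]
    congr 1
    omega

/-- If `J` has leading term `q ^ (-e)`, then `J ^ i` has leading term `q ^ (-e i)`. -/
theorem laurent_pow_leading (J : LaurentSeries R) (e : ℕ)
    (hJ : ∀ n : ℤ, n < -(e : ℤ) → J.coeff n = 0) (h1 : J.coeff (-(e : ℤ)) = 1) (i : ℕ) :
    (J ^ i).coeff (-((e * i : ℕ) : ℤ)) = 1 ∧
      ∀ n : ℤ, n < -((e * i : ℕ) : ℤ) → (J ^ i).coeff n = 0 := by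
  rw [laurent_coeff_natCast_sub J (-(e : ℤ)) hJ, mul_pow, HahnSeries.single_pow, one_pow,
    ← map_pow]
  set u := PowerSeries.mk fun n => J.coeff ((n : ℤ) + -(e : ℤ)) with hu
  have he : i • (-(e : ℤ)) = -((e * i : ℕ) : ℤ) := by simp [mul_comm]
  rw [he]
  constructor
  · rw [HahnSeries.coeff_single_mul, one_mul, sub_self,
      show (0 : ℤ) = ((0 : ℕ) : ℤ) from rfl, HahnSeries.ofPowerSeries_apply_coeff,
      PowerSeries.coeff_zero_eq_constantCoeff, map_pow, ← PowerSeries.coeff_zero_eq_constantCoeff,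
      hu, PowerSeries.coeff_mk]
    simp [h1]
  · intro n hn
    rw [HahnSeries.coeff_single_mul, one_mul, HahnSeries.ofPowerSeries_apply]
    refine HahnSeries.embDomain_of_notMem_range ?_
    rintro ⟨m, hm⟩
    have : (m : ℤ) = n - -((e * i : ℕ) : ℤ) := hm
    omega

/-- If the value of a polynomial at `J` has pole order at most `B`, its coefficient of index `d`
vanishes whenever `B < e * d`. -/
theorem polynomial_coeff_eq_zero_of_bounded (J : LaurentSeries R) (e : ℕ) (he : 0 < e)
    (hJ : ∀ n : ℤ, n < -(e : ℤ) → J.coeff n = 0) (h1 : J.coeff (-(e : ℤ)) = 1)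
    (P : Polynomial R) (B : ℕ)
    (hP : ∀ n : ℤ, n < -(B : ℤ) → (Polynomial.eval₂ HahnSeries.C J P).coeff n = 0)
    (d : ℕ) (hd : B < e * d) : P.coeff d = 0 := by
  by_contra hne
  have hdeg : d ≤ P.natDegree := Polynomial.le_natDegree_of_ne_zero hne
  set D := P.natDegree with hD
  have hlead : P.coeff D ≠ 0 := by
    rw [hD, Polynomial.coeff_natDegree, Polynomial.leadingCoeff_ne_zero]
    rintro rfl
    exact hne (Polynomial.coeff_zero _)
  apply hlead
  have hlt : -((e * D : ℕ) : ℤ) < -(B : ℤ) := by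
    have : B < e * D := lt_of_lt_of_le hd (Nat.mul_le_mul_left e hdeg)
    omega
  have h0 := hP _ hlt
  rw [Polynomial.eval₂_eq_sum_range, HahnSeries.coeff_sum] at h0
  rw [Finset.sum_eq_single D] at h0
  · rwa [HahnSeries.C_mul_eq_smul, HahnSeries.coeff_smul, (laurent_pow_leading J e hJ h1 D).1,
      smul_eq_mul, mul_one] at h0
  · intro i hi hiD
    rw [HahnSeries.C_mul_eq_smul, HahnSeries.coeff_smul,
      (laurent_pow_leading J e hJ h1 i).2, smul_zero]
    have hilt : i < D := lt_of_le_of_ne (Nat.lt_succ_iff.mp (Finset.mem_range.mp hi)) hiD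
    have : e * i < e * D := Nat.mul_lt_mul_of_pos_left hilt he
    omega
  · intro h
    exact absurd (Finset.mem_range.mpr (Nat.lt_succ_self D)) h

variable {A : Type*} [CommRing A] [IsLocalRing A]

/-- A series idempotent modulo `a` with reduction zero vanishes modulo `a`, in rank one. -/
theorem coeffMap_mk_eq_zero_of_idempotent (a : A)
    (hrk : ∀ π : A, π ∈ IsLocalRing.maximalIdeal A → ∃ n : ℕ, a ∣ π ^ n) (s : LaurentSeries A)
    (hs : ∀ n, s.coeff n ∈ IsLocalRing.maximalIdeal A)
    (hid : coeffMap (Ideal.Quotient.mk (Ideal.span {a})) (s * s) =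
      coeffMap (Ideal.Quotient.mk (Ideal.span {a})) s) :
    coeffMap (Ideal.Quotient.mk (Ideal.span {a})) s = 0 := by
  refine eq_zero_of_idempotent_of_nilpotent_coeff _ (by rw [← map_mul, hid]) fun n => ?_
  obtain ⟨m, hm⟩ := hrk _ (hs n)
  exact ⟨m, by rw [coeffMap_coeff, ← map_pow, Ideal.Quotient.eq_zero_iff_mem,
    Ideal.mem_span_singleton]; exact hm⟩

end FLTAgent.GoodReduction

end
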