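import Mathlib

/-!
# Galois identities for finite group actions

For a faithful action on a domain there are families with `∑ i, x i * g • y i = δ * [g = 1]`,
`δ ≠ 0` (`exists_galois_identity`), which reconstruct elements from their traces.
-/

set_option autoImplicit false

noncomputable section

namespace FLTAgent.GoodReduction

variable {C : Type*} [CommRing C] {Γ : Type*} [Group Γ] [MulSemiringAction Γ C]

/-- For a faithful action on a domain there are finite families `x`, `y` and `δ ≠ 0` with
`∑ i, x i * g • y i = δ` for `g = 1` and `= 0` otherwise. -/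
theorem exists_galois_identity [IsDomain C] [Finite Γ] [FaithfulSMul Γ C] :
    ∃ (ι : Type) (_ : Fintype ι) (x y : ι → C), ∑ i, x i * y i ≠ 0 ∧
      ∀ g : Γ, g ≠ 1 → ∑ i, x i * g • y i = 0 := by
  classical
  have := Fintype.ofFinite Γ
  suffices h : ∀ s : Finset Γ, (1 : Γ) ∉ s → ∃ (ι : Type) (_ : Fintype ι) (x y : ι → C),
      ∑ i, x i * y i ≠ 0 ∧ ∀ g ∈ s, ∑ i, x i * g • y i = 0 by
    obtain ⟨ι, _, x, y, h1, h2⟩ := h (Finset.univ.erase 1) (Finset.notMem_erase _ _)
    exact ⟨ι, inferInstance, x, y, h1,
      fun g hg => h2 g (Finset.mem_erase.mpr ⟨hg, Finset.mem_univ _⟩)⟩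
  intro s
  induction s using Finset.induction_on with
  | empty => exact fun _ => ⟨Unit, inferInstance, fun _ => 1, fun _ => 1, by simp, by simp⟩
  | insert g s hgs ih =>
    intro h1
    rw [Finset.mem_insert, not_or] at h1
    obtain ⟨ι, _, x, y, hne, hzero⟩ := ih h1.2
    obtain ⟨w, hw⟩ : ∃ w : C, g • w ≠ w := by
      by_contra hall
      push Not at hall
      exact h1.1 (eq_of_smul_eq_smul (α := C) fun c => by rw [hall c, one_smul]).symm
    -- the new families multiply the old value at `h` by `h • w - g • w`
    refine ⟨ι ⊕ ι, inferInstance, Sum.elim (fun i => x i) (fun i => -(g • w) * x i),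
      Sum.elim (fun i => w * y i) (fun i => y i), ?_, ?_⟩
    · rw [Fintype.sum_sum_type]
      simp only [Sum.elim_inl, Sum.elim_inr]
      have : ∑ i, x i * (w * y i) + ∑ i, -(g • w) * x i * y i
          = (w - g • w) * ∑ i, x i * y i := by
        rw [Finset.mul_sum, ← Finset.sum_add_distrib]
        exact Finset.sum_congr rfl fun i _ => by ring
      rw [this]
      exact mul_ne_zero (sub_ne_zero.mpr (Ne.symm hw)) hne
    · intro h hh
      rw [Fintype.sum_sum_type]
      simp only [Sum.elim_inl, Sum.elim_inr, smul_mul']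
      have : ∑ i, x i * (h • w * h • y i) + ∑ i, -(g • w) * x i * h • y i
          = (h • w - g • w) * ∑ i, x i * h • y i := by
        rw [Finset.mul_sum, ← Finset.sum_add_distrib]
        exact Finset.sum_congr rfl fun i _ => by ring
      rw [this]
      rcases Finset.mem_insert.mp hh with rfl | hh
      · rw [sub_self, zero_mul]
      · rw [hzero h hh, mul_zero]

/-- Reconstruction from traces. -/
theorem galois_identity_trace [Fintype Γ] {ι : Type*} [Fintype ι] (x y : ι → C)
    (hzero : ∀ g : Γ, g ≠ 1 → ∑ i, x i * g • y i = 0) (f : C) :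
    (∑ i, x i * y i) * f = ∑ i, x i * ∑ g : Γ, g • (f * y i) := by
  classical
  simp_rw [Finset.mul_sum]
  rw [Finset.sum_comm, Finset.sum_eq_single (1 : Γ)]
  · rw [Finset.sum_mul]
    exact Finset.sum_congr rfl fun i _ => by rw [one_smul]; ring
  · intro g _ hg
    simp_rw [smul_mul']
    rw [show ∑ i, x i * (g • f * g • y i) = g • f * ∑ i, x i * g • y i by
      rw [Finset.mul_sum]; exact Finset.sum_congr rfl fun i _ => by ring, hzero g hg, mul_zero]
  · simp

end FLTAgent.GoodReduction

end
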