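import Mathlib
import Fermat.Prelude.Def_ModularCurve_LaurentCoeff

/-!
# Abstract level `M` data

`LevelData` collects the hypotheses on a ring of level `M` modular functions with expansions at
`∞` in `A((q))`, an action of the finite group `Γ`, and a subgroup `G` (level `K ∈ {2, 3}`) over
which it is Galois in the strong sense; `redHom` is the reduction of expansions.
-/

set_option autoImplicit false

noncomputable section

open ModularCurve

namespace FLTAgent.GoodReduction

variable {L : Type*} [Field L] {A : ValuationSubring L}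
variable {C : Type*} [CommRing C] [Algebra A C]
variable {Γ : Type*} [Group Γ] [MulSemiringAction Γ C]

/-- Reduction of the expansion at `∞`. -/
def redHom (ev : C →+* LaurentSeries A) :
    C →+* LaurentSeries (IsLocalRing.ResidueField A) :=
  (coeffMap (IsLocalRing.residue A)).comp ev

omit [Algebra (↥A) C] in
theorem redHom_apply (ev : C →+* LaurentSeries A) (f : C) :
    redHom ev f = coeffMap (IsLocalRing.residue A) (ev f) := rfl

omit [Algebra (↥A) C] in
/-- The reduced expansion vanishes iff all coefficients are non-units. -/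
theorem redHom_eq_zero_iff (ev : C →+* LaurentSeries A) (f : C) :
    redHom ev f = 0 ↔ ∀ n, (ev f).coeff n ∈ IsLocalRing.maximalIdeal A := by
  rw [redHom_apply, HahnSeries.ext_iff, funext_iff]
  simp only [coeffMap_coeff, HahnSeries.coeff_zero, IsLocalRing.residue_eq_zero_iff]

/-- Hypotheses on the level `M` data (all are supplied by modular functions). -/
structure LevelData (G : Subgroup Γ) [Fintype G] (ev : C →+* LaurentSeries A) (j : C) : Prop where
  /-- constants -/
  ev_algebraMap : ∀ a : A, ev (algebraMap A C a) = HahnSeries.C a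
  ev_injective : Function.Injective ev
  smul_algebraMap : ∀ (g : Γ) (a : A), g • algebraMap A C a = algebraMap A C a
  /-- the valuation has rank one -/
  rank_one : ∀ π : A, π ∈ IsLocalRing.maximalIdeal A → ∀ a : A, a ≠ 0 → ∃ n : ℕ, a ∣ π ^ n
  exists_maximal_ne_zero : ∃ π : A, π ∈ IsLocalRing.maximalIdeal A ∧ π ≠ 0
  /-- `C` is Galois over its `G`-invariants in the strong sense -/
  galois : ∃ (ι : Type) (_ : Fintype ι) (x y : ι → C), ∑ i, x i * y i = 1 ∧
    ∀ g : G, g ≠ 1 → ∑ i, x i * g • y i = 0
  /-- a `G`-invariant element with zero reduction at `∞` is divisible by an element of `m` -/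
  red_invariant : ∀ r : C, (∀ g : G, g • r = r) → redHom ev r = 0 →
    ∃ a ∈ IsLocalRing.maximalIdeal A, ∃ r' : C, r = algebraMap A C a * r'
  /-- the reduction of the ring of `G`-invariants is integrally closed -/
  normal_invariant : ∀ (z : LaurentSeries (IsLocalRing.ResidueField A)) (r₁ r₂ : C),
    (∀ g : G, g • r₁ = r₁) → (∀ g : G, g • r₂ = r₂) → redHom ev r₁ ≠ 0 →
    z * redHom ev r₁ = redHom ev r₂ →
    ((redHom ev).comp (FixedPoints.subring C G).subtype).IsIntegralElem z →
    ∃ r : C, (∀ g : G, g • r = r) ∧ redHom ev r = z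
  /-- level one elements are polynomials in `j` -/
  level_one : ∀ f : C, (∀ g : Γ, g • f = f) →
    ∃ P : Polynomial A, f = Polynomial.eval₂ (algebraMap A C) j P
  smul_j : ∀ g : Γ, g • j = j
  /-- `j` has a pole at `∞` with leading coefficient one -/
  ev_j : ∃ e : ℕ, 0 < e ∧ (ev j).coeff (-(e : ℤ)) = 1 ∧ ∀ n : ℤ, n < -(e : ℤ) → (ev j).coeff n = 0

end FLTAgent.GoodReduction

end
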