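import Mathlib
import Fermat.Agent.GoodReduction.LevelData
import Fermat.Agent.GoodReduction.GaloisIdentity

/-!
# Divisibility from vanishing of all translates

An element whose translates under `G` all reduce to zero at `∞` is divisible by an element of the
maximal ideal (`dvd_of_red_smul_eq_zero`), by a Galois identity with trace reconstruction.
-/

set_option autoImplicit false

noncomputable section

open ModularCurve

namespace FLTAgent.GoodReduction

variable {L : Type*} [Field L] {A : ValuationSubring L}
variable {C : Type*} [CommRing C] [Algebra A C]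
variable {Γ : Type*} [Group Γ] [MulSemiringAction Γ C]

theorem exists_common_divisor {ι : Type*} (s : Finset ι) (a : ι → A)
    (ha : ∀ i ∈ s, a i ∈ IsLocalRing.maximalIdeal A)
    (h0 : ∃ π : A, π ∈ IsLocalRing.maximalIdeal A ∧ π ≠ 0) :
    ∃ c ∈ IsLocalRing.maximalIdeal A, c ≠ 0 ∧ ∀ i ∈ s, c ∣ a i := by
  classical
  induction s using Finset.induction_on with
  | empty =>
    obtain ⟨π, hπ, hπ0⟩ := h0
    exact ⟨π, hπ, hπ0, by simp⟩
  | insert i s _ ih =>
    obtain ⟨c, hc, hc0, hdiv⟩ := ih fun k hk => ha k (Finset.mem_insert_of_mem hk)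
    by_cases hai : a i = 0
    · refine ⟨c, hc, hc0, fun k hk => ?_⟩
      rcases Finset.mem_insert.mp hk with rfl | hk
      · rw [hai]; exact dvd_zero c
      · exact hdiv k hk
    rcases ValuationRing.dvd_total c (a i) with h | h
    · refine ⟨c, hc, hc0, fun k hk => ?_⟩
      rcases Finset.mem_insert.mp hk with rfl | hk
      · exact h
      · exact hdiv k hk
    · refine ⟨a i, ha i (Finset.mem_insert_self _ _), hai, fun k hk => ?_⟩
      rcases Finset.mem_insert.mp hk with rfl | hk
      · exact dvd_refl _
      · exact h.trans (hdiv k hk)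

namespace LevelData

variable {G : Subgroup Γ} [Fintype G] {ev : C →+* LaurentSeries A} {j : C}

theorem trace_invariant (f : C) (h : G) : h • (∑ g : G, g • f) = ∑ g : G, g • f := by
  rw [Finset.smul_sum]
  simp_rw [smul_smul]
  exact Fintype.sum_equiv (Equiv.mulLeft h) _ _ fun g => rfl

theorem red_algebraMap (hd : LevelData G ev j) (a : A) :
    redHom ev (algebraMap A C a) = HahnSeries.C (IsLocalRing.residue A a) := by
  rw [redHom_apply, hd.ev_algebraMap, HahnSeries.C_apply, HahnSeries.C_apply, coeffMap_single]

theorem red_algebraMap_mul_eq_zero (hd : LevelData G ev j) {a : A}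
    (ha : a ∈ IsLocalRing.maximalIdeal A) (f : C) : redHom ev (algebraMap A C a * f) = 0 := by
  rw [map_mul, red_algebraMap hd, (IsLocalRing.residue_eq_zero_iff a).mpr ha, map_zero, zero_mul]

theorem dvd_of_red_smul_eq_zero (hd : LevelData G ev j) {f : C}
    (hf : ∀ g : G, redHom ev (g • f) = 0) :
    ∃ a ∈ IsLocalRing.maximalIdeal A, a ≠ 0 ∧ ∃ f', f = algebraMap A C a * f' := by
  classical
  obtain ⟨ι, _, x, y, h1, hzero⟩ := hd.galois
  have hT : ∀ i, redHom ev (∑ g : G, g • (f * y i)) = 0 := by
    intro i
    rw [map_sum]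
    refine Finset.sum_eq_zero fun g _ => ?_
    rw [smul_mul', map_mul, hf g, zero_mul]
  have hsplit := fun i => hd.red_invariant _ (trace_invariant (f * y i)) (hT i)
  choose a ha r hr using hsplit
  obtain ⟨c, hc, hc0, hdiv⟩ :=
    exists_common_divisor Finset.univ a (fun i _ => ha i) hd.exists_maximal_ne_zero
  have hdiv' := fun i => hdiv i (Finset.mem_univ i)
  choose b hb using hdiv'
  refine ⟨c, hc, hc0, ∑ i, x i * (algebraMap A C (b i) * r i), ?_⟩
  have := galois_identity_trace (Γ := G) x y hzero f
  rw [h1, one_mul] at this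
  rw [this, Finset.mul_sum]
  refine Finset.sum_congr rfl fun i _ => ?_
  rw [hr i, hb i, map_mul]
  ring

end LevelData

end FLTAgent.GoodReduction

end
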