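import Mathlib
import Fermat.Agent.GoodReduction.Divisible

/-!
# The idempotent of the component through the cusp `∞`

The idempotent modulo the maximal ideal cutting out the component of the special fibre through
`∞` (`exists_idempotent_red`) and its lifts modulo every nonzero element (`exists_idempotent_mod`).
Used to prove connectedness.
-/

set_option autoImplicit false

noncomputable section

open ModularCurve

namespace FLTAgent.GoodReduction

variable {L : Type*} [Field L] {A : ValuationSubring L}
variable {C : Type*} [CommRing C] [Algebra A C]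
variable {Γ : Type*} [Group Γ] [MulSemiringAction Γ C]

/-- The elements of `G` preserving the kernel of the reduction at `∞`. -/
def componentStabilizer (G : Subgroup Γ) [Finite G] (ev : C →+* LaurentSeries A) : Subgroup G where
  carrier := {g | ∀ f : C, redHom ev f = 0 → redHom ev (g • f) = 0}
  one_mem' f hf := by rwa [one_smul]
  mul_mem' {g h} hg hh f hf := by rw [mul_smul]; exact hg _ (hh f hf)
  inv_mem' {g} hg := by
    intro f hf
    have hpow : ∀ n : ℕ, redHom ev ((g ^ n) • f) = 0 := by
      intro n
      induction n with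
      | zero => simpa using hf
      | succ n ih => rw [pow_succ', mul_smul]; exact hg _ ih
    have hinv : g⁻¹ = g ^ (orderOf g - 1) := by
      rw [inv_eq_iff_mul_eq_one, ← pow_succ', Nat.sub_add_cancel (orderOf_pos g)]
      exact pow_orderOf_eq_one g
    rw [hinv]
    exact hpow _

namespace LevelData

variable {G : Subgroup Γ} [Fintype G] {ev : C →+* LaurentSeries A} {j : C}

omit [Algebra (↥A) C] in
theorem mem_componentStabilizer {g : G} :
    g ∈ componentStabilizer G ev ↔ ∀ f : C, redHom ev f = 0 → redHom ev (g • f) = 0 :=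
  Iff.rfl

omit [Algebra (↥A) C] in
theorem red_smul_ne_zero {d : G} (hd' : d ∈ componentStabilizer G ev) {f : C}
    (hf : redHom ev f ≠ 0) : redHom ev (d • f) ≠ 0 := by
  intro h
  apply hf
  have := mem_componentStabilizer.mp (inv_mem hd') _ h
  rwa [inv_smul_smul] at this

omit [Algebra (↥A) C] in
/-- An element invariant under the stabiliser, nonzero at `∞`, vanishing on the other
components. -/
theorem exists_separator : ∃ ε : C, redHom ev ε ≠ 0 ∧
    (∀ d ∈ componentStabilizer G ev, d • ε = ε) ∧
    ∀ g : G, g ∉ componentStabilizer G ev → redHom ev (g • ε) = 0 := by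
  classical
  have h : ∀ g : G, g ∉ componentStabilizer G ev →
      ∃ ε : C, redHom ev ε ≠ 0 ∧ redHom ev (g • ε) = 0 := by
    intro g hg
    have hg' : g⁻¹ ∉ componentStabilizer G ev := fun h => hg (by simpa using inv_mem h)
    rw [mem_componentStabilizer] at hg'
    push Not at hg'
    obtain ⟨f, hf, hf'⟩ := hg'
    exact ⟨g⁻¹ • f, hf', by rwa [smul_inv_smul]⟩
  choose ε hε1 hε2 using h
  let ε' : C := ∏ g ∈ (Finset.univ.filter fun g : G => g ∉ componentStabilizer G ev).attach,
    ε g.1 (Finset.mem_filter.mp g.2).2
  have hε' : redHom ev ε' ≠ 0 := by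
    rw [map_prod]
    exact Finset.prod_ne_zero_iff.mpr fun g _ => hε1 _ _
  have hε'0 : ∀ g : G, g ∉ componentStabilizer G ev → redHom ev (g • ε') = 0 := by
    intro g hg
    rw [Finset.smul_prod', map_prod]
    exact Finset.prod_eq_zero (Finset.mem_attach _
      ⟨g, Finset.mem_filter.mpr ⟨Finset.mem_univ _, hg⟩⟩)
      (hε2 _ _)
  refine ⟨∏ d : componentStabilizer G ev, (d : G) • ε', ?_, ?_, ?_⟩
  · rw [map_prod]
    exact Finset.prod_ne_zero_iff.mpr fun d _ => red_smul_ne_zero d.2 hε'
  · intro d hd'
    rw [Finset.smul_prod']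
    refine Fintype.prod_equiv (Equiv.mulLeft ⟨d, hd'⟩) _ _ fun g => ?_
    rw [smul_smul]
    rfl
  · intro g hg
    rw [Finset.smul_prod', map_prod]
    refine Finset.prod_eq_zero (Finset.mem_univ 1) ?_
    simpa using hε'0 g hg

open Classical in
/-- The reduction at `∞` of a stabiliser trace is the reduction of a `G`-invariant element. -/
theorem exists_invariant_red_eq (hd : LevelData G ev j) (y : C) :
    ∃ r : C, (∀ g : G, g • r = r) ∧
      redHom ev r = ∑ d : componentStabilizer G ev, redHom ev ((d : G) • y) := by
  obtain ⟨ε, hε, hεinv, hεzero⟩ := exists_separator (G := G) (ev := ev)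
  set D := componentStabilizer G ev with hD
  -- trace over `G` of `ε * f` reduces to `ε` times the trace over the stabiliser
  have key : ∀ f : C, redHom ev (∑ g : G, g • (ε * f)) =
      redHom ev ε * ∑ d : D, redHom ev ((d : G) • f) := by
    intro f
    rw [map_sum, Finset.mul_sum,
      ← Finset.sum_subset (Finset.subset_univ (Finset.univ.filter fun g : G => g ∈ D))
        fun g _ hg => by
        rw [smul_mul', map_mul,
          hεzero g (fun h => hg (Finset.mem_filter.mpr ⟨Finset.mem_univ _, h⟩)),
          zero_mul]]
    rw [Finset.sum_subtype (p := fun g : G => g ∈ D) _ (fun g => by simp)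
      (fun g => redHom ev (g • (ε * f)))]
    exact Finset.sum_congr rfl fun d _ => by rw [smul_mul', hεinv _ d.2, map_mul]
  obtain ⟨ι, _, x, y', h1, hzero⟩ := hd.galois
  -- some stabiliser trace is nonzero
  obtain ⟨c, hc⟩ : ∃ c : C, ∑ d : D, redHom ev ((d : G) • c) ≠ 0 := by
    by_contra hall
    push Not at hall
    have : (1 : LaurentSeries (IsLocalRing.ResidueField A)) = 0 := by
      calc (1 : LaurentSeries (IsLocalRing.ResidueField A))
          = ∑ d : D, redHom ev (∑ i, x i * (d : G) • y' i) := by
            rw [Finset.sum_eq_single (1 : D)]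
            · simp [h1]
            · intro d _ hd1
              rw [hzero _ (fun h => hd1 (Subtype.ext h)), map_zero]
            · simp
        _ = ∑ i, redHom ev (x i) * ∑ d : D, redHom ev ((d : G) • y' i) := by
            simp_rw [map_sum, map_mul, Finset.mul_sum]
            exact Finset.sum_comm
        _ = 0 := Finset.sum_eq_zero fun i _ => by rw [hall, mul_zero]
    exact one_ne_zero this
  -- the trace of `y` over the stabiliser
  let t : C := ∑ d : D, (d : G) • y
  have ht : ∀ d ∈ D, d • t = t := by
    intro d hdD
    rw [Finset.smul_sum]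
    refine Fintype.sum_equiv (Equiv.mulLeft ⟨d, hdD⟩) _ _ fun g => ?_
    rw [smul_smul]
    rfl
  have heq : (∑ d : D, redHom ev ((d : G) • y)) * redHom ev (∑ g : G, g • (ε * c)) =
      redHom ev (∑ g : G, g • (ε * (t * c))) := by
    rw [key, key]
    have : ∀ d : D, redHom ev ((d : G) • (t * c)) = redHom ev t * redHom ev ((d : G) • c) :=
      fun d => by rw [smul_mul', ht _ d.2, map_mul]
    simp_rw [this]
    rw [← Finset.mul_sum, map_sum]
    ring
  have hint : ((redHom ev).comp (FixedPoints.subring C G).subtype).IsIntegralElem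
      (∑ d : D, redHom ev ((d : G) • y)) := by
    have hint' : IsIntegral (FixedPoints.subring C G) t := by
      have : Algebra.IsInvariant (FixedPoints.subring C G) C G := ⟨fun b hb => ⟨⟨b, hb⟩, rfl⟩⟩
      exact (Algebra.IsInvariant.isIntegral (FixedPoints.subring C G) C G).isIntegral t
    obtain ⟨P, hP, hPt⟩ := hint'
    refine ⟨P, hP, ?_⟩
    have := congrArg (redHom ev) hPt
    rw [Polynomial.hom_eval₂, map_zero, map_sum] at this
    exact this
  exact hd.normal_invariant (∑ d : D, redHom ev ((d : G) • y))
    (∑ g : G, g • (ε * c)) (∑ g : G, g • (ε * (t * c))) (trace_invariant _) (trace_invariant _)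
    (by rw [key]; exact mul_ne_zero hε hc) heq hint

open Classical in
/-- The idempotent modulo `m`. -/
theorem exists_idempotent_red (hd : LevelData G ev j) : ∃ e : C, ∀ g : G,
    redHom ev (g • e) = if g ∈ componentStabilizer G ev then 1 else 0 := by
  obtain ⟨ι, _, x, y, h1, hzero⟩ := hd.galois
  choose r hr hr' using fun i => exists_invariant_red_eq hd (y i)
  refine ⟨∑ i, x i * r i, fun g => ?_⟩
  rw [Finset.smul_sum, map_sum]
  calc ∑ i, redHom ev (g • (x i * r i))
      = ∑ i, ∑ d : componentStabilizer G ev,
          redHom ev (g • (x i * (g⁻¹ * (d : G)) • y i)) := by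
        refine Finset.sum_congr rfl fun i _ => ?_
        rw [smul_mul', map_mul, hr i g, hr' i, Finset.mul_sum]
        refine Finset.sum_congr rfl fun d _ => ?_
        rw [smul_mul', smul_smul, mul_inv_cancel_left, map_mul]
    _ = ∑ d : componentStabilizer G ev,
          redHom ev (g • ∑ i, x i * (g⁻¹ * (d : G)) • y i) := by
        rw [Finset.sum_comm]
        exact Finset.sum_congr rfl fun d _ => by rw [Finset.smul_sum, map_sum]
    _ = _ := by
        by_cases hg : g ∈ componentStabilizer G ev
        · rw [if_pos hg, Finset.sum_eq_single ⟨g, hg⟩]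
          · simp [h1]
          · intro d _ hd1
            rw [hzero _ (fun h => hd1
              (Subtype.ext (inv_mul_eq_one.mp h).symm)), smul_zero, map_zero]
          · simp
        · rw [if_neg hg]
          refine Finset.sum_eq_zero fun d _ => ?_
          rw [hzero _ (fun h => hg (by rw [inv_mul_eq_one.mp h]; exact d.2)), smul_zero, map_zero]

omit [Algebra (↥A) C] in
theorem red_dichotomy (e : C) (he : redHom ev (e * e - e) = 0) :
    redHom ev e = 0 ∨ redHom ev e = 1 := by
  rw [map_sub, map_mul, sub_eq_zero] at he
  exact IsIdempotentElem.iff_eq_zero_or_one.mp he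

open Classical in
/-- Lifts of the idempotent modulo every non-zero element. -/
theorem exists_idempotent_mod (hd : LevelData G ev j) (a : A) (ha : a ≠ 0) : ∃ e : C,
    (∀ g : G, redHom ev (g • e) = if g ∈ componentStabilizer G ev then 1 else 0) ∧
    ∃ f, e * e - e = algebraMap A C a * f := by
  obtain ⟨e₀, he₀⟩ := exists_idempotent_red hd
  have h0 : ∀ g : G, redHom ev (g • (e₀ * e₀ - e₀)) = 0 := by
    intro g
    rw [smul_sub, smul_mul', map_sub, map_mul, he₀ g]
    split_ifs <;> simp
  obtain ⟨π, hπ, -, f₀, hf₀⟩ := dvd_of_red_smul_eq_zero hd h0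
  have step : ∀ k : ℕ, ∃ e : C,
      (∀ g : G, redHom ev (g • e) = if g ∈ componentStabilizer G ev then 1 else 0) ∧
      ∃ f, e * e - e = algebraMap A C (π ^ 2 ^ k) * f := by
    intro k
    induction k with
    | zero => exact ⟨e₀, he₀, f₀, by simpa using hf₀⟩
    | succ k ih =>
      obtain ⟨e, he, f, hf⟩ := ih
      refine ⟨3 * (e * e) - 2 * (e * e * e), fun g => ?_, f * f * (4 * (e * e) - 4 * e - 3), ?_⟩
      · simp only [smul_sub, smul_mul', map_sub, map_mul, he g]
        rw [show g • (3 : C) = 3 from map_ofNat (MulSemiringAction.toRingHom G C g) 3,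
          show g • (2 : C) = 2 from map_ofNat (MulSemiringAction.toRingHom G C g) 2, map_ofNat,
          map_ofNat]
        split_ifs <;> ring
      · calc (3 * (e * e) - 2 * (e * e * e)) * (3 * (e * e) - 2 * (e * e * e)) -
              (3 * (e * e) - 2 * (e * e * e))
            = (e * e - e) * (e * e - e) * (4 * (e * e) - 4 * e - 3) := by ring
          _ = _ := by
            rw [hf, pow_succ, pow_mul, map_pow _ (π ^ 2 ^ k) 2]
            ring
  obtain ⟨n, hn⟩ := hd.rank_one π hπ a ha
  obtain ⟨e, he, f, hf⟩ := step n
  obtain ⟨b, hb⟩ := hn.trans (pow_dvd_pow π (Nat.lt_two_pow_self).le)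
  exact ⟨e, he, algebraMap A C b * f, by rw [hf, hb, map_mul, mul_assoc]⟩

end LevelData

end FLTAgent.GoodReduction

end
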