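import Mathlib

/-!
# Separating functionals over a valuation subring

A vector outside the span of a finite family is detected by a finitely supported functional with
coefficients in a given valuation subring (`exists_finsupp_separating`).
-/

set_option autoImplicit false

noncomputable section

namespace FLTAgent.GoodReduction

variable {L : Type*} [Field L] (A : ValuationSubring L)

theorem exists_ne_zero_forall_mul_mem {P : Type*} (s : Finset P) (c : P → L) :
    ∃ d : L, d ≠ 0 ∧ d ∈ A ∧ ∀ p ∈ s, d * c p ∈ A := by
  classical
  induction s using Finset.induction_on with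
  | empty => exact ⟨1, one_ne_zero, one_mem A, by simp⟩
  | insert p s hp ih =>
    obtain ⟨d, hd0, hdA, hd⟩ := ih
    rcases A.mem_or_inv_mem (c p) with h | h
    · refine ⟨d, hd0, hdA, fun q hq => ?_⟩
      rcases Finset.mem_insert.mp hq with rfl | hq
      · exact mul_mem hdA h
      · exact hd q hq
    · by_cases hc : c p = 0
      · refine ⟨d, hd0, hdA, fun q hq => ?_⟩
        rcases Finset.mem_insert.mp hq with rfl | hq
        · rw [hc, mul_zero]; exact zero_mem A
        · exact hd q hq
      · refine ⟨d * (c p)⁻¹, mul_ne_zero hd0 (inv_ne_zero hc), mul_mem hdA h, fun q hq => ?_⟩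
        rcases Finset.mem_insert.mp hq with rfl | hq
        · rw [mul_assoc, inv_mul_cancel₀ hc, mul_one]; exact hdA
        · rw [mul_right_comm]; exact mul_mem (hd q hq) h

/-- If `T` is not in the span of the finite family `v`, some finitely supported functional with
coefficients in `A` kills every `v i` but not `T`. -/
theorem exists_finsupp_separating {P ι : Type*} [Fintype ι] (v : ι → P → L) (T : P → L)
    (hT : T ∉ Submodule.span L (Set.range v)) :
    ∃ (s : Finset P) (c : P → A),
      (∀ i, ∑ p ∈ s, (c p : L) * v i p = 0) ∧ ∑ p ∈ s, (c p : L) * T p ≠ 0 := by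
  classical
  let val : Option ι → P → L := fun o => o.elim T v
  let w : P → Option ι → L := fun p o => val o p
  have hmem : (Pi.single none (1 : L) : Option ι → L) ∈ Submodule.span L (Set.range w) := by
    by_contra hne
    obtain ⟨φ, hφ, hmap⟩ := Submodule.exists_dual_map_eq_bot_of_notMem hne inferInstance
    apply hT
    set c : Option ι → L := fun o => φ (Pi.single o 1) with hc
    have hφeq : ∀ p, φ (w p) = ∑ o, w p o * c o := by
      intro p
      conv_lhs => rw [pi_eq_sum_univ' (w p)]
      rw [map_sum]
      refine Finset.sum_congr rfl fun o _ => ?_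
      rw [map_smul, smul_eq_mul]
    have hzero : ∀ p, T p * c none + ∑ i, v i p * c (some i) = 0 := by
      intro p
      have hp : φ (w p) = 0 := by
        have : φ (w p) ∈ Submodule.map φ (Submodule.span L (Set.range w)) :=
          Submodule.mem_map_of_mem (Submodule.subset_span ⟨p, rfl⟩)
        rwa [hmap, Submodule.mem_bot] at this
      rw [hφeq, Fintype.sum_option] at hp
      simpa [w, val] using hp
    have hTeq : T = ∑ i, (-(c (some i)) / c none) • v i := by
      funext p
      rw [Finset.sum_apply]
      simp only [Pi.smul_apply, smul_eq_mul]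
      have hcn : c none ≠ 0 := hφ
      have h2 : ∑ i, v i p * c (some i) = -(T p * c none) := by linear_combination hzero p
      have h3 : ∑ i, -(c (some i)) / c none * v i p
          = (∑ i, v i p * c (some i)) * (-(c none)⁻¹) := by
        rw [Finset.sum_mul]
        exact Finset.sum_congr rfl fun i _ => by rw [div_eq_mul_inv]; ring
      rw [h3, h2]
      field_simp
    rw [hTeq]
    exact Submodule.sum_mem _ fun i _ => Submodule.smul_mem _ _ (Submodule.subset_span ⟨i, rfl⟩)
  rw [Finsupp.mem_span_range_iff_exists_finsupp] at hmem
  obtain ⟨a, ha⟩ := hmem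
  obtain ⟨d, hd0, -, hd⟩ := exists_ne_zero_forall_mul_mem A a.support a
  refine ⟨a.support, fun p => if hp : p ∈ a.support then ⟨d * a p, hd p hp⟩ else 0, ?_, ?_⟩
  all_goals
    have key : ∀ o, ∑ p ∈ a.support, (d * a p) * val o p
        = d * (Pi.single none (1 : L) : Option ι → L) o := by
      intro o
      rw [← ha, Finsupp.sum, Finset.sum_apply, Finset.mul_sum]
      exact Finset.sum_congr rfl fun p _ => by
        simp only [Pi.smul_apply, smul_eq_mul, w, mul_assoc]
  · intro i
    refine (Finset.sum_congr rfl fun p hp => ?_).trans ((key (some i)).trans ?_)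
    · simp [val, hp]
    · simp
  · refine ne_of_eq_of_ne ((Finset.sum_congr rfl fun p hp => ?_).trans (key none)) ?_
    · simp [val, hp]
    · simpa using hd0

end FLTAgent.GoodReduction

end
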