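import Mathlib
import Fermat.Agent.GoodReduction.Idempotent
import Fermat.Agent.GoodReduction.CoeffBounds
import Fermat.Agent.GoodReduction.Separation

/-!
# Connectedness of the special fibre

An element whose expansion at `∞` reduces to zero reduces to zero at every cusp
(`mem_componentStabilizer_all`), hence is divisible by an element of the maximal ideal
(`dvd_of_red_eq_zero`): the `q`-expansion principle at level `M`.
-/

set_option autoImplicit false

noncomputable section

open ModularCurve

namespace FLTAgent.GoodReduction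

variable {L : Type*} [Field L] {A : ValuationSubring L}
variable {C : Type*} [CommRing C] [IsDomain C] [Algebra A C]
variable {Γ : Type*} [Group Γ] [Finite Γ] [MulSemiringAction Γ C] [FaithfulSMul Γ C]
variable {G : Subgroup Γ} [Fintype G] {ev : C →+* LaurentSeries A} {j : C}

namespace LevelData

omit [IsDomain C] [Finite Γ] [FaithfulSMul Γ C] in
/-- An idempotent modulo `a` has constant expansion modulo `a` at every cusp. -/
theorem coeffMap_mk_smul_idempotent (hd : LevelData G ev j) {a : A} (ha0 : a ≠ 0)
    (ham : a ∈ IsLocalRing.maximalIdeal A) {e f : C} (hf : e * e - e = algebraMap A C a * f)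
    (γ : Γ) :
    (redHom ev (γ • e) = 0 ∧ coeffMap (Ideal.Quotient.mk (Ideal.span {a})) (ev (γ • e)) = 0) ∨
    (redHom ev (γ • e) = 1 ∧ coeffMap (Ideal.Quotient.mk (Ideal.span {a})) (ev (γ • e)) = 1) := by
  set q := coeffMap (Ideal.Quotient.mk (Ideal.span {a})) with hq
  set s := ev (γ • e) with hs
  have hqa : ∀ x : C, q (ev (algebraMap A C a * x)) = 0 := by
    intro x
    rw [map_mul, hd.ev_algebraMap, map_mul, hq, HahnSeries.C_apply, coeffMap_single,
      Ideal.Quotient.eq_zero_iff_mem.mpr (Ideal.mem_span_singleton_self a), map_zero, zero_mul]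
  have hidem : q (s * s) = q s := by
    rw [← sub_eq_zero, ← map_sub, hs, ← map_mul, ← map_sub, ← smul_mul', ← smul_sub, hf,
      smul_mul', hd.smul_algebraMap]
    exact hqa _
  have hred : redHom ev ((γ • e) * (γ • e) - γ • e) = 0 := by
    rw [← smul_mul', ← smul_sub, hf, smul_mul', hd.smul_algebraMap]
    exact red_algebraMap_mul_eq_zero hd ham _
  rcases red_dichotomy (γ • e) hred with h | h
  · exact Or.inl ⟨h, coeffMap_mk_eq_zero_of_idempotent a
      (fun π hπ => hd.rank_one π hπ a ha0) s ((redHom_eq_zero_iff ev _).mp h) hidem⟩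
  · refine Or.inr ⟨h, ?_⟩
    have h1 : redHom ev (1 - γ • e) = 0 := by rw [map_sub, map_one, h, sub_self]
    have h2 := coeffMap_mk_eq_zero_of_idempotent a (fun π hπ => hd.rank_one π hπ a ha0)
      (ev (1 - γ • e)) ((redHom_eq_zero_iff ev _).mp h1) ?_
    · rw [map_sub, map_one, map_sub, map_one, sub_eq_zero] at h2
      exact h2.symm
    · rw [map_sub ev, map_one ev, map_mul, map_sub, map_one]
      rw [map_mul] at hidem
      linear_combination hidem

omit [IsDomain C] [Finite Γ] [FaithfulSMul Γ C] in
/-- Level one elements with bounded pole modulo `a` are polynomials of bounded degree modulo `a`. -/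
theorem level_one_bounded (hd : LevelData G ev j) (a : A) (B : ℕ) (f : C)
    (hf : ∀ γ : Γ, γ • f = f)
    (hbd : ∀ n : ℤ, n < -(B : ℤ) →
      (coeffMap (Ideal.Quotient.mk (Ideal.span {a})) (ev f)).coeff n = 0) :
    ∃ (c : Fin (B + 1) → A) (g : C),
      f = ∑ i, algebraMap A C (c i) * j ^ (i : ℕ) + algebraMap A C a * g := by
  obtain ⟨P, rfl⟩ := hd.level_one f hf
  obtain ⟨e, he, hlead, hlow⟩ := hd.ev_j
  set mk := Ideal.Quotient.mk (Ideal.span {a}) with hmk
  have hcomp : coeffMap mk (ev (Polynomial.eval₂ (algebraMap A C) j P)) =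
      Polynomial.eval₂ HahnSeries.C (coeffMap mk (ev j)) (P.map mk) := by
    rw [Polynomial.hom_eval₂, Polynomial.hom_eval₂, Polynomial.eval₂_map]
    congr 1
    ext x n
    simp only [RingHom.comp_apply, hd.ev_algebraMap, HahnSeries.C_apply, coeffMap_single]
  have hdiv : ∀ d, B < d → a ∣ P.coeff d := by
    intro d hdB
    have := polynomial_coeff_eq_zero_of_bounded (coeffMap mk (ev j)) e he
      (fun n hn => by rw [coeffMap_coeff, hlow n hn, map_zero])
      (by rw [coeffMap_coeff, hlead, map_one]) (P.map mk) B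
      (fun n hn => by rw [← hcomp]; exact hbd n hn) d
      (lt_of_lt_of_le hdB (Nat.le_mul_of_pos_left _ he))
    rwa [Polynomial.coeff_map, Ideal.Quotient.eq_zero_iff_mem, Ideal.mem_span_singleton] at this
  choose b hb using fun d : ℕ => (show ∃ b : A, B < d → P.coeff d = a * b from by
    by_cases h : B < d
    · obtain ⟨b, hb⟩ := hdiv d h; exact ⟨b, fun _ => hb⟩
    · exact ⟨0, fun h' => absurd h' h⟩)
  refine ⟨fun i => P.coeff i,
    ∑ d ∈ Finset.Ico (B + 1) (max (B + 1) (P.natDegree + 1)), algebraMap A C (b d) * j ^ d, ?_⟩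
  rw [Polynomial.eval₂_eq_sum_range' (algebraMap A C)
      (n := max (B + 1) (P.natDegree + 1)) (lt_of_lt_of_le (Nat.lt_succ_self _) (le_max_right _ _)),
    ← Finset.sum_range_add_sum_Ico _ (le_max_left (B + 1) (P.natDegree + 1)),
    Finset.sum_range fun i => algebraMap A C (P.coeff i) * j ^ i, Finset.mul_sum]
  congr 1
  refine Finset.sum_congr rfl fun d hd' => ?_
  rw [hb d (Nat.lt_of_succ_le (Finset.mem_Ico.mp hd').1), map_mul]
  ring

open Classical in
theorem mem_componentStabilizer_all (hd : LevelData G ev j) (g₀ : G) :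
    g₀ ∈ componentStabilizer G ev := by
  by_contra hg₀
  have := Fintype.ofFinite Γ
  obtain ⟨ι, _, x, y, hδ, hzero⟩ := exists_galois_identity (C := C) (Γ := Γ)
  set δ := ∑ i, x i * y i with hδdef
  -- pole bound at all cusps
  let N : ℕ := Finset.univ.sup fun p : Γ × ι => (-(ev (p.1 • y p.2)).order).toNat
  have hN : ∀ (γ : Γ) i (n : ℤ), n < -(N : ℤ) → (ev (γ • y i)).coeff n = 0 := by
    intro γ i n hn
    apply HahnSeries.coeff_eq_zero_of_lt_order
    have : (-(ev (γ • y i)).order).toNat ≤ N :=
      Finset.le_sup (f := fun p : Γ × ι => (-(ev (p.1 • y p.2)).order).toNat)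
        (Finset.mem_univ (γ, i))
    omega
  -- the detecting functional
  let gb : Bool → C → LaurentSeries A := fun b f => if b then ev ((g₀ : Γ) • f) else ev f
  let v : ι × Fin (N + 1) → Bool × ℤ → L :=
    fun k p => ((gb p.1 (x k.1 * j ^ (k.2 : ℕ))).coeff p.2 : L)
  let T : Bool × ℤ → L := fun p => if p.1 then 0 else ((ev δ).coeff p.2 : L)
  have hT : T ∉ Submodule.span L (Set.range v) := by
    intro hmem
    obtain ⟨c, hc⟩ := (Submodule.mem_span_range_iff_exists_fun L).mp hmem
    obtain ⟨d, hd0, hdA, hdc⟩ := exists_ne_zero_forall_mul_mem A Finset.univ c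
    let w : C := ∑ k, algebraMap A C ⟨d * c k, hdc k (Finset.mem_univ k)⟩ *
      (x k.1 * j ^ (k.2 : ℕ))
    have hw : ∀ b n, ((gb b w).coeff n : L) = d * T (b, n) := by
      intro b n
      rw [← hc, Finset.sum_apply, Finset.mul_sum]
      have : gb b w = ∑ k, HahnSeries.C (⟨d * c k, hdc k (Finset.mem_univ k)⟩ : A) *
          gb b (x k.1 * j ^ (k.2 : ℕ)) := by
        cases b
        · simp only [gb, Bool.false_eq_true, if_false, w, map_sum, map_mul, hd.ev_algebraMap]
        · simp only [gb, if_true, w, Finset.smul_sum, smul_mul', hd.smul_algebraMap, map_sum,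
            map_mul, hd.ev_algebraMap]
      rw [this, HahnSeries.coeff_sum, AddSubmonoidClass.coe_finsetSum]
      refine Finset.sum_congr rfl fun k _ => ?_
      rw [HahnSeries.C_mul_eq_smul, HahnSeries.coeff_smul]
      simp only [smul_eq_mul, MulMemClass.coe_mul, Pi.smul_apply, v]
      ring
    have hw0 : w = 0 := by
      have h1 : ev ((g₀ : Γ) • w) = 0 := by
        ext n
        have := hw true n
        simpa [gb, T] using this
      have h2 := (map_eq_zero_iff ev hd.ev_injective).mp h1
      exact (smul_eq_zero_iff_eq (g₀ : Γ)).mp h2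
    have hdel : ev δ = 0 := by
      ext n
      have := hw false n
      simp only [gb, Bool.false_eq_true, if_false, hw0, map_zero, HahnSeries.coeff_zero,
        ZeroMemClass.coe_zero, T] at this
      rw [HahnSeries.coeff_zero]
      exact (mul_eq_zero.mp this.symm).resolve_left hd0
    exact hδ ((map_eq_zero_iff ev hd.ev_injective).mp hdel)
  obtain ⟨s, c, hcv, hcT⟩ := exists_finsupp_separating A v T hT
  -- the value of the functional on `T`
  set κ : A := ∑ p ∈ s, c p * (if p.1 then 0 else (ev δ).coeff p.2) with hκdef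
  have hκ : κ ≠ 0 := by
    intro h
    apply hcT
    have : ((κ : A) : L) = 0 := by rw [h]; rfl
    rw [hκdef, AddSubmonoidClass.coe_finsetSum] at this
    refine Eq.trans (Finset.sum_congr rfl fun p _ => ?_) this
    obtain ⟨b, n⟩ := p
    cases b <;> simp [T]
  obtain ⟨π, hπ, hπ0⟩ := hd.exists_maximal_ne_zero
  set a := κ * π with hadef
  have ha : a ≠ 0 := mul_ne_zero hκ hπ0
  have ham : a ∈ IsLocalRing.maximalIdeal A := Ideal.mul_mem_left _ _ hπ
  obtain ⟨e, he, f, hf⟩ := exists_idempotent_mod hd a ha
  set mk := Ideal.Quotient.mk (Ideal.span {a}) with hmk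
  have hdich := fun γ : Γ => coeffMap_mk_smul_idempotent hd ha ham hf γ
  have he1 : coeffMap mk (ev e) = 1 := by
    rcases hdich 1 with h | h
    · have := he 1
      rw [if_pos (one_mem _), one_smul] at this
      rw [one_smul, this] at h
      exact absurd h.1 one_ne_zero
    · simpa using h.2
  have he0 : coeffMap mk (ev ((g₀ : Γ) • e)) = 0 := by
    have hg := he g₀
    rw [if_neg hg₀] at hg
    rcases hdich (g₀ : Γ) with h | h
    · exact h.2
    · exact absurd (hg.symm.trans h.1) zero_ne_one
  -- level one traces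
  have htr : ∀ i, ∃ (b : Fin (N + 1) → A) (g : C), ∑ γ : Γ, γ • (e * y i) =
      ∑ k, algebraMap A C (b k) * j ^ (k : ℕ) + algebraMap A C a * g := by
    intro i
    refine level_one_bounded hd a N _ (fun h => ?_) (fun n hn => ?_)
    · rw [Finset.smul_sum]
      simp_rw [smul_smul]
      exact Fintype.sum_equiv (Equiv.mulLeft h) _ _ fun γ => rfl
    · rw [map_sum, map_sum, HahnSeries.coeff_sum]
      refine Finset.sum_eq_zero fun γ _ => ?_
      rw [smul_mul', map_mul, map_mul]
      rcases hdich γ with h | h <;> rw [h.2]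
      · simp
      · rw [one_mul, coeffMap_coeff, hN γ i n hn, map_zero]
  choose b g hbg using htr
  -- apply the functional to `δ * e`
  let φ : C → A := fun h => ∑ p ∈ s, c p * (gb p.1 h).coeff p.2
  have hφadd : ∀ h h', φ (h + h') = φ h + φ h' := by
    intro h h'
    simp only [φ, ← Finset.sum_add_distrib]
    refine Finset.sum_congr rfl fun p _ => ?_
    obtain ⟨b, n⟩ := p
    cases b <;> simp [gb, smul_add, mul_add]
  have hφsmul : ∀ (r : A) h, φ (algebraMap A C r * h) = r * φ h := by
    intro r h
    simp only [φ, Finset.mul_sum]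
    refine Finset.sum_congr rfl fun p _ => ?_
    obtain ⟨b, n⟩ := p
    cases b <;> simp [gb, smul_mul', hd.smul_algebraMap, hd.ev_algebraMap] <;> ring
  let φhom : C →+ A := AddMonoidHom.mk' φ hφadd
  have hφv : ∀ k : ι × Fin (N + 1), φ (x k.1 * j ^ (k.2 : ℕ)) = 0 := by
    intro k
    apply Subtype.ext
    simp only [φ, AddSubmonoidClass.coe_finsetSum, MulMemClass.coe_mul, ZeroMemClass.coe_zero]
    exact hcv k
  have hmem : φ (δ * e) ∈ Ideal.span {a} := by
    have hexp : δ * e = ∑ i, ∑ k, algebraMap A C (b i k) * (x i * j ^ (k : ℕ)) +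
        algebraMap A C a * ∑ i, x i * g i := by
      rw [galois_identity_trace x y hzero e, Finset.mul_sum, ← Finset.sum_add_distrib]
      refine Finset.sum_congr rfl fun i _ => ?_
      rw [hbg i, mul_add, Finset.mul_sum]
      congr 1
      · exact Finset.sum_congr rfl fun k _ => by ring
      · ring
    rw [hexp, hφadd, hφsmul]
    refine Ideal.add_mem _ ?_ (Ideal.mul_mem_right _ _ (Ideal.mem_span_singleton_self a))
    change φhom _ ∈ _
    rw [map_sum]
    refine Ideal.sum_mem _ fun i _ => ?_
    rw [map_sum]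
    refine Ideal.sum_mem _ fun k _ => ?_
    change φ _ ∈ _
    rw [hφsmul, hφv (i, k), mul_zero]
    exact Ideal.zero_mem _
  have hval : mk (φ (δ * e)) = mk κ := by
    simp only [φ, hκdef, map_sum]
    refine Finset.sum_congr rfl fun p _ => ?_
    obtain ⟨b', n⟩ := p
    rw [map_mul, map_mul]
    congr 1
    cases b'
    · have : coeffMap mk (ev (δ * e)) = coeffMap mk (ev δ) := by
        rw [map_mul, map_mul, he1, mul_one]
      simp only [gb, Bool.false_eq_true, if_false]
      rw [← coeffMap_coeff mk, this, coeffMap_coeff]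
    · have : coeffMap mk (ev ((g₀ : Γ) • (δ * e))) = 0 := by
        rw [smul_mul', map_mul, map_mul, he0, mul_zero]
      simp only [gb, if_true]
      rw [← coeffMap_coeff mk, this, HahnSeries.coeff_zero, map_zero]
  have hκmem : κ ∈ Ideal.span {a} := by
    rw [← Ideal.Quotient.eq_zero_iff_mem, ← hmk, ← hval, hmk, Ideal.Quotient.eq_zero_iff_mem]
    exact hmem
  obtain ⟨t, ht⟩ := Ideal.mem_span_singleton.mp hκmem
  have h1 : π * t = 1 := by
    apply mul_left_cancel₀ hκ
    rw [← mul_assoc, ← hadef, ← ht, mul_one]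
  exact (IsLocalRing.mem_maximalIdeal π).mp hπ (IsUnit.of_mul_eq_one _ h1)

/-- The `q`-expansion principle. -/
theorem dvd_of_red_eq_zero (hd : LevelData G ev j) {f : C} (hf : redHom ev f = 0) :
    ∃ a ∈ IsLocalRing.maximalIdeal A, a ≠ 0 ∧ ∃ f', f = algebraMap A C a * f' :=
  dvd_of_red_smul_eq_zero hd fun g => mem_componentStabilizer_all hd g f hf

/-- The kernel of the reduction at `∞` is stable under the whole of `Γ`. -/
theorem red_smul_eq_zero (hd : LevelData G ev j) {f : C} (hf : redHom ev f = 0) (γ : Γ) :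
    redHom ev (γ • f) = 0 := by
  obtain ⟨a, ha, -, f', rfl⟩ := dvd_of_red_eq_zero hd hf
  rw [smul_mul', hd.smul_algebraMap]
  exact red_algebraMap_mul_eq_zero hd ha _

end LevelData

end FLTAgent.GoodReduction

end
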