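import Fermat.Agent.LevelM.ModularRing
import Mathlib
import Fermat.Agent.GoodReduction.LevelData

/-!
# Pole bounds at the cusps

`PoleBounded`: pole order at most `e n` at every cusp, with its closure properties, and
`CuspData`, the data needed for the chart at infinity.
-/

set_option autoImplicit false

noncomputable section

open ModularCurve

namespace FLTAgent.GoodReduction

variable {L : Type*} [Field L] {A : ValuationSubring L}
variable {C : Type*} [CommRing C] [Algebra A C]
variable {Γ : Type*} [Group Γ] [MulSemiringAction Γ C]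

/-- `f` has pole order at most `e * n` at every cusp. -/
def PoleBounded (Γ : Type*) [Group Γ] [MulSemiringAction Γ C] (ev : C →+* LaurentSeries A)
    (e n : ℕ) (f : C) : Prop :=
  ∀ γ : Γ, ∀ m : ℤ, m < -((e * n : ℕ) : ℤ) → (ev (γ • f)).coeff m = 0

/-- Data at the cusp `∞`: `j` has a pole of order `e` with leading coefficient one, the group is
faithful on reductions, and there are two functions locating the cusp. -/
structure CuspData (Γ : Type*) [Group Γ] [MulSemiringAction Γ C] (ev : C →+* LaurentSeries A)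
    (j : C) (e : ℕ) : Prop where
  pos : 0 < e
  lead : (ev j).coeff (-(e : ℤ)) = 1
  low : ∀ n : ℤ, n < -(e : ℤ) → (ev j).coeff n = 0
  faithful : ∀ γ : Γ, (∀ f : C, redHom ev (γ • f) = redHom ev f) → γ = 1
  exists_cusp_function : ∃ (n : ℕ) (f : C), PoleBounded Γ ev e n f ∧
    (redHom ev f).coeff (-((e * n : ℕ) : ℤ)) ≠ 0 ∧
    ∀ γ : Γ, (redHom ev (γ • f)).coeff (-((e * n : ℕ) : ℤ)) = 0 ∨
      ∀ (g : C) (m : ℤ), (redHom ev (γ • g)).coeff m = 0 ↔ (redHom ev g).coeff m = 0
  exists_uniformizer : ∃ (n : ℕ) (f : C), PoleBounded Γ ev e n f ∧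
    (redHom ev f).coeff (-((e * n : ℕ) : ℤ)) = 0 ∧
    (redHom ev f).coeff (1 - ((e * n : ℕ) : ℤ)) ≠ 0

namespace PoleBounded

variable {ev : C →+* LaurentSeries A} {e n m : ℕ} {f g : C}

omit [Algebra (↥A) C] in
theorem mono (hf : PoleBounded Γ ev e n f) (h : n ≤ m) : PoleBounded Γ ev e m f :=
  fun γ i hi => hf γ i (lt_of_lt_of_le hi (by
    have := Nat.mul_le_mul_left e h
    omega))

omit [Algebra (↥A) C] in
theorem add (hf : PoleBounded Γ ev e n f) (hg : PoleBounded Γ ev e n g) :
    PoleBounded Γ ev e n (f + g) := fun γ i hi => by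
  rw [smul_add, map_add, HahnSeries.coeff_add, hf γ i hi, hg γ i hi, add_zero]

omit [Algebra (↥A) C] in
theorem neg (hf : PoleBounded Γ ev e n f) : PoleBounded Γ ev e n (-f) := fun γ i hi => by
  rw [smul_neg, map_neg, HahnSeries.coeff_neg, hf γ i hi, neg_zero]

omit [Algebra (↥A) C] in
/-- Zero is pole bounded. -/
theorem zero : PoleBounded Γ ev e n (0 : C) := fun γ i _ => by
  rw [smul_zero, map_zero, HahnSeries.coeff_zero]

omit [Algebra (↥A) C] in
theorem mul (hf : PoleBounded Γ ev e n f) (hg : PoleBounded Γ ev e m g) :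
    PoleBounded Γ ev e (n + m) (f * g) := fun γ i hi => by
  rw [smul_mul', map_mul]
  exact LevelM.coeff_mul_below (hf γ) (hg γ) (lt_of_lt_of_le hi (by rw [Nat.mul_add]; omega))

omit [Algebra (↥A) C] in
theorem smul (hf : PoleBounded Γ ev e n f) (δ : Γ) : PoleBounded Γ ev e n (δ • f) :=
  fun γ i hi => by
    rw [smul_smul]
    exact hf _ i hi

theorem constant (hconst : ∀ a : A, ev (algebraMap A C a) = HahnSeries.C a)
    (hsmul : ∀ (γ : Γ) (a : A), γ • algebraMap A C a = algebraMap A C a) (a : A) :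
    PoleBounded Γ ev e 0 (algebraMap A C a) := fun γ i hi => by
  rw [hsmul, hconst, HahnSeries.C_apply, HahnSeries.coeff_single_of_ne (by omega)]

omit [Algebra (↥A) C] in
/-- One is pole bounded. -/
theorem one : PoleBounded Γ ev e 0 (1 : C) := fun γ i hi => by
  rw [smul_one, map_one, HahnSeries.coeff_one, if_neg (by omega)]

omit [Algebra (↥A) C] in
theorem self_j {j : C} (hj : ∀ γ : Γ, γ • j = j)
    (low : ∀ i : ℤ, i < -(e : ℤ) → (ev j).coeff i = 0) : PoleBounded Γ ev e 1 j :=
  fun γ i hi => by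
    rw [hj]
    exact low i (by omega)

omit [Algebra (↥A) C] in
theorem pow (hf : PoleBounded Γ ev e n f) (i : ℕ) : PoleBounded Γ ev e (i * n) (f ^ i) := by
  induction i with
  | zero => simpa using one
  | succ i ih => rw [pow_succ, Nat.succ_mul]; exact ih.mul hf

omit [Algebra (↥A) C] in
theorem prod {ι : Type*} (s : Finset ι) (F : ι → C) (h : ∀ i ∈ s, PoleBounded Γ ev e n (F i)) :
    PoleBounded Γ ev e (s.card * n) (∏ i ∈ s, F i) := by
  classical
  induction s using Finset.induction_on with
  | empty => simpa using one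
  | insert i s hi ih =>
    rw [Finset.prod_insert hi, Finset.card_insert_of_notMem hi, Nat.succ_mul, add_comm]
    exact (h i (Finset.mem_insert_self _ _)).mul (ih fun k hk => h k (Finset.mem_insert_of_mem hk))

variable (Γ) in
omit [Algebra (↥A) C] in
theorem exists_bound [Finite Γ] (ev : C →+* LaurentSeries A) (he : 0 < e) (f : C) :
    ∃ n, PoleBounded Γ ev e n f := by
  have := Fintype.ofFinite Γ
  refine ⟨Finset.univ.sup fun γ : Γ => (-(ev (γ • f)).order).toNat, fun γ i hi => ?_⟩
  apply HahnSeries.coeff_eq_zero_of_lt_order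
  have h1 : (-(ev (γ • f)).order).toNat ≤
    Finset.univ.sup fun γ : Γ => (-(ev (γ • f)).order).toNat :=
    Finset.le_sup (f := fun γ : Γ => (-(ev (γ • f)).order).toNat) (Finset.mem_univ γ)
  have h2 := Nat.le_mul_of_pos_left
    (Finset.univ.sup fun γ : Γ => (-(ev (γ • f)).order).toNat) he
  omega

end PoleBounded

end FLTAgent.GoodReduction

end
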