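import Mathlib
import Fermat.Prelude.Def_ModularCurve_LaurentCoeff
import Fermat.Agent.GoodReduction.Connected
import Fermat.Agent.GoodReduction.Model
import Fermat.Agent.GoodReduction.PoleBounded

/-!
# The reduction as a model of the level `M` ring

Reduction at `∞` is a `Model` (`redModel`), every reduction is integral over `k[j̄]`, and an
integral ratio is again a reduction (`exists_red_of_integral`): normality over the finite part of
the `j`-line.
-/

set_option autoImplicit false

noncomputable section

open ModularCurve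

namespace FLTAgent.GoodReduction

variable {L : Type*} [Field L] {A : ValuationSubring L}
variable {C : Type*} [CommRing C] [IsDomain C] [Algebra A C]
variable {Γ : Type*} [Group Γ] [Finite Γ] [MulSemiringAction Γ C] [FaithfulSMul Γ C]
variable {G : Subgroup Γ} [Fintype G] {ev : C →+* LaurentSeries A} {j : C} {e : ℕ}

local notation "κ" => IsLocalRing.ResidueField A

namespace LevelData

omit [IsDomain C] [Finite Γ] [FaithfulSMul Γ C] in
theorem red_algebraMap_eq (hd : LevelData G ev j) (a : A) :
    redHom ev (algebraMap A C a) =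
      algebraMap κ (LaurentSeries κ) (IsLocalRing.residue A a) := by
  rw [red_algebraMap hd, algebraMap_laurentSeries_eq_single, HahnSeries.C_apply]

omit [IsDomain C] [Finite Γ] [FaithfulSMul Γ C] in
theorem red_eval (hd : LevelData G ev j) (P : Polynomial A) :
    redHom ev (Polynomial.eval₂ (algebraMap A C) j P) =
      Polynomial.aeval (redHom ev j) (P.map (IsLocalRing.residue A)) := by
  rw [Polynomial.hom_eval₂, Polynomial.aeval_def, Polynomial.eval₂_map]
  congr 1
  exact RingHom.ext fun a => red_algebraMap_eq hd a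

omit [IsDomain C] [Finite Γ] [FaithfulSMul Γ C] [Algebra (↥A) C] in
theorem red_j_coeff (hc : CuspData Γ ev j e) :
    (redHom ev j).coeff (-(e : ℤ)) = 1 ∧
      ∀ n : ℤ, n < -(e : ℤ) → (redHom ev j).coeff n = 0 := by
  refine ⟨?_, fun n hn => ?_⟩
  · rw [redHom_apply, coeffMap_coeff, hc.lead, map_one]
  · rw [redHom_apply, coeffMap_coeff, hc.low n hn, map_zero]

omit [IsDomain C] [Finite Γ] [FaithfulSMul Γ C] [Algebra (↥A) C] in
theorem aeval_red_j_degree (hc : CuspData Γ ev j e)
    (P : Polynomial κ) (B : ℕ)
    (hP : ∀ n : ℤ, n < -(B : ℤ) → (Polynomial.aeval (redHom ev j) P).coeff n = 0)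
    (d : ℕ) (hd' : B < e * d) : P.coeff d = 0 := by
  obtain ⟨h1, h2⟩ := red_j_coeff hc
  refine polynomial_coeff_eq_zero_of_bounded _ e hc.pos h2 h1 P B (fun n hn => ?_) d hd'
  have hC : (HahnSeries.C : κ →+* LaurentSeries κ) = algebraMap κ (LaurentSeries κ) :=
    RingHom.ext fun a => by rw [algebraMap_laurentSeries_eq_single, HahnSeries.C_apply]
  rw [hC, ← Polynomial.aeval_def]
  exact hP n hn

theorem redModel (hd : LevelData G ev j) (hc : CuspData Γ ev j e) :
    Model Γ (IsLocalRing.residue A) (redHom ev) j where
  map_algebraMap := red_algebraMap_eq hd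
  exists_ratio c := by
    obtain ⟨a, rfl⟩ := IsLocalRing.residue_surjective c
    exact ⟨a, 1, by simp, by simp⟩
  smul_algebraMap := hd.smul_algebraMap
  ker_stable γ _ h := red_smul_eq_zero hd h γ
  faithful := hc.faithful
  smul_j := hd.smul_j
  level_one := hd.level_one
  transcendental := by
    refine transcendental_iff.mpr fun P hP => Polynomial.ext fun d => ?_
    rw [Polynomial.coeff_zero]
    by_cases hd0 : d = 0
    · -- the constant coefficient
      subst hd0
      by_contra hne
      have hdeg : P = Polynomial.C (P.coeff 0) := Polynomial.eq_C_of_natDegree_eq_zero (by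
        by_contra hn
        apply Polynomial.leadingCoeff_ne_zero.mpr (fun (h : P = 0) => hne
          (by rw [h, Polynomial.coeff_zero]))
        exact aeval_red_j_degree hc P 0 (fun n _ => by rw [hP, HahnSeries.coeff_zero])
          P.natDegree (Nat.mul_pos hc.pos (Nat.pos_of_ne_zero hn)))
      rw [hdeg, Polynomial.aeval_C] at hP
      exact hne ((map_eq_zero _).mp hP)
    · exact aeval_red_j_degree hc P 0 (fun n _ => by rw [hP, HahnSeries.coeff_zero]) d
        (Nat.mul_pos hc.pos (Nat.pos_of_ne_zero hd0))

omit [IsDomain C] [FaithfulSMul Γ C] [Finite Γ] in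
theorem adjoin_le_range (hd : LevelData G ev j) (w : LaurentSeries κ)
    (hw : w ∈ Algebra.adjoin κ {redHom ev j}) :
    ∃ f : C, (∀ γ : Γ, γ • f = f) ∧ redHom ev f = w := by
  induction hw using Algebra.adjoin_induction with
  | mem y hy => rw [Set.mem_singleton_iff] at hy; exact ⟨j, hd.smul_j, hy.symm⟩
  | algebraMap c =>
    obtain ⟨a, rfl⟩ := IsLocalRing.residue_surjective c
    exact ⟨algebraMap A C a, fun γ => hd.smul_algebraMap γ a, red_algebraMap_eq hd a⟩
  | add u v _ _ hu hv =>
    obtain ⟨f, hf, rfl⟩ := hu; obtain ⟨g, hg, rfl⟩ := hv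
    exact ⟨f + g, fun γ => by rw [smul_add, hf, hg], map_add _ _ _⟩
  | mul u v _ _ hu hv =>
    obtain ⟨f, hf, rfl⟩ := hu; obtain ⟨g, hg, rfl⟩ := hv
    exact ⟨f * g, fun γ => by rw [smul_mul', hf, hg], map_mul _ _ _⟩

omit [IsDomain C] [FaithfulSMul Γ C] in
/-- Every reduction is integral over `k[j̄]`. -/
theorem isIntegral_red (hd : LevelData G ev j) (f : C) :
    IsIntegral (Algebra.adjoin κ {redHom ev j}) (redHom ev f) := by
  have : Algebra.IsInvariant (FixedPoints.subring C Γ) C Γ := ⟨fun b hb => ⟨⟨b, hb⟩, rfl⟩⟩
  obtain ⟨P, hP, hPf⟩ :=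
    (Algebra.IsInvariant.isIntegral (FixedPoints.subring C Γ) C Γ).isIntegral f
  have hmem : ∀ r : FixedPoints.subring C Γ,
      redHom ev (r : C) ∈ Algebra.adjoin κ {redHom ev j} := by
    intro r
    obtain ⟨Q, hQ⟩ := hd.level_one r r.2
    rw [hQ, red_eval hd]
    exact Polynomial.aeval_mem_adjoin_singleton _ _
  let ψ : FixedPoints.subring C Γ →+* Algebra.adjoin κ {redHom ev j} :=
    ((redHom ev).comp (FixedPoints.subring C Γ).subtype).codRestrict
      (Algebra.adjoin κ {redHom ev j}).toSubring hmem
  refine ⟨P.map ψ, hP.map ψ, ?_⟩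
  rw [Polynomial.eval₂_map]
  have := congrArg (redHom ev) hPf
  rw [Polynomial.hom_eval₂, map_zero] at this
  exact this

/-- Normality of the image at level `M`: integral ratios are reductions. -/
theorem exists_red_of_integral (hd : LevelData G ev j) (hc : CuspData Γ ev j e)
    (z : modelField κ (redHom ev))
    (hz : IsIntegral (Algebra.adjoin κ {redHom ev j}) (z : LaurentSeries κ)) :
    ∃ f : C, redHom ev f = z := by
  classical
  have hm := hd.redModel hc
  have := Fintype.ofFinite Γ
  -- a denominator invariant under `G`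
  obtain ⟨f, g, hg0, h⟩ := (hm.mem_modelField_iff (z : LaurentSeries κ)).mp z.2
  set g' := ∏ a : G, a • g with hg'
  set f' := f * ∏ a ∈ Finset.univ.erase (1 : G), a • g with hf'
  have hg'0 : redHom ev g' ≠ 0 := by
    rw [hg', map_prod]
    exact Finset.prod_ne_zero_iff.mpr fun a _ => hm.map_smul_ne_zero _ hg0
  have hg'inv : ∀ a : G, a • g' = g' := by
    intro a
    rw [hg', Finset.smul_prod']
    exact Fintype.prod_equiv (Equiv.mulLeft a) _ _ fun b => by rw [smul_smul]; rfl
  have hzf' : (z : LaurentSeries κ) * redHom ev g' = redHom ev f' := by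
    rw [hg', hf', ← Finset.mul_prod_erase Finset.univ (fun a : G => a • g) (Finset.mem_univ 1),
      one_smul, map_mul, map_mul, ← mul_assoc, h]
  clear_value f' g'
  obtain ⟨ι, _, x, y, h1, hzero⟩ := hd.galois
  let act := hm.action
  have := hm.action_smulCommClass
  have hline := hm.isInvariantLine
  let X : modelField κ (redHom ev) := ⟨redHom ev j, map_mem_modelField _ j⟩
  have hval : ∀ w : modelField κ (redHom ev), IsIntegral (Algebra.adjoin κ {X}) w →
      IsIntegral (Algebra.adjoin κ {redHom ev j}) (w : LaurentSeries κ) := by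
    rintro w ⟨P, hP, hPw⟩
    have hmem : ∀ r : Algebra.adjoin κ {X},
        ((r : modelField κ (redHom ev)) : LaurentSeries κ) ∈ Algebra.adjoin κ {redHom ev j} := by
      intro r
      have : (modelField κ (redHom ev)).val r ∈
          (Algebra.adjoin κ {X}).map (modelField κ (redHom ev)).val := ⟨r, r.2, rfl⟩
      rw [AlgHom.map_adjoin, Set.image_singleton] at this
      exact this
    let ψ : Algebra.adjoin κ {X} →+* Algebra.adjoin κ {redHom ev j} :=
      ((modelField κ (redHom ev)).val.toRingHom.comp
        (Algebra.adjoin κ {X}).val.toRingHom).codRestrict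
        (Algebra.adjoin κ {redHom ev j}).toSubring hmem
    refine ⟨P.map ψ, hP.map ψ, ?_⟩
    rw [Polynomial.eval₂_map]
    have := congrArg (modelField κ (redHom ev)).val.toRingHom hPw
    rw [Polynomial.hom_eval₂, map_zero] at this
    exact this
  have hval' : ∀ w : modelField κ (redHom ev),
      IsIntegral (Algebra.adjoin κ {redHom ev j}) (w : LaurentSeries κ) →
      IsIntegral (Algebra.adjoin κ {X}) w := by
    rintro w ⟨P, hP, hPw⟩
    have hsurj : ∀ r : Algebra.adjoin κ {redHom ev j}, ∃ r' : Algebra.adjoin κ {X},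
        ((r' : modelField κ (redHom ev)) : LaurentSeries κ) = r := by
      intro r
      have : (r : LaurentSeries κ) ∈
          (Algebra.adjoin κ {X}).map (modelField κ (redHom ev)).val := by
        rw [AlgHom.map_adjoin, Set.image_singleton]; exact r.2
      obtain ⟨r', hr', e'⟩ := this
      exact ⟨⟨r', hr'⟩, e'⟩
    choose ψ hψ using hsurj
    have hinj : ∀ a b : Algebra.adjoin κ {X},
        ((a : modelField κ (redHom ev)) : LaurentSeries κ) = (b : modelField κ (redHom ev)) →
          a = b := fun a b e => Subtype.ext (Subtype.ext e)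
    let ψ' : Algebra.adjoin κ {redHom ev j} →+* Algebra.adjoin κ {X} :=
      { toFun := ψ
        map_one' := hinj _ _ (by rw [hψ]; rfl)
        map_mul' := fun a b => hinj _ _ (by
          rw [hψ]
          change _ = ((ψ a : modelField κ (redHom ev)) : LaurentSeries κ) *
            ((ψ b : modelField κ (redHom ev)) : LaurentSeries κ)
          rw [hψ, hψ]; rfl)
        map_zero' := hinj _ _ (by rw [hψ]; rfl)
        map_add' := fun a b => hinj _ _ (by
          rw [hψ]
          change _ = ((ψ a : modelField κ (redHom ev)) : LaurentSeries κ) +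
            ((ψ b : modelField κ (redHom ev)) : LaurentSeries κ)
          rw [hψ, hψ]; rfl) }
    refine ⟨P.map ψ', hP.map ψ', (modelField κ (redHom ev)).val.injective ?_⟩
    rw [map_zero, Polynomial.eval₂_map]
    change (modelField κ (redHom ev)).val.toRingHom _ = _
    rw [Polynomial.hom_eval₂]
    refine Eq.trans ?_ hPw
    congr 1
    exact RingHom.ext fun r => hψ r
  have hzX := hval' z hz
  -- the traces of `z * ȳ i` are reductions of invariant elements
  have hw : ∀ i, ∃ r : C, (∀ a : G, a • r = r) ∧
      redHom ev r * redHom ev g' = redHom ev (∑ a : G, a • (f' * y i)) := by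
    intro i
    let w : modelField κ (redHom ev) :=
      ∑ a : G, (a : Γ) • (z * ⟨redHom ev (y i), map_mem_modelField _ _⟩)
    have hwint : IsIntegral (Algebra.adjoin κ {X}) w := by
      refine IsIntegral.sum _ fun a _ => hline.smul_isIntegral _ (hzX.mul ?_)
      exact hval' _ (isIntegral_red hd (y i))
    have hweq : (w : LaurentSeries κ) * redHom ev g' =
        redHom ev (∑ a : G, a • (f' * y i)) := by
      rw [map_sum, AddSubmonoidClass.coe_finsetSum, Finset.sum_mul]
      refine Finset.sum_congr rfl fun a _ => ?_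
      have := hm.smulFun_spec (a : Γ) (z * ⟨redHom ev (y i), map_mem_modelField _ _⟩)
        (f := f' * y i) (g := g') hg'0
        (by
          rw [IntermediateField.coe_mul, map_mul, ← hzf']
          ring)
      rw [← Subgroup.smul_def, hg'inv] at this
      exact this
    obtain ⟨r, hr, hr'⟩ := hd.normal_invariant (w : LaurentSeries κ) g'
      (∑ a : G, a • (f' * y i)) hg'inv (trace_invariant _) hg'0 hweq (by
        obtain ⟨P, hP, hPw⟩ := hval w hwint
        choose ψ hψ hψ' using fun r : Algebra.adjoin κ {redHom ev j} => adjoin_le_range hd r r.2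
        let R := ((redHom ev).comp (FixedPoints.subring C G).subtype).range
        have hmem : ∀ r : Algebra.adjoin κ {redHom ev j}, (r : LaurentSeries κ) ∈ R :=
          fun r => ⟨⟨ψ r, fun a => hψ r a⟩, hψ' r⟩
        let incl : Algebra.adjoin κ {redHom ev j} →+* R :=
          (Algebra.adjoin κ {redHom ev j}).val.toRingHom.codRestrict R hmem
        have hintR : IsIntegral R (w : LaurentSeries κ) := by
          refine ⟨P.map incl, hP.map incl, ?_⟩
          rw [Polynomial.eval₂_map]
          exact hPw
        obtain ⟨Q, hQ, hQw⟩ := hintR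
        obtain ⟨Q', hQ', -, hQ'm⟩ := Polynomial.lifts_and_natDegree_eq_and_monic
          (f := ((redHom ev).comp (FixedPoints.subring C G).subtype).rangeRestrict) (p := Q)
          ((Polynomial.lifts_iff_coeff_lifts Q).mpr fun n =>
            RingHom.rangeRestrict_surjective _ _) hQ
        refine ⟨Q', hQ'm, ?_⟩
        rw [← hQ', Polynomial.eval₂_map] at hQw
        exact hQw)
    exact ⟨r, hr, by rw [hr']; exact hweq⟩
  choose r _ hreq using hw
  refine ⟨∑ i, x i * r i, mul_right_cancel₀ hg'0 ?_⟩
  rw [hzf', map_sum, Finset.sum_mul]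
  have := galois_identity_trace (Γ := G) x y hzero f'
  rw [h1, one_mul] at this
  conv_rhs => rw [this, map_sum]
  exact Finset.sum_congr rfl fun i _ => by rw [map_mul, map_mul, mul_assoc, hreq]

end LevelData

end FLTAgent.GoodReduction

end
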