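import Mathlib
import Fermat.Agent.GoodReduction.ReducedModel
import Fermat.Agent.GoodReduction.SeriesIntegral

/-!
# The chart at infinity of the reduction

Pole bounded elements reduce to elements integral over `k[j̄⁻¹]` (`isIntegral_red_bounded`), and
elements integral over `k[j̄⁻¹]` become integral over `k[j̄]` after multiplication by a power of
`j̄` (`exists_pow_mul_isIntegral`).
-/

set_option autoImplicit false

noncomputable section

open ModularCurve

namespace FLTAgent.GoodReduction

variable {L : Type*} [Field L] {A : ValuationSubring L}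
variable {C : Type*} [CommRing C] [IsDomain C] [Algebra A C]
variable {Γ : Type*} [Group Γ] [Finite Γ] [MulSemiringAction Γ C] [FaithfulSMul Γ C]
variable {G : Subgroup Γ} [Fintype G] {ev : C →+* LaurentSeries A} {j : C} {e : ℕ}

local notation "κ" => IsLocalRing.ResidueField A

namespace LevelData

omit [IsDomain C] [Finite Γ] [FaithfulSMul Γ C] in
theorem coeff_prod_bounded (_hd : LevelData G ev j) {n : ℕ} {ι : Type*} (s : Finset ι) (a : ι → C)
    (ha : ∀ i ∈ s, PoleBounded Γ ev e n (a i)) (i : ℕ) :
    PoleBounded Γ ev e (n * (s.card - i))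
      ((∏ k ∈ s, (Polynomial.X - Polynomial.C (a k))).coeff i) := by
  classical
  induction s using Finset.induction_on generalizing i with
  | empty =>
    rw [Finset.prod_empty, Polynomial.coeff_one]
    split_ifs
    · exact PoleBounded.one.mono (Nat.zero_le _)
    · exact PoleBounded.zero
  | insert k s hk ih =>
    have ha' : ∀ i ∈ s, PoleBounded Γ ev e n (a i) :=
      fun i hi => ha i (Finset.mem_insert_of_mem hi)
    have hak := ha k (Finset.mem_insert_self _ _)
    rw [Finset.prod_insert hk, Finset.card_insert_of_notMem hk, sub_mul, Polynomial.coeff_sub,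
      Polynomial.coeff_C_mul, sub_eq_add_neg]
    by_cases hi : i ≤ s.card
    · refine PoleBounded.add ?_ (PoleBounded.neg ((hak.mul (ih ha' i)).mono ?_))
      · cases i with
        | zero => rw [Polynomial.coeff_X_mul_zero]; exact PoleBounded.zero
        | succ i =>
          rw [Polynomial.coeff_X_mul]
          exact (ih ha' i).mono (le_of_eq (by rw [Nat.add_sub_add_right]))
      · rw [Nat.add_comm n, ← Nat.mul_succ, Nat.succ_eq_add_one]
        exact Nat.mul_le_mul_left n (by omega)
    · push Not at hi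
      have hzero : (∏ k ∈ s, (Polynomial.X - Polynomial.C (a k))).coeff i = 0 := by
        apply Polynomial.coeff_eq_zero_of_natDegree_lt
        refine lt_of_le_of_lt ((Polynomial.natDegree_prod_le _ _).trans ?_) hi
        refine (Finset.sum_le_card_nsmul _ _ 1 fun k _ =>
          Polynomial.natDegree_X_sub_C_le _).trans ?_
        simp
      rw [hzero, mul_zero, neg_zero, add_zero]
      refine PoleBounded.mono ?_ (Nat.zero_le _)
      cases i with
      | zero => omega
      | succ i =>
        rw [Polynomial.coeff_X_mul]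
        exact (ih ha' i).mono (le_of_eq (by
          rw [show s.card - i = 0 by omega, Nat.mul_zero]))

omit [IsDomain C] [Finite Γ] [FaithfulSMul Γ C] in
theorem red_bounded_invariant_mem (hd : LevelData G ev j) (hc : CuspData Γ ev j e) {r : C}
    (hr : ∀ γ : Γ, γ • r = r) {m : ℕ} (hb : PoleBounded Γ ev e m r) :
    redHom ev r * (redHom ev j)⁻¹ ^ m ∈ Algebra.adjoin κ {(redHom ev j)⁻¹} := by
  classical
  obtain ⟨P, rfl⟩ := hd.level_one r hr
  rw [red_eval hd]
  have hJ : redHom ev j ≠ 0 := by
    intro h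
    have := (red_j_coeff hc).1
    rw [h, HahnSeries.coeff_zero] at this
    exact zero_ne_one this
  set Q := P.map (IsLocalRing.residue A) with hQ
  have hcoeff : ∀ n : ℤ, n < -((e * m : ℕ) : ℤ) →
      (Polynomial.aeval (redHom ev j) Q).coeff n = 0 := by
    intro n hn
    rw [hQ, ← red_eval hd, redHom_apply, coeffMap_coeff]
    have := hb 1 n hn
    rw [one_smul] at this
    rw [this, map_zero]
  have hdeg : Q.natDegree ≤ m := by
    by_contra hlt
    push Not at hlt
    have h0 := aeval_red_j_degree hc Q (e * m) hcoeff Q.natDegree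
      (Nat.mul_lt_mul_of_pos_left hlt hc.pos)
    rw [Polynomial.coeff_natDegree, Polynomial.leadingCoeff_eq_zero] at h0
    rw [h0, Polynomial.natDegree_zero] at hlt
    omega
  rw [Polynomial.aeval_eq_sum_range, Finset.sum_mul]
  refine Subalgebra.sum_mem _ fun d hd' => ?_
  rw [Finset.mem_range] at hd'
  rw [Algebra.smul_def, mul_assoc, show m = d + (m - d) by omega, pow_add,
    ← mul_assoc (redHom ev j ^ d), ← mul_pow, mul_inv_cancel₀ hJ, one_pow, one_mul]
  exact mul_mem (Subalgebra.algebraMap_mem _ _)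
    (pow_mem (Algebra.subset_adjoin (Set.mem_singleton _)) _)

omit [IsDomain C] [FaithfulSMul Γ C] in
/-- Pole bounded elements give integral elements of the chart at infinity. -/
theorem isIntegral_red_bounded (hd : LevelData G ev j) (hc : CuspData Γ ev j e) {f : C} {n : ℕ}
    (hb : PoleBounded Γ ev e n f) :
    IsIntegral (Algebra.adjoin κ {(redHom ev j)⁻¹})
      (redHom ev f * (redHom ev j)⁻¹ ^ n) := by
  classical
  have := Fintype.ofFinite Γ
  set P := ∏ γ : Γ, (Polynomial.X - Polynomial.C (γ • f)) with hP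
  have hinv : ∀ (γ : Γ) i, γ • P.coeff i = P.coeff i := by
    intro γ i
    have : P.map (MulSemiringAction.toRingHom Γ C γ) = P := by
      rw [hP, Polynomial.map_prod]
      refine Fintype.prod_equiv (Equiv.mulLeft γ) _ _ fun δ => ?_
      simp [smul_smul]
    conv_rhs => rw [← this]
    simp [Polynomial.coeff_map]
  have hbd : ∀ i, PoleBounded Γ ev e (n * (Fintype.card Γ - i)) (P.coeff i) := fun i => by
    simpa [hP] using coeff_prod_bounded hd Finset.univ (fun γ : Γ => γ • f)
      (fun γ _ => hb.smul γ) i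
  have hmon : P.Monic := Polynomial.monic_prod_of_monic _ _ fun γ _ => Polynomial.monic_X_sub_C _
  have : Nontrivial C := (redHom ev).domain_nontrivial
  have hdeg : P.natDegree = Fintype.card Γ := by
    rw [hP, Polynomial.natDegree_prod_of_monic _ _ fun γ _ => Polynomial.monic_X_sub_C _]
    simp
  have hroot : Polynomial.eval f P = 0 := by
    rw [hP, Polynomial.eval_prod]
    exact Finset.prod_eq_zero (Finset.mem_univ 1) (by simp)
  set w := (redHom ev j)⁻¹ ^ n with hw
  set Q := (P.map (redHom ev)).scaleRoots w with hQ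
  have hQmon : Q.Monic := (Polynomial.monic_scaleRoots_iff _).mpr (hmon.map _)
  have hQroot : Polynomial.eval (w * redHom ev f) Q = 0 := by
    rw [hQ, Polynomial.scaleRoots_eval_mul, Polynomial.eval_map, Polynomial.eval₂_at_apply,
      hroot, map_zero, mul_zero]
  have hQcoeff : ∀ i, Q.coeff i ∈ Algebra.adjoin κ {(redHom ev j)⁻¹} := by
    intro i
    rw [hQ, Polynomial.coeff_scaleRoots, Polynomial.coeff_map, hmon.natDegree_map, hdeg, hw,
      ← pow_mul]
    exact red_bounded_invariant_mem hd hc (fun γ => hinv γ i) (hbd i)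
  obtain ⟨Q', hQ'Q, -, hQ'm⟩ := Polynomial.lifts_and_natDegree_eq_and_monic
    (f := algebraMap (Algebra.adjoin κ {(redHom ev j)⁻¹}) (LaurentSeries κ)) (p := Q)
    ((Polynomial.lifts_iff_coeff_lifts Q).mpr fun i => ⟨⟨Q.coeff i, hQcoeff i⟩, rfl⟩) hQmon
  refine ⟨Q', hQ'm, ?_⟩
  rw [Polynomial.eval₂_eq_eval_map, hQ'Q, mul_comm, hQroot]

omit [IsDomain C] [FaithfulSMul Γ C] [Algebra (↥A) C] in
/-- Elements of `k[j̄⁻¹]` times a high power of `j̄` lie in `k[j̄]`. -/
theorem exists_pow_mul_mem_adjoin_red (a : LaurentSeries κ)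
    (hJ : redHom ev j ≠ 0)
    (ha : a ∈ Algebra.adjoin κ {(redHom ev j)⁻¹}) :
    ∃ N : ℕ, a * redHom ev j ^ N ∈ Algebra.adjoin κ {redHom ev j} := by
  have hmem : ∀ i : ℕ, redHom ev j ^ i ∈ Algebra.adjoin κ {redHom ev j} :=
    fun i => pow_mem (Algebra.subset_adjoin (Set.mem_singleton _)) i
  induction ha using Algebra.adjoin_induction with
  | mem y hy =>
    rw [Set.mem_singleton_iff] at hy
    refine ⟨1, ?_⟩
    rw [hy, pow_one, inv_mul_cancel₀ hJ]
    exact one_mem _
  | algebraMap c =>
    refine ⟨0, ?_⟩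
    rw [pow_zero, mul_one]
    exact Subalgebra.algebraMap_mem _ c
  | add u v _ _ hu hv =>
    obtain ⟨N, hN⟩ := hu; obtain ⟨M, hM⟩ := hv
    refine ⟨N + M, ?_⟩
    rw [add_mul, pow_add, ← mul_assoc u, mul_comm (redHom ev j ^ N) (redHom ev j ^ M),
      ← mul_assoc v]
    exact add_mem (mul_mem hN (hmem M)) (mul_mem hM (hmem N))
  | mul u v _ _ hu hv =>
    obtain ⟨N, hN⟩ := hu; obtain ⟨M, hM⟩ := hv
    refine ⟨N + M, ?_⟩
    rw [pow_add, mul_mul_mul_comm]
    exact mul_mem hN hM

omit [IsDomain C] [FaithfulSMul Γ C] [Finite Γ] [Algebra (↥A) C] in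
/-- An element integral over `k[j̄⁻¹]` is integral over `k[j̄]` after multiplying by a power of
`j̄`. -/
theorem exists_pow_mul_isIntegral (hc : CuspData Γ ev j e) {z : LaurentSeries κ}
    (hz : IsIntegral (Algebra.adjoin κ {(redHom ev j)⁻¹}) z) :
    ∃ N : ℕ, IsIntegral (Algebra.adjoin κ {redHom ev j}) (z * redHom ev j ^ N) := by
  have hJ : redHom ev j ≠ 0 := by
    intro h
    have := (red_j_coeff hc).1
    rw [h, HahnSeries.coeff_zero] at this
    exact zero_ne_one this
  obtain ⟨N, hN⟩ := exists_pow_mul_isIntegral_subring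
    (R := (Algebra.adjoin κ {(redHom ev j)⁻¹}).toSubring)
    (R' := (Algebra.adjoin κ {redHom ev j}).toSubring)
    (Algebra.subset_adjoin (Set.mem_singleton _) : redHom ev j ∈ Algebra.adjoin κ {redHom ev j})
    (fun a ha => (exists_pow_mul_mem_adjoin_red a hJ ha).imp fun _ h => by rwa [mul_comm]) hz
  exact ⟨N, mul_comm z _ ▸ hN⟩

end LevelData

end FLTAgent.GoodReduction

end
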