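import Mathlib

/-!
# Integrality inside an intermediate field

An element of an intermediate field is integral over `k[s]` there iff it is so in the ambient
field (`isIntegral_adjoin_coe_iff`).  Used to move between the model field and Laurent series.
-/

set_option autoImplicit false

noncomputable section

namespace FLTAgent.GoodReduction

variable {k : Type*} [Field k] {K : Type*} [Field K] [Algebra k K] (E : IntermediateField k K)

theorem isIntegral_adjoin_coe_iff (s w : E) :
    IsIntegral (Algebra.adjoin k {(s : K)}) (w : K) ↔ IsIntegral (Algebra.adjoin k {s}) w := by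
  have hmap : (Algebra.adjoin k {s}).map E.val = Algebra.adjoin k {(s : K)} := by
    rw [AlgHom.map_adjoin, Set.image_singleton]
    rfl
  constructor
  · rintro ⟨P, hP, hPw⟩
    have hsurj : ∀ r : Algebra.adjoin k {(s : K)},
        ∃ r' : Algebra.adjoin k {s}, ((r' : E) : K) = r := by
      intro r
      have : (r : K) ∈ (Algebra.adjoin k {s}).map E.val := by rw [hmap]; exact r.2
      obtain ⟨r', hr', e⟩ := this
      exact ⟨⟨r', hr'⟩, e⟩
    choose ψ hψ using hsurj
    have hinj : ∀ a b : Algebra.adjoin k {s}, ((a : E) : K) = (b : E) → a = b :=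
      fun a b e => Subtype.ext (Subtype.ext e)
    let ψ' : Algebra.adjoin k {(s : K)} →+* Algebra.adjoin k {s} :=
      { toFun := ψ
        map_one' := hinj _ _ (by rw [hψ]; rfl)
        map_mul' := fun a b => hinj _ _ (by
          rw [hψ]
          change _ = ((ψ a : E) : K) * ((ψ b : E) : K)
          rw [hψ, hψ]; rfl)
        map_zero' := hinj _ _ (by rw [hψ]; rfl)
        map_add' := fun a b => hinj _ _ (by
          rw [hψ]
          change _ = ((ψ a : E) : K) + ((ψ b : E) : K)
          rw [hψ, hψ]; rfl) }
    refine ⟨P.map ψ', hP.map ψ', E.val.injective ?_⟩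
    rw [map_zero, Polynomial.eval₂_map]
    change E.val.toRingHom _ = _
    rw [Polynomial.hom_eval₂]
    refine Eq.trans ?_ hPw
    congr 1
    exact RingHom.ext fun r => hψ r
  · rintro ⟨P, hP, hPw⟩
    have hmem : ∀ r : Algebra.adjoin k {s}, ((r : E) : K) ∈ Algebra.adjoin k {(s : K)} :=
      fun r => hmap ▸ ⟨r, r.2, rfl⟩
    let ψ : Algebra.adjoin k {s} →+* Algebra.adjoin k {(s : K)} :=
      (E.val.toRingHom.comp (Algebra.adjoin k {s}).val.toRingHom).codRestrict
        (Algebra.adjoin k {(s : K)}).toSubring hmem
    refine ⟨P.map ψ, hP.map ψ, ?_⟩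
    rw [Polynomial.eval₂_map]
    have := congrArg E.val.toRingHom hPw
    rw [Polynomial.hom_eval₂, map_zero] at this
    exact this

end FLTAgent.GoodReduction

end
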