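import Mathlib
import Fermat.Agent.GoodReduction.ReducedIntegral
import Fermat.Agent.GoodReduction.ReducedTransfer
import Fermat.Agent.GoodReduction.LineDescent
import Fermat.Agent.GoodReduction.CuspSeparation

/-!
# Reduction commutes with invariants

The integral closures of `k[j̄]` and `k[j̄⁻¹]` in the field of reductions of `H`-invariant elements
consist of reductions of invariant, respectively pole bounded invariant, elements
(`exists_invariant_red_fin`, `exists_invariant_red_inf`).
-/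

set_option autoImplicit false

noncomputable section

open ModularCurve

namespace FLTAgent.GoodReduction

variable {L : Type*} [Field L] {A : ValuationSubring L}
variable {C : Type*} [CommRing C] [IsDomain C] [Algebra A C]
variable {Γ : Type*} [Group Γ] [Finite Γ] [MulSemiringAction Γ C] [FaithfulSMul Γ C]
variable {G : Subgroup Γ} [Fintype G] {ev : C →+* LaurentSeries A} {j : C} {e : ℕ}

local notation "κ" => IsLocalRing.ResidueField A

namespace LevelData

omit [IsDomain C] [Finite Γ] [FaithfulSMul Γ C] in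
theorem prod_invariant (H : Subgroup Γ) [Fintype H] (f : C) :
    ∀ γ ∈ H, γ • (∏ h : H, h • f) = ∏ h : H, h • f := by
  intro γ hγ
  rw [Finset.smul_prod']
  exact Fintype.prod_equiv (Equiv.mulLeft (⟨γ, hγ⟩ : H)) _ _ fun b => by
    rw [Subgroup.smul_def, smul_smul]; rfl

/-- Finite chart: integral elements are reductions of invariant elements. -/
theorem exists_invariant_red_fin [IsAlgClosed κ] (hd : LevelData G ev j)
    (hc : CuspData Γ ev j e) (H : Subgroup Γ) (z : LaurentSeries κ)
    (hz : InRatio (redHom ev) H z)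
    (hint : IsIntegral (Algebra.adjoin κ {redHom ev j}) z) :
    ∃ f : C, (∀ h ∈ H, h • f = f) ∧ redHom ev f = z := by
  classical
  have := Fintype.ofFinite H
  have hm := hd.redModel hc
  let act := hm.action
  have := hm.action_smulCommClass
  have := hm.action_faithful
  obtain ⟨hmem, hfix⟩ := hm.fixed_of_inRatio H hz
  let E := modelField κ (redHom ev)
  let x : E := ⟨redHom ev j, map_mem_modelField _ j⟩
  have hline : IsInvariantLine κ Γ x := hm.isInvariantLine
  obtain ⟨hsep, htan⟩ := hline.top_separates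
  have hzE := hline.mem_adjoin_norms H ⊤ (fun _ _ _ _ _ => Subring.mem_top _) hsep htan
    ⟨z, hmem⟩ hfix ((isIntegral_adjoin_coe_iff E x ⟨z, hmem⟩).mp hint)
  suffices key : ∀ w : E, w ∈ Algebra.adjoin κ
      (insert x ((fun c : integralClosure (Algebra.adjoin κ {x}) E => ∏ h : H, h • (c : E)) ''
        ((⊤ : Subring (integralClosure (Algebra.adjoin κ {x}) E)) :
          Set (integralClosure (Algebra.adjoin κ {x}) E)))) →
      ∃ f : C, (∀ h ∈ H, h • f = f) ∧ redHom ev f = w by
    exact key _ hzE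
  intro w hw
  induction hw using Algebra.adjoin_induction with
  | mem y hy =>
    rcases hy with rfl | ⟨c, -, rfl⟩
    · exact ⟨j, fun h _ => hd.smul_j h, rfl⟩
    · obtain ⟨f, hf⟩ := exists_red_of_integral hd hc (c : E)
        ((isIntegral_adjoin_coe_iff E x (c : E)).mpr c.2)
      refine ⟨∏ h : H, h • f, prod_invariant H f, ?_⟩
      have hc' : (c : E) = ⟨redHom ev f, map_mem_modelField _ f⟩ := Subtype.ext hf.symm
      have e1 : ∀ h : H, h • (c : E) = ⟨redHom ev ((h : Γ) • f), map_mem_modelField _ _⟩ :=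
        fun h => by rw [hc']; exact hm.action_map (h : Γ) f
      simp_rw [e1]
      rw [map_prod, IntermediateField.coe_prod]
      rfl
  | algebraMap c =>
    obtain ⟨a, rfl⟩ := IsLocalRing.residue_surjective c
    exact ⟨algebraMap A C a, fun h _ => hd.smul_algebraMap h a, red_algebraMap_eq hd a⟩
  | add u v _ _ hu hv =>
    obtain ⟨f, hf, hf'⟩ := hu; obtain ⟨g, hg, hg'⟩ := hv
    exact ⟨f + g, fun h hh => by rw [smul_add, hf h hh, hg h hh],
      by rw [map_add, hf', hg']; rfl⟩
  | mul u v _ _ hu hv =>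
    obtain ⟨f, hf, hf'⟩ := hu; obtain ⟨g, hg, hg'⟩ := hv
    exact ⟨f * g, fun h hh => by rw [smul_mul', hf h hh, hg h hh],
      by rw [map_mul, hf', hg']; rfl⟩

omit [Algebra A C] [IsDomain C] [Finite Γ] [FaithfulSMul Γ C] in
/-- The expansion of `f * j̄⁻ⁿ` is that of `f`, shifted by `e n`, at the first two places. -/
theorem coeff_mul_inv_pow (hc : CuspData Γ ev j e) (f : LaurentSeries κ) (n : ℕ)
    (hf : ∀ m : ℤ, m < -((e * n : ℕ) : ℤ) → f.coeff m = 0) :
    (f * (redHom ev j)⁻¹ ^ n).coeff 0 = f.coeff (-((e * n : ℕ) : ℤ)) ∧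
    (f.coeff (-((e * n : ℕ) : ℤ)) = 0 →
      (f * (redHom ev j)⁻¹ ^ n).coeff 1 = f.coeff (1 - ((e * n : ℕ) : ℤ))) := by
  obtain ⟨hlead, hlow⟩ := red_j_coeff hc
  obtain ⟨hJlead, hJlow⟩ := laurent_pow_leading (redHom ev j) e hlow hlead n
  set J := redHom ev j ^ n with hJ
  have hshift : J = HahnSeries.single (-((e * n : ℕ) : ℤ)) 1 * HahnSeries.ofPowerSeries ℤ κ
      (PowerSeries.mk fun m => J.coeff ((m : ℤ) + -((e * n : ℕ) : ℤ))) :=
    laurent_coeff_natCast_sub J _ hJlow
  set u := PowerSeries.mk fun m => J.coeff ((m : ℤ) + -((e * n : ℕ) : ℤ)) with hu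
  have hu0 : PowerSeries.constantCoeff u = 1 := by
    rw [← PowerSeries.coeff_zero_eq_constantCoeff, hu, PowerSeries.coeff_mk]
    simpa using hJlead
  have hinv : (redHom ev j)⁻¹ ^ n = HahnSeries.single (((e * n : ℕ) : ℤ)) 1 *
      HahnSeries.ofPowerSeries ℤ κ (u.invOfUnit 1) := by
    rw [inv_pow, ← hJ]
    refine inv_eq_of_mul_eq_one_right ?_
    rw [hshift, mul_mul_mul_comm, HahnSeries.single_mul_single, one_mul, neg_add_cancel,
      ← map_mul, PowerSeries.mul_invOfUnit u 1 (by rw [hu0]; rfl)]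
    simp
  set p := u.invOfUnit 1 with hp
  have hp0 : PowerSeries.constantCoeff p = 1 := by
    rw [hp, PowerSeries.constantCoeff_invOfUnit]; simp
  set g := f * HahnSeries.single (((e * n : ℕ) : ℤ)) 1 with hg
  have hgcoeff : ∀ i, g.coeff i = f.coeff (i - ((e * n : ℕ) : ℤ)) := fun i => by
    rw [hg, HahnSeries.coeff_mul_single, mul_one]
  obtain ⟨q, hq⟩ := exists_ofPowerSeries g fun i hi => by rw [hgcoeff]; exact hf _ (by omega)
  have hprod : f * (redHom ev j)⁻¹ ^ n = HahnSeries.ofPowerSeries ℤ κ (q * p) := by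
    rw [hinv, ← mul_assoc, ← hg, ← hq, map_mul]
  have hq0 : PowerSeries.constantCoeff q = f.coeff (-((e * n : ℕ) : ℤ)) := by
    have := hgcoeff 0
    rw [← hq, zero_sub, show (0 : ℤ) = ((0 : ℕ) : ℤ) from rfl,
      HahnSeries.ofPowerSeries_apply_coeff, PowerSeries.coeff_zero_eq_constantCoeff] at this
    exact this
  refine ⟨?_, fun h0 => ?_⟩
  · rw [hprod, show (0 : ℤ) = ((0 : ℕ) : ℤ) from rfl, HahnSeries.ofPowerSeries_apply_coeff,
      PowerSeries.coeff_zero_eq_constantCoeff, map_mul, hp0, mul_one, hq0]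
  · have hq1 := hgcoeff 1
    rw [← hq, show (1 : ℤ) = ((1 : ℕ) : ℤ) from rfl, HahnSeries.ofPowerSeries_apply_coeff] at hq1
    rw [hprod, show (1 : ℤ) = ((1 : ℕ) : ℤ) from rfl, HahnSeries.ofPowerSeries_apply_coeff,
      PowerSeries.coeff_one_mul, hq0, h0, hp0, mul_one, mul_zero, add_zero, hq1]

omit [Algebra A C] [IsDomain C] [Finite Γ] [FaithfulSMul Γ C] in
/-- The reduction of `j` is nonzero. -/
private theorem redHom_j_ne_zero (hc : CuspData Γ ev j e) : redHom ev j ≠ 0 := fun h => by
  have := (red_j_coeff hc).1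
  rw [h, HahnSeries.coeff_zero] at this
  exact zero_ne_one this

omit [Algebra A C] [IsDomain C] [Finite Γ] [FaithfulSMul Γ C] in
/-- Multiplying by `j ^ i` and dividing by `j̄ ^ i` changes nothing. -/
private theorem red_mul_pow_shift (hc : CuspData Γ ev j e) (f : C) (n i : ℕ) :
    redHom ev (f * j ^ i) * (redHom ev j)⁻¹ ^ (n + i) = redHom ev f * (redHom ev j)⁻¹ ^ n := by
  rw [map_mul, map_pow, pow_add, mul_assoc, ← mul_assoc (redHom ev j ^ i),
    mul_comm (redHom ev j ^ i) ((redHom ev j)⁻¹ ^ n), mul_assoc, ← mul_pow,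
    mul_inv_cancel₀ (redHom_j_ne_zero hc), one_pow, mul_one]

/-- The ring of all `f̄ j̄⁻ⁿ` for `H`-invariant `f` with poles bounded by `n`. -/
private def boundedReductions (hd : LevelData G ev j) (hc : CuspData Γ ev j e) (H : Subgroup Γ) :
    Subring (LaurentSeries κ) where
  carrier := {z | ∃ (n : ℕ) (f : C), (∀ h ∈ H, h • f = f) ∧ PoleBounded Γ ev e n f ∧
    z = redHom ev f * (redHom ev j)⁻¹ ^ n}
  one_mem' := ⟨0, 1, fun h _ => smul_one h, PoleBounded.one, by simp⟩
  zero_mem' := ⟨0, 0, fun h _ => smul_zero h, PoleBounded.zero, by simp⟩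
  mul_mem' := fun {a b} ⟨n, f, hfi, hf, ha⟩ ⟨m, g, hgi, hg, hb⟩ =>
    ⟨n + m, f * g, fun h hh => by rw [smul_mul', hfi h hh, hgi h hh], hf.mul hg, by
      rw [ha, hb, map_mul, pow_add]
      ring⟩
  add_mem' := fun {a b} ⟨n, f, hfi, hf, ha⟩ ⟨m, g, hgi, hg, hb⟩ => by
    have hjb : ∀ i : ℕ, PoleBounded Γ ev e i (j ^ i) := fun i => by
      simpa using (PoleBounded.self_j hd.smul_j hc.low).pow i
    refine ⟨n + m, f * j ^ m + g * j ^ n, fun h hh => ?_,
      (hf.mul (hjb m)).add ((hg.mul (hjb n)).mono (by omega)), ?_⟩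
    · rw [smul_add, smul_mul', smul_mul', smul_pow', smul_pow', hfi h hh, hgi h hh, hd.smul_j]
    · rw [ha, hb, map_add, add_mul, red_mul_pow_shift hc f n m, Nat.add_comm n m,
        red_mul_pow_shift hc g m n]
  neg_mem' := fun {a} ⟨n, f, hfi, hf, ha⟩ =>
    ⟨n, -f, fun h hh => by rw [smul_neg, hfi h hh], hf.neg, by rw [ha, map_neg, neg_mul]⟩

omit [IsDomain C] [Finite Γ] [FaithfulSMul Γ C] in
/-- Constants are bounded invariant reductions. -/
private theorem algebraMap_mem_boundedReductions (hd : LevelData G ev j)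
    (hc : CuspData Γ ev j e) (H : Subgroup Γ) (a : κ) :
    algebraMap κ (LaurentSeries κ) a ∈ boundedReductions hd hc H := by
  obtain ⟨a, rfl⟩ := IsLocalRing.residue_surjective a
  exact ⟨0, algebraMap A C a, fun h _ => hd.smul_algebraMap h a,
    PoleBounded.constant hd.ev_algebraMap hd.smul_algebraMap a,
    by rw [pow_zero, mul_one, red_algebraMap_eq hd]⟩

omit [IsDomain C] [Finite Γ] [FaithfulSMul Γ C] in
/-- `j̄⁻¹` is a bounded invariant reduction. -/
private theorem inv_mem_boundedReductions (hd : LevelData G ev j) (hc : CuspData Γ ev j e)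
    (H : Subgroup Γ) : (redHom ev j)⁻¹ ∈ boundedReductions hd hc H :=
  ⟨1, 1, fun h _ => smul_one h, PoleBounded.one.mono (Nat.zero_le _),
    by rw [map_one, one_mul, pow_one]⟩

/-- Elements integral over `k[j̄⁻¹]` become bounded reductions after multiplying by its powers. -/
private theorem exists_mul_pow_mem_boundedReductions [IsAlgClosed κ] (hd : LevelData G ev j)
    (hc : CuspData Γ ev j e) (w : modelField κ (redHom ev))
    (hw : IsIntegral (Algebra.adjoin κ {(redHom ev j)⁻¹}) (w : LaurentSeries κ)) :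
    ∃ n : ℕ, (w : LaurentSeries κ) * (redHom ev j)⁻¹ ^ n ∈ boundedReductions hd hc ⊥ := by
  obtain ⟨N, hN⟩ := exists_pow_mul_isIntegral hc hw
  let y : modelField κ (redHom ev) := ⟨redHom ev j, map_mem_modelField _ j⟩
  obtain ⟨f, hf⟩ := exists_red_of_integral hd hc (w * y ^ N) (by
    rw [IntermediateField.coe_mul, IntermediateField.coe_pow]
    exact hN)
  obtain ⟨B, hB⟩ := PoleBounded.exists_bound Γ ev hc.pos f
  refine ⟨B, N + B, f, fun h hh => by rw [Subgroup.mem_bot.mp hh, one_smul],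
    hB.mono (Nat.le_add_left _ _), ?_⟩
  rw [hf, IntermediateField.coe_mul, IntermediateField.coe_pow, pow_add, mul_assoc,
    ← mul_assoc (redHom ev j ^ N), ← mul_pow, mul_inv_cancel₀ (redHom_j_ne_zero hc), one_pow,
    one_mul]

/-- The action sends `f̄ j̄⁻ⁿ` to the reduction of `γ • f` times `j̄⁻ⁿ`. -/
private theorem smulFun_red_mul_pow [IsAlgClosed κ] (hd : LevelData G ev j)
    (hc : CuspData Γ ev j e) (γ : Γ) {w : modelField κ (redHom ev)} {f : C} {n : ℕ}
    (hw : (w : LaurentSeries κ) = redHom ev f * (redHom ev j)⁻¹ ^ n) :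
    ((hd.redModel hc).smulFun γ w : LaurentSeries κ) =
      redHom ev (γ • f) * (redHom ev j)⁻¹ ^ n := by
  have hJ := pow_ne_zero n (redHom_j_ne_zero hc)
  have h := (hd.redModel hc).smulFun_spec γ w (f := f) (g := j ^ n) (by rwa [map_pow])
    (by rw [hw, inv_pow, map_pow, inv_mul_cancel_right₀ hJ])
  rw [smul_pow', hd.smul_j, map_pow] at h
  rw [← h, inv_pow, mul_inv_cancel_right₀ hJ]

/-- An element of `Γ` preserving the zero coefficients of reductions preserves vanishing below. -/
private theorem coeff_smulFun_eq_zero [IsAlgClosed κ] (hd : LevelData G ev j)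
    (hc : CuspData Γ ev j e) {γ : Γ}
    (h : ∀ (g : C) (m : ℤ), (redHom ev (γ • g)).coeff m = 0 ↔ (redHom ev g).coeff m = 0)
    {d : ℤ} {w : modelField κ (redHom ev)} (hw : ∀ n < d, (w : LaurentSeries κ).coeff n = 0)
    {n : ℤ} (hn : n < d) :
    ((hd.redModel hc).smulFun γ w : LaurentSeries κ).coeff n = 0 := by
  have hm := hd.redModel hc
  obtain ⟨f, g, hg, hwfg⟩ := (hm.mem_modelField_iff (w : LaurentSeries κ)).mp w.2
  have hspec := hm.smulFun_spec γ w hg hwfg
  have hgg := hm.map_smul_ne_zero γ hg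
  have hord : ∀ u : C, redHom ev u ≠ 0 → redHom ev (γ • u) ≠ 0 →
      (redHom ev (γ • u)).order = (redHom ev u).order := fun u hu hu' =>
    le_antisymm
      (HahnSeries.order_le_of_coeff_ne_zero fun e' =>
        HahnSeries.coeff_order_eq_zero.not.mpr hu ((h u _).mp e'))
      (HahnSeries.order_le_of_coeff_ne_zero fun e' =>
        HahnSeries.coeff_order_eq_zero.not.mpr hu' ((h u _).mpr e'))
  by_cases hγw : (hm.smulFun γ w : LaurentSeries κ) = 0
  · rw [hγw, HahnSeries.coeff_zero]
  have hf0' : redHom ev (γ • f) ≠ 0 := hspec ▸ mul_ne_zero hγw hgg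
  have hf0 : redHom ev f ≠ 0 := fun h0 => hf0' (hm.ker_stable γ f h0)
  have hwne : (w : LaurentSeries κ) ≠ 0 := fun h0 => hf0 (by rw [← hwfg, h0, zero_mul])
  apply HahnSeries.coeff_eq_zero_of_lt_order
  have h1 : (hm.smulFun γ w : LaurentSeries κ).order + (redHom ev (γ • g)).order =
      (redHom ev (γ • f)).order := by
    rw [← HahnSeries.order_mul hγw hgg, hspec]
  have h2 : (w : LaurentSeries κ).order + (redHom ev g).order = (redHom ev f).order := by
    rw [← HahnSeries.order_mul hwne hg, hwfg]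
  have h3 : d ≤ (w : LaurentSeries κ).order := by
    by_contra hlt
    exact HahnSeries.coeff_order_eq_zero.not.mpr hwne (hw _ (not_le.mp hlt))
  rw [hord f hf0 hf0', hord g hg hgg] at h1
  omega

omit [Algebra A C] [IsDomain C] [Finite Γ] [FaithfulSMul Γ C] in
/-- The first two coefficients of `f̄ j̄⁻ⁿ` when the poles of `f` are bounded by `n`. -/
private theorem coeff_red_mul_inv_pow (hc : CuspData Γ ev j e) {f : C} {n : ℕ}
    (hb : PoleBounded Γ ev e n f) :
    (redHom ev f * (redHom ev j)⁻¹ ^ n).coeff 0 = (redHom ev f).coeff (-((e * n : ℕ) : ℤ)) ∧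
    ((redHom ev f).coeff (-((e * n : ℕ) : ℤ)) = 0 →
      (redHom ev f * (redHom ev j)⁻¹ ^ n).coeff 1 =
        (redHom ev f).coeff (1 - ((e * n : ℕ) : ℤ))) :=
  coeff_mul_inv_pow hc _ n fun m hm => by
    have := hb 1 m hm
    rw [one_smul] at this
    rw [redHom_apply, coeffMap_coeff, this, map_zero]

omit [Algebra A C] [IsDomain C] [Finite Γ] [FaithfulSMul Γ C] in
/-- The expansion of `j̄⁻¹` has no terms of degree below one. -/
private theorem coeff_inv_red_j (hc : CuspData Γ ev j e) {n : ℤ} (hn : n < 1) :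
    (redHom ev j)⁻¹.coeff n = 0 := by
  have hJ := redHom_j_ne_zero hc
  have := hc.pos
  rcases lt_or_eq_of_le (Int.lt_add_one_iff.mp (by simpa using hn) : n ≤ 0) with hn' | rfl
  · by_contra hne
    have h4 : (redHom ev j)⁻¹.order + (redHom ev j).order = 0 := by
      rw [← HahnSeries.order_mul (inv_ne_zero hJ) hJ, inv_mul_cancel₀ hJ, HahnSeries.order_one]
    have h5 : (redHom ev j).order ≤ -(e : ℤ) := HahnSeries.order_le_of_coeff_ne_zero (by
      rw [(red_j_coeff hc).1]; exact one_ne_zero)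
    have := HahnSeries.order_le_of_coeff_ne_zero hne
    omega
  · have h6 := (coeff_mul_inv_pow hc (1 : LaurentSeries κ) 1 fun m hm => by
      rw [HahnSeries.coeff_one, if_neg (by omega)]).1
    rw [one_mul, pow_one] at h6
    rw [h6, HahnSeries.coeff_one, if_neg (by simp; omega)]

/-- Chart at infinity: integral elements are reductions of pole bounded invariant elements. -/
theorem exists_invariant_red_inf [IsAlgClosed κ] (hd : LevelData G ev j)
    (hc : CuspData Γ ev j e) (H : Subgroup Γ) (z : LaurentSeries κ)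
    (hz : InRatio (redHom ev) H z)
    (hint : IsIntegral (Algebra.adjoin κ {(redHom ev j)⁻¹}) z) :
    ∃ (n : ℕ) (f : C), (∀ h ∈ H, h • f = f) ∧ PoleBounded Γ ev e n f ∧
      z = redHom ev f * (redHom ev j)⁻¹ ^ n := by
  classical
  have := Fintype.ofFinite H
  have hm := hd.redModel hc
  let act := hm.action
  have := hm.action_smulCommClass
  have := hm.action_faithful
  obtain ⟨hmem, hfix⟩ := hm.fixed_of_inRatio H hz
  let E := modelField κ (redHom ev)
  let x : E := (⟨redHom ev j, map_mem_modelField _ j⟩ : E)⁻¹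
  have hline : IsInvariantLine κ Γ x := hm.isInvariantLine_inv
  have hxval : (x : LaurentSeries κ) = (redHom ev j)⁻¹ := rfl
  let S := integralClosure (Algebra.adjoin κ {x}) E
  -- bounded reductions among the chart elements
  let T : Subring S := (boundedReductions hd hc ⊥).comap (E.val.toRingHom.comp S.val.toRingHom)
  have hlift : ∀ (f : C) (n : ℕ), PoleBounded Γ ev e n f →
      ∃ c ∈ T, ((c : E) : LaurentSeries κ) = redHom ev f * (redHom ev j)⁻¹ ^ n := fun f n hb => by
    let w : E := ⟨redHom ev f, map_mem_modelField _ f⟩ * x ^ n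
    have hwv : (w : LaurentSeries κ) = redHom ev f * (redHom ev j)⁻¹ ^ n := by
      rw [IntermediateField.coe_mul, IntermediateField.coe_pow, hxval]
    exact ⟨⟨w, (isIntegral_adjoin_coe_iff E x w).mp
      (by rw [hwv, hxval]; exact isIntegral_red_bounded hd hc hb)⟩,
      ⟨n, f, fun h hh => by rw [Subgroup.mem_bot.mp hh, one_smul], hb, hwv⟩, hwv⟩
  have hTstab : ∀ (γ : Γ) (c d : S), c ∈ T → (d : E) = γ • (c : E) → d ∈ T := by
    rintro γ c d ⟨n, f, -, hb, hcv⟩ hd'
    exact ⟨n, γ • f, fun h hh => by rw [Subgroup.mem_bot.mp hh, one_smul], hb.smul γ,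
      (congrArg Subtype.val hd').trans (smulFun_red_mul_pow hd hc γ (w := (c : E)) hcv)⟩
  have hloc : ∀ w : E, IsIntegral (Algebra.adjoin κ {x}) w → ∃ (n : ℕ) (c : S),
      (c : E) = w * x ^ n ∧ c ∈ T := fun w hw => by
    obtain ⟨n, hn⟩ := exists_mul_pow_mem_boundedReductions hd hc w
      (by rw [← hxval]; exact (isIntegral_adjoin_coe_iff E x w).mpr hw)
    have hx : IsIntegral (Algebra.adjoin κ {x}) x :=
      isIntegral_algebraMap (x := (⟨x, Algebra.subset_adjoin rfl⟩ : Algebra.adjoin κ {x}))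
    refine ⟨n, ⟨w * x ^ n, hw.mul (hx.pow n)⟩, rfl, ?_⟩
    show ((w * x ^ n : E) : LaurentSeries κ) ∈ boundedReductions hd hc ⊥
    rwa [IntermediateField.coe_mul, IntermediateField.coe_pow, hxval]
  -- a function separating the cusp from the others, and a uniformizer there
  obtain ⟨n₁, f₁, hb₁, hlead₁, hcase₁⟩ := hc.exists_cusp_function
  obtain ⟨n₂, f₂, hb₂, hzero₂, hone₂⟩ := hc.exists_uniformizer
  obtain ⟨ψ, hψT, hψv⟩ := hlift f₁ n₁ hb₁
  obtain ⟨u, huT, huv⟩ := hlift f₂ n₂ hb₂
  have hu := coeff_red_mul_inv_pow hc hb₂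
  have hψg : ∀ γ : Γ, (E.val (γ • (ψ : E))).coeff 0 = 0 ∨
      ∀ w : E, (∀ n : ℤ, n < 1 → (E.val w).coeff n = 0) →
        ∀ n : ℤ, n < 1 → (E.val (γ • w)).coeff n = 0 := fun γ =>
    (hcase₁ γ).imp (fun h => by
        change ((hm.smulFun γ ψ : E) : LaurentSeries κ).coeff 0 = 0
        rw [smulFun_red_mul_pow hd hc γ (w := (ψ : E)) hψv,
          (coeff_red_mul_inv_pow hc (hb₁.smul γ)).1]
        exact h)
      fun h w hw n hn => coeff_smulFun_eq_zero hd hc h hw hn
  obtain ⟨hsep, htan⟩ := hline.cusp_separates E.val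
    (fun n hn => show (x : LaurentSeries κ).coeff n = 0 by
      rw [hxval]; exact coeff_inv_red_j hc hn)
    T (fun a c hca => show ((c : E) : LaurentSeries κ) ∈ _ by
      rw [hca]; exact algebraMap_mem_boundedReductions hd hc ⊥ a)
    (fun c hcx => show ((c : E) : LaurentSeries κ) ∈ _ by
      rw [hcx, hxval]; exact inv_mem_boundedReductions hd hc ⊥)
    hTstab hloc ψ hψT (show ((ψ : E) : LaurentSeries κ).coeff 0 ≠ 0 by
      rwa [hψv, (coeff_red_mul_inv_pow hc hb₁).1]) hψg
    u huT (show ((u : E) : LaurentSeries κ).coeff 0 = 0 by rwa [huv, hu.1])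
    (show ((u : E) : LaurentSeries κ).coeff 1 ≠ 0 by rwa [huv, hu.2 hzero₂])
  have hzE := hline.mem_adjoin_norms H T hTstab hsep htan ⟨z, hmem⟩ hfix
    ((isIntegral_adjoin_coe_iff E x ⟨z, hmem⟩).mp (by rw [hxval]; exact hint))
  suffices key : ∀ w : E, w ∈ Algebra.adjoin κ
      (insert x ((fun c : S => ∏ h : H, h • (c : E)) '' (T : Set S))) →
      (w : LaurentSeries κ) ∈ boundedReductions hd hc H by
    exact key _ hzE
  intro w hw
  induction hw using Algebra.adjoin_induction with
  | mem v hv =>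
    rcases hv with rfl | ⟨c, ⟨n, f, -, hb, hcv⟩, rfl⟩
    · exact inv_mem_boundedReductions hd hc H
    · refine ⟨Fintype.card H * n, ∏ h : H, h • f, prod_invariant H f,
        PoleBounded.prod Finset.univ _ (fun h _ => hb.smul (h : Γ)), ?_⟩
      have e1 : ∀ h : H, ((h • (c : E) : E) : LaurentSeries κ) =
          redHom ev ((h : Γ) • f) * (redHom ev j)⁻¹ ^ n := fun h =>
        smulFun_red_mul_pow hd hc (h : Γ) (w := (c : E)) hcv
      rw [IntermediateField.coe_prod, Finset.prod_congr rfl fun h _ => e1 h,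
        Finset.prod_mul_distrib, Finset.prod_const, Finset.card_univ, ← pow_mul,
        Nat.mul_comm n, map_prod]
      rfl
  | algebraMap a => exact algebraMap_mem_boundedReductions hd hc H a
  | add u v _ _ hu hv => exact add_mem hu hv
  | mul u v _ _ hu hv => exact mul_mem hu hv

end LevelData

end FLTAgent.GoodReduction

end
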