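import Fermat.Agent.GoodReduction.CuspConcrete
import Fermat.Agent.GoodReduction.ModelGalois
import Fermat.Agent.GoodReduction.ReducedDescent
import Fermat.Agent.GoodReduction.Charts
import Fermat.Agent.ModularFF.CosetJ

/-!
# From the level `M` ring to the function field of `X₀(N)`

The functions `j(dτ)` as elements `jLvl` of the level `M` ring; elements invariant under
`gammaZero` expand to elements of the function field of `X₀(N)` (`exists_series_of_invariant`),
and elements of the special fibre are ratios of reductions of invariant elements.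
-/

set_option autoImplicit false

noncomputable section

open Filter Complex
open UpperHalfPlane hiding I
open scoped UpperHalfPlane Real MatrixGroups Manifold Topology
open ModularCurve FLTAgent.GoodReduction

namespace FLTAgent.LevelM

local notation "𝕢" => Function.Periodic.qParam

variable {O : Subring ℂ} {M : ℕ}

/-- Translates of `j(dτ)`, `d ∣ M`, have integral expansions in `q_M`. -/
theorem intExp_act_jAt [NeZero M] {d : ℕ} [NeZero d] (hd : d ∣ M) (hO : GoodRing M O)
    (γ : SL(2, ℤ)) : IntExp M O (act γ (ModularFF.jAt d)) := by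
  obtain ⟨a, c, b, ha, hc, hac, -, hj⟩ := ModularFF.exists_jAt_smul_eq d γ
  obtain ⟨r, hr⟩ := hd
  have hM : M = a * c * r := by rw [hac, ← hr]
  have : NeZero r := ⟨fun h0 => NeZero.ne M (by rw [hM, h0, mul_zero])⟩
  have : NeZero (a * a * r) :=
    ⟨mul_ne_zero (mul_ne_zero (NeZero.ne a) (NeZero.ne a)) (NeZero.ne r)⟩
  have hf : act γ (ModularFF.jAt d) = ModularFF.jFun ∘ ModularFF.affineH a c b :=
    funext fun τ => hj τ
  have hq : ∀ τ : ℍ, 𝕢 ((1 : ℕ) : ℝ) (ModularFF.affineH a c b τ) =
      zetaM M ^ (b * a * r : ℤ) * 𝕢 (M : ℝ) τ ^ (a * a * r : ℕ) := by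
    intro τ
    rw [zetaM_zpow, Function.Periodic.qParam, Function.Periodic.qParam, ← Complex.exp_nat_mul,
      ← Complex.exp_add]
    congr 1
    show 2 * (Real.pi : ℂ) * Complex.I * (((a : ℂ) * τ + b) / c) / _ = _
    rw [hM]
    have ha' : (a : ℂ) ≠ 0 := Nat.cast_ne_zero.mpr (NeZero.ne a)
    have hc' : (c : ℂ) ≠ 0 := Nat.cast_ne_zero.mpr (NeZero.ne c)
    have hr' : (r : ℂ) ≠ 0 := Nat.cast_ne_zero.mpr (NeZero.ne r)
    push_cast
    field_simp
    ring
  refine intExp_iff.mpr ⟨_, hf ▸ hasExp_jFun.subst (h' := M) (d := a * a * r) _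
    (ModularFF.tendsto_affineH a c b) hq, fun n => ?_⟩
  by_cases hn : ((a * a * r : ℕ) : ℤ) ∣ n
  · obtain ⟨m, rfl⟩ := hn
    rw [ModularCurve.qExpand_coeff_mul, twist_coeff, ← zpow_mul]
    exact O.mul_mem (jqModC_coeff_mem O m) (hO.zpow_mem _)
  · rw [ModularCurve.qExpand_coeff_of_not_dvd _ _ hn]
    exact O.zero_mem

theorem jAt_mem [NeZero M] {d : ℕ} [NeZero d] (hd : d ∣ M) (hO : GoodRing M O) :
    ModularFF.jAt d ∈ modularRing (CongruenceSubgroup.Gamma M) M O := by
  refine ⟨ModularFF.mdiff_jAt d, fun γ hγ => funext fun τ => ?_, intExp_act_jAt hd hO⟩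
  refine ModularFF.jAt_smul_of_mem_Gamma0 hd ?_ τ
  rw [CongruenceSubgroup.Gamma_mem] at hγ
  exact CongruenceSubgroup.Gamma0_mem.mpr hγ.2.2.1

variable {L : Type} [Field L] {A : ValuationSubring L} {ι : L →+* ℂ} [NeZero M]

/-- `j(dτ)` in the level `M` ring. -/
def jLvl (hO : GoodRing M (coeffRing A ι)) (d : ℕ) [NeZero d] (hd : d ∣ M) : LevelRing A ι M :=
  ⟨ModularFF.jAt d, jAt_mem hd hO⟩

theorem levelExp_jLvl (hO : GoodRing M (coeffRing A ι)) (d : ℕ) [NeZero d] (hd : d ∣ M) :
    levelExp A ι M (jLvl hO d hd) = qExpand A M (qExpand A d (jqModC A)) := by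
  refine levelExp_eq _ ?_
  have h := (hasExp_of_hasLaurent (h := 1) (by simpa using ModularFF.hasLaurent_jAt d)).qExpand M
  rw [mul_one] at h
  rw [coeffMap_qExpand, coeffMap_qExpand, coeffMap_jqModC]
  exact h

/-- The subgroup coming from `Γ₀(N)`. -/
def gammaZero (A : ValuationSubring L) (ι : L →+* ℂ) (M : ℕ) (N : ℕ) :
    Subgroup (LevelGroup A ι M) :=
  (CongruenceSubgroup.Gamma0 N).map (levelAutHom A ι M).rangeRestrict

theorem smul_jLvl (hO : GoodRing M (coeffRing A ι)) {N d : ℕ} [NeZero d] (hdN : d ∣ N)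
    (hd : d ∣ M) : ∀ g ∈ gammaZero A ι M N, g • jLvl hO d hd = jLvl hO d hd := by
  rintro g hg
  obtain ⟨γ, hγ, rfl⟩ := Subgroup.mem_map.mp hg
  refine Subtype.ext ?_
  rw [levelGroup_smul]
  exact funext fun τ => ModularFF.jAt_smul_of_mem_Gamma0 hdN (inv_mem hγ) τ

theorem mem_gammaZero_of_smul (hO : GoodRing M (coeffRing A ι)) {N : ℕ} [NeZero N] (hN : N ∣ M)
    {g : LevelGroup A ι M} (h : g • jLvl hO N hN = jLvl hO N hN) : g ∈ gammaZero A ι M N := by
  obtain ⟨γ, rfl⟩ := exists_smul_eq g
  have h' := congrArg Subtype.val h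
  rw [levelGroup_smul] at h'
  exact Subgroup.mem_map.mpr ⟨γ, inv_mem_iff.mp
    (ModularFF.mem_Gamma0_of_jAt_smul_eq fun τ => congrFun h' τ), rfl⟩

/-! ### The generic fibre -/

/-- The expansion with coefficients in `L`. -/
def genExp (A : ValuationSubring L) (ι : L →+* ℂ) (M : ℕ) [NeZero M] :
    LevelRing A ι M →+* LaurentSeries L :=
  (coeffMap A.subtype).comp (levelExp A ι M)

theorem genExp_injective : Function.Injective (genExp A ι M) :=
  (GoodReduction.inc_injective A).comp levelExp_injective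

theorem genExp_levelJ : genExp A ι M (levelJ A ι M) = qExpandAlgHomC L M (jqModC L) := by
  rw [genExp, RingHom.comp_apply, levelExp_levelJ, coeffMap_qExpand, coeffMap_jqModC,
    qExpandAlgHomC_apply]

theorem genModel (hc : CuspData (LevelGroup A ι M) (levelExp A ι M) (levelJ A ι M) M) :
    Model (LevelGroup A ι M) A.subtype (genExp A ι M) (levelJ A ι M) where
  map_algebraMap a := by
    rw [genExp, RingHom.comp_apply, levelExp_algebraMap, HahnSeries.C_apply, coeffMap_single,
      algebraMap_laurentSeries_eq_single]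
  exists_ratio c := by
    by_cases hc : c ∈ A
    · exact ⟨⟨c, hc⟩, 1, by simp, by simp⟩
    · have hc0 : c ≠ 0 := fun h => hc (h ▸ zero_mem A)
      exact ⟨1, ⟨c⁻¹, (A.mem_or_inv_mem c).resolve_left hc⟩, inv_ne_zero hc0,
        mul_inv_cancel₀ hc0⟩
  smul_algebraMap := smul_levelAlgebraMap
  ker_stable γ f hf := by
    rw [(map_eq_zero_iff _ genExp_injective).mp hf, smul_zero, map_zero]
  faithful γ h := hc.faithful γ fun f => by rw [genExp_injective (h f)]
  smul_j := smul_levelJ
  level_one := levelOne_polynomial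
  transcendental := by
    rw [genExp_levelJ]
    intro halg
    exact GoodReduction.transcendental_jqModC' L
      ((isAlgebraic_algHom_iff (qExpandAlgHomC L M) (qExpand_injective M)).mp halg)

/-- Invariant elements are expansions of elements of the function field. -/
theorem exists_series_of_invariant
    (hc : CuspData (LevelGroup A ι M) (levelExp A ι M) (levelJ A ι M) M)
    (hO : GoodRing M (coeffRing A ι)) {N : ℕ} [NeZero N] (hN : N ∣ M) (f : LevelRing A ι M)
    (hf : ∀ g ∈ gammaZero A ι M N, g • f = f) :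
    ∃ y : LaurentSeries A, coeffMap A.subtype y ∈ modularFunctionFieldFullC L N ∧
      qExpand A M y = levelExp A ι M f := by
  have hm := genModel (A := A) (ι := ι) hc
  have hmem := hm.mem_adjoin_of_stabilizer (gammaZero A ι M N) {jLvl hO N hN}
    (fun g hg => mem_gammaZero_of_smul hO hN (genExp_injective (hg _ rfl)))
    (genExp A ι M f) ⟨f, 1, hf, fun _ _ => smul_one _, by simp, by simp⟩
  have hle : IntermediateField.adjoin L
      (insert (genExp A ι M (levelJ A ι M)) (genExp A ι M '' {jLvl hO N hN})) ≤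
      (modularFunctionFieldFullC L N).map (qExpandAlgHomC L M) := by
    rw [IntermediateField.adjoin_le_iff, Set.image_singleton]
    rintro x (rfl | rfl)
    · exact ⟨jqModC L, jqModC_mem_full L N, genExp_levelJ.symm⟩
    · refine ⟨qExpand L N (jqModC L), jqModCd_mem_full L N dvd_rfl, ?_⟩
      show qExpandAlgHomC L M _ = _
      rw [genExp, RingHom.comp_apply, levelExp_jLvl, coeffMap_qExpand, coeffMap_qExpand,
        coeffMap_jqModC, qExpandAlgHomC_apply]
  obtain ⟨y', hy', hy'f⟩ := hle hmem
  change qExpandAlgHomC L M y' = genExp A ι M f at hy'f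
  rw [qExpandAlgHomC_apply] at hy'f
  have hco : ∀ n, y'.coeff n ∈ A := fun n => by
    rw [← qExpand_coeff_mul M y', hy'f, genExp, RingHom.comp_apply, coeffMap_coeff]
    exact Subtype.prop _
  let y : LaurentSeries A :=
    ⟨fun n => ⟨y'.coeff n, hco n⟩, y'.isPWO_support.mono fun n hn h0 => hn (Subtype.ext h0)⟩
  have hy : coeffMap A.subtype y = y' := by ext n; rfl
  refine ⟨y, by rw [hy]; exact hy', GoodReduction.inc_injective A ?_⟩
  rw [coeffMap_qExpand, hy, hy'f]
  rfl

/-! ### The special fibre -/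

local notation "κ" => IsLocalRing.ResidueField A

theorem redHom_jLvl (hO : GoodRing M (coeffRing A ι)) (d : ℕ) [NeZero d] (hd : d ∣ M) :
    redHom (levelExp A ι M) (jLvl hO d hd) = qExpand κ M (qExpand κ d (jqModC κ)) := by
  rw [redHom_apply, levelExp_jLvl, coeffMap_qExpand, coeffMap_qExpand, coeffMap_jqModC]

theorem redHom_levelJ :
    redHom (levelExp A ι M) (levelJ A ι M) = qExpand κ M (jqModC κ) := by
  rw [redHom_apply, levelExp_levelJ, coeffMap_qExpand, coeffMap_jqModC]

/-- Elements of the special fibre are ratios of reductions of invariant elements. -/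
theorem inRatio_of_mem_fullC (hO : GoodRing M (coeffRing A ι)) {N : ℕ} (hN : N ∣ M)
    {z : LaurentSeries κ} (hz : z ∈ modularFunctionFieldFullC κ N) :
    InRatio (redHom (levelExp A ι M)) (gammaZero A ι M N) (qExpand κ M z) := by
  set H := gammaZero A ι M N
  set r := redHom (levelExp A ι M)
  induction hz using IntermediateField.adjoin_induction with
  | mem y hy =>
    obtain ⟨d, hd0, hd, rfl⟩ := hy
    exact ⟨jLvl hO d (hd.trans hN), 1, smul_jLvl hO hd _, fun _ _ => smul_one _, by simp [r],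
      by rw [map_one, mul_one]; exact (redHom_jLvl hO d _).symm⟩
  | algebraMap c =>
    obtain ⟨a, rfl⟩ := IsLocalRing.residue_surjective c
    refine ⟨algebraMap A _ a, 1, fun g _ => smul_levelAlgebraMap g a, fun _ _ => smul_one _,
      by simp [r], ?_⟩
    rw [map_one, mul_one, algebraMap_laurentSeries_eq_single, qExpand_single, mul_zero,
      show r (algebraMap A _ a) = coeffMap (IsLocalRing.residue A) (levelExp A ι M
        (algebraMap A _ a)) from rfl, levelExp_algebraMap, HahnSeries.C_apply, coeffMap_single]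
  | add u v _ _ hu hv =>
    obtain ⟨f, g, hf, hg, hg0, h⟩ := hu; obtain ⟨f', g', hf', hg', hg0', h'⟩ := hv
    refine ⟨f * g' + f' * g, g * g',
      fun a ha => by rw [smul_add, smul_mul', smul_mul', hf a ha, hg' a ha, hf' a ha, hg a ha],
      fun a ha => by rw [smul_mul', hg a ha, hg' a ha],
      by rw [map_mul]; exact mul_ne_zero hg0 hg0', ?_⟩
    simp only [map_add, map_mul, ← h, ← h']
    ring
  | inv u _ hu =>
    obtain ⟨f, g, hf, hg, hg0, h⟩ := hu
    by_cases hu0 : qExpand κ M u = 0
    · refine ⟨0, 1, fun _ _ => smul_zero _, fun _ _ => smul_one _, by simp [r], ?_⟩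
      rw [map_inv₀, hu0, inv_zero, zero_mul, map_zero]
    · refine ⟨g, f, hg, hf, by rw [← h]; exact mul_ne_zero hu0 hg0, ?_⟩
      rw [map_inv₀, ← h, ← mul_assoc, inv_mul_cancel₀ hu0, one_mul]
  | mul u v _ _ hu hv =>
    obtain ⟨f, g, hf, hg, hg0, h⟩ := hu; obtain ⟨f', g', hf', hg', hg0', h'⟩ := hv
    refine ⟨f * f', g * g', fun a ha => by rw [smul_mul', hf a ha, hf' a ha],
      fun a ha => by rw [smul_mul', hg a ha, hg' a ha],
      by rw [map_mul]; exact mul_ne_zero hg0 hg0', ?_⟩
    simp only [map_mul, ← h, ← h']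
    ring

end FLTAgent.LevelM
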