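import Fermat.Agent.GoodReduction.CuspFunctions

/-!
# Cusp data of the level `M` ring

A separating function and the product vanishing at the other cusps over `∞` show that the level
`M` ring satisfies `CuspData` (`cuspData`), the hypothesis of the descent in this directory.
-/

set_option autoImplicit false

noncomputable section

open Filter Complex
open UpperHalfPlane hiding I
open scoped UpperHalfPlane Real MatrixGroups Manifold
open FLTAgent.GoodReduction

namespace FLTAgent.LevelM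

variable {L : Type*} [Field L] {A : ValuationSubring L} {ι : L →+* ℂ} {M K : ℕ}

local notation "k_A" => IsLocalRing.ResidueField A

theorem xConst_congr (hM : 0 < M) {b b' : ℤ} (h : (M : ℤ) ∣ b - b') :
    xConst M b = xConst M b' := by
  rw [xConst, xConst, zetaM_zpow_congr hM h]

theorem xConst_neg (M : ℕ) (b : ℤ) : xConst M (-b) = xConst M b := by
  have hz : zetaM M ^ b ≠ 0 := zpow_ne_zero b zetaM_ne_zero
  rcases eq_or_ne (zetaM M ^ b) 1 with h1 | h1
  · rw [xConst, xConst, zpow_neg, h1, inv_one]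
  · have h2 : (1 : ℂ) - zetaM M ^ b ≠ 0 := sub_ne_zero.mpr (Ne.symm h1)
    have h3 : (zetaM M ^ b) - 1 ≠ 0 := sub_ne_zero.mpr h1
    rw [xConst, xConst, zpow_neg]
    field_simp
    ring

variable [NeZero M]

/-- Leading coefficient of `x_T - x_X` for `T` over `∞` and `X` not. -/
theorem lead_xdiff_atInfty (hO : GoodRing M (coeffRing A ι)) {T X : Fin 2 → ZMod M} {d : ℤ}
    (hT : T = ![0, (d : ZMod M)]) (hd : ¬(M : ℤ) ∣ d) (hX : X 0 ≠ 0) :
    Lead M (coeffRing A ι) (xdiff M T X) 0 (xConst M d) := by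
  have hxT : xval M T = xvalZ M 0 d := by
    rw [hT, ← Int.cast_zero, xval_intCast]
  obtain ⟨b, hxX, -⟩ := exists_normal_lift X
  have hpos : 0 < (X 0).valMinAbs.natAbs := by
    rw [Int.natAbs_pos, Ne, ZMod.valMinAbs_eq_zero]; exact hX
  rw [xdiff, hxT, hxX]
  exact lead_zero_pos hO hd hpos (two_mul_natAbs_valMinAbs_le (X 0))

omit [NeZero M] in
theorem AtInfty.not_dvd_entry (hM : 3 ≤ M) {δ : SL(2, ℤ)} (h : AtInfty M δ) :
    ¬(M : ℤ) ∣ δ 1 1 := by
  have : Fact (1 < M) := ⟨by omega⟩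
  intro hd
  have h1 := h.mul_eq_one
  rw [(ZMod.intCast_zmod_eq_zero_iff_dvd _ M).mpr hd, mul_zero] at h1
  exact zero_ne_one h1

section Separator

variable (hO : GoodRing M (coeffRing A ι))

/-- Value of the separating function at the cusp with parameter `d`. -/
def sepVal (M K : ℕ) (d : ℤ) : ℂ := xConst M d / xConst M ((M / K : ℕ) : ℤ)

variable (hM : 3 ≤ M) (hK : SmallLevel K) (hdvd : K ∣ M)

omit [NeZero M] in
include hM hK hdvd in
theorem not_dvd_div : ¬(M : ℤ) ∣ ((M / K : ℕ) : ℤ) := by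
  have hK2 : 1 < K := by rcases hK with rfl | rfl <;> norm_num
  intro h
  have h1 := Int.natCast_dvd_natCast.mp h
  exact absurd (Nat.le_of_dvd (Nat.div_pos (Nat.le_of_dvd (by omega) hdvd) (by omega)) h1)
    (not_le.mpr (Nat.div_lt_self (by omega) hK2))

omit [NeZero M] in
include hM hK hdvd in
theorem xpair_div : XPair (![0, (((M / K : ℕ) : ℤ) : ZMod M)] : Fin 2 → ZMod M) ![1, 0] := by
  have : Fact (1 < M) := ⟨by omega⟩
  refine ⟨fun e => not_dvd_div hM hK hdvd ((ZMod.intCast_zmod_eq_zero_iff_dvd _ M).mp ?_),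
    fun e => one_ne_zero (α := ZMod M) (by simpa using congrFun e 0),
    fun e => one_ne_zero (α := ZMod M) (by simpa using (congrFun e 0).symm),
    fun e => one_ne_zero (α := ZMod M) (by simpa using (congrFun e 0).symm)⟩
  simpa using congrFun e 1

omit [NeZero M] in
include hM in
theorem xpair_T_X : XPair (ptT M) ![1, 0] := by
  have : Fact (1 < M) := ⟨by omega⟩
  exact ⟨fun e => one_ne_zero (α := ZMod M) (by simpa [ptT] using congrFun e 1),
    fun e => one_ne_zero (α := ZMod M) (by simpa using congrFun e 0),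
    fun e => one_ne_zero (α := ZMod M) (by simpa [ptT] using congrFun e 1),
    fun e => one_ne_zero (α := ZMod M) (by simpa [ptT] using congrFun e 1)⟩

/-- The separating function. -/
def wSep : LevelRing A ι M := xr hO (xpair_T_X hM) (xpair_div hM hK hdvd)

omit [NeZero M] in
include hK hdvd in
theorem dvd_mul_sub_one_or_add_one {δ : SL(2, ℤ)} (h : AtInfty M δ) :
    (M : ℤ) ∣ ((M / K : ℕ) : ℤ) * δ 1 1 - ((M / K : ℕ) : ℤ) ∨
      (M : ℤ) ∣ ((M / K : ℕ) : ℤ) * δ 1 1 + ((M / K : ℕ) : ℤ) := by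
  obtain ⟨e, he⟩ := hdvd
  have hK0 : 0 < K := hK.pos
  have hMK : ((M / K : ℕ) : ℤ) = e := by rw [he, Nat.mul_div_cancel_left _ hK0]
  have hMz : (M : ℤ) = (K : ℤ) * e := by exact_mod_cast he
  have hnd : ¬(K : ℤ) ∣ δ 1 1 := by
    intro hd
    have h1 := h.mul_eq_one
    have h1' : ((δ 0 0 * δ 1 1 : ℤ) : ZMod M) = ((1 : ℤ) : ZMod M) := by push_cast; exact h1
    have h2 : (K : ℤ) ∣ 1 - δ 0 0 * δ 1 1 :=
      dvd_trans ⟨e, hMz⟩ ((ZMod.intCast_eq_intCast_iff_dvd_sub _ _ M).mp h1')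
    have h3 : (K : ℤ) ∣ 1 := by simpa using dvd_add h2 (hd.mul_left (δ 0 0))
    have := Int.le_of_dvd one_pos h3
    rcases hK with rfl | rfl <;> omega
  rw [hMK, hMz]
  have hor : (K : ℤ) ∣ δ 1 1 - 1 ∨ (K : ℤ) ∣ δ 1 1 + 1 := by
    rcases hK with rfl | rfl <;> push_cast at hnd ⊢ <;> omega
  rcases hor with ⟨r, hr⟩ | ⟨r, hr⟩
  · exact Or.inl ⟨r, by linear_combination (e : ℤ) * hr⟩
  · exact Or.inr ⟨r, by linear_combination (e : ℤ) * hr⟩

theorem wSep_lead {δ : SL(2, ℤ)} (h : AtInfty M δ) :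
    (∀ n < 0, (levelExp A ι M (gEl A ι M δ • wSep hO hM hK hdvd)).coeff n = 0) ∧
      coeffHom A ι ((levelExp A ι M (gEl A ι M δ • wSep hO hM hK hdvd)).coeff 0) =
        sepVal M K (δ 1 1) := by
  have : Fact (1 < M) := ⟨by omega⟩
  refine levelExp_lead _ ?_
  rw [wSep, coe_gEl_xr, xratio]
  have h' : ((δ 1 0 : ℤ) : ZMod M) = 0 := h
  have hT : vact (ptT M) δ = ![0, ((δ 1 1 : ℤ) : ZMod M)] := by
    ext i; fin_cases i <;> simp [vact_apply, ptT, h']
  have hV : vact (![0, (((M / K : ℕ) : ℤ) : ZMod M)] : Fin 2 → ZMod M) δ =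
      ![0, ((((M / K : ℕ) : ℤ) * δ 1 1 : ℤ) : ZMod M)] := by
    ext i; fin_cases i <;> simp [vact_apply, h']
  have hX : vact (![1, 0] : Fin 2 → ZMod M) δ 0 ≠ 0 := by
    rw [vact_apply]
    simp only [Matrix.cons_val_zero, Matrix.cons_val_one, one_mul, zero_mul, add_zero]
    intro h0
    have := h.mul_eq_one
    rw [h0, zero_mul] at this
    exact zero_ne_one this
  have hnum := lead_xdiff_atInfty hO hT (h.not_dvd_entry hM) hX
  have hvd : ¬(M : ℤ) ∣ ((M / K : ℕ) : ℤ) * δ 1 1 := by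
    intro hd
    refine not_dvd_div hM hK hdvd ?_
    rcases dvd_mul_sub_one_or_add_one hK hdvd h with h1 | h1
    · simpa using dvd_sub hd h1
    · simpa using dvd_sub h1 hd
  have hden := lead_xdiff_atInfty hO hV hvd hX
  have hc : xConst M (((M / K : ℕ) : ℤ) * δ 1 1) = xConst M ((M / K : ℕ) : ℤ) := by
    rcases dvd_mul_sub_one_or_add_one hK hdvd h with h1 | h1
    · exact xConst_congr hO.pos h1
    · rw [← xConst_neg M ((M / K : ℕ) : ℤ)]
      exact xConst_congr hO.pos (by rwa [sub_neg_eq_add])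
  rw [hc] at hden
  have := hnum.div hO.pos hden (hO.isUnitIn_xConst (not_dvd_div hM hK hdvd))
  simpa [sepVal] using this

omit [NeZero M] in
include hO hM hK hdvd in
theorem sepVal_mem {d : ℤ} (hd : ¬(M : ℤ) ∣ d) : sepVal M K d ∈ coeffRing A ι :=
  ((hO.isUnitIn_xConst hd).div (hO.isUnitIn_xConst (not_dvd_div hM hK hdvd))).2.1

open Classical in
/-- The parameters of the cusps over `∞` other than `∞`. -/
def otherCusps (M : ℕ) [NeZero M] : Finset (ZMod M) :=
  Finset.univ.filter fun d => d ≠ 0 ∧ d ≠ 1 ∧ d ≠ -1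

theorem not_dvd_val {d : ZMod M} (hd : d ∈ otherCusps M) : ¬(M : ℤ) ∣ (d.val : ℤ) := by
  classical
  intro h
  refine (Finset.mem_filter.mp hd).2.1 ?_
  have := (ZMod.intCast_zmod_eq_zero_iff_dvd _ M).mpr h
  simpa using this

/-- The product vanishing at the other cusps over `∞`. -/
def sepProd : LevelRing A ι M :=
  ∏ d : otherCusps M, (wSep hO hM hK hdvd - algebraMap A (LevelRing A ι M)
    ((coeffEquiv A ι).symm ⟨_, sepVal_mem hO hM hK hdvd (not_dvd_val d.2)⟩))

theorem sepProd_atInfty {δ : SL(2, ℤ)} (h : AtInfty M δ) :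
    (∀ n < 0, (levelExp A ι M (gEl A ι M δ • sepProd hO hM hK hdvd)).coeff n = 0) ∧
      (((δ 1 1 : ℤ) : ZMod M) = 1 ∨ ((δ 1 1 : ℤ) : ZMod M) = -1 →
        IsUnit ((levelExp A ι M (gEl A ι M δ • sepProd hO hM hK hdvd)).coeff 0)) ∧
      (((δ 1 1 : ℤ) : ZMod M) ≠ 1 → ((δ 1 1 : ℤ) : ZMod M) ≠ -1 →
        (levelExp A ι M (gEl A ι M δ • sepProd hO hM hK hdvd)).coeff 0 = 0) := by
  classical
  set a : otherCusps M → A := fun d =>
    (coeffEquiv A ι).symm ⟨_, sepVal_mem hO hM hK hdvd (not_dvd_val d.2)⟩ with ha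
  have haι : ∀ d, coeffHom A ι (a d) = sepVal M K (d.1.val : ℤ) := fun d => by
    show ι ((a d : A) : L) = _
    rw [← coe_coeffEquiv, ha, RingEquiv.apply_symm_apply]
  set W := levelExp A ι M (gEl A ι M δ • wSep hO hM hK hdvd)
  obtain ⟨hW, hW0⟩ := wSep_lead hO hM hK hdvd h
  have hfac : levelExp A ι M (gEl A ι M δ • sepProd hO hM hK hdvd) =
      ∏ d : otherCusps M, (W - HahnSeries.C (a d)) := by
    rw [sepProd, Finset.smul_prod', map_prod]
    refine Finset.prod_congr rfl fun d _ => ?_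
    rw [smul_sub, smul_levelAlgebraMap, map_sub, levelExp_algebraMap]
  have hneg : ∀ d ∈ (Finset.univ : Finset (otherCusps M)), ∀ n < 0,
      (W - HahnSeries.C (a d)).coeff n = 0 := fun d _ n hn => by
    rw [HahnSeries.coeff_sub, hW n hn, HahnSeries.C_apply,
      HahnSeries.coeff_single_of_ne hn.ne, sub_zero]
  obtain ⟨h1, h2⟩ := nonneg_prod _ _ hneg
  rw [hfac]
  refine ⟨h1, fun hpm => ?_, fun hne hne' => ?_⟩
  · rw [h2]
    refine Finset.prod_induction _ IsUnit (fun _ _ => IsUnit.mul) isUnit_one fun d _ => ?_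
    refine isUnit_of_coeffHom (ι := ι) (c := sepVal M K (δ 1 1) - sepVal M K (d.1.val : ℤ)) ?_ ?_
    · rw [HahnSeries.coeff_sub, map_sub, hW0, HahnSeries.C_apply, HahnSeries.coeff_single_same,
        haι]
    · rw [sepVal, sepVal, ← sub_div]
      refine IsUnitIn.div (hO.isUnitIn_xConst_sub (h.not_dvd_entry hM) (not_dvd_val d.2) ?_ ?_)
        (hO.isUnitIn_xConst (not_dvd_div hM hK hdvd))
      · intro hd
        have := (ZMod.intCast_eq_intCast_iff_dvd_sub _ _ M).mpr hd
        rw [Int.cast_natCast, ZMod.natCast_zmod_val] at this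
        rcases hpm with e | e
        · exact (Finset.mem_filter.mp d.2).2.2.1 (this.symm.trans e)
        · exact (Finset.mem_filter.mp d.2).2.2.2 (this.symm.trans e)
      · intro hd
        have := (ZMod.intCast_zmod_eq_zero_iff_dvd _ M).mpr hd
        rw [Int.cast_add, Int.cast_natCast, ZMod.natCast_zmod_val, add_eq_zero_iff_eq_neg] at this
        rcases hpm with e | e
        · exact (Finset.mem_filter.mp d.2).2.2.2 (by rw [this, e])
        · exact (Finset.mem_filter.mp d.2).2.2.1 (by rw [this, e, neg_neg])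
  · rw [h2]
    have hd0 : ((δ 1 1 : ℤ) : ZMod M) ≠ 0 := fun h0 =>
      h.not_dvd_entry hM ((ZMod.intCast_zmod_eq_zero_iff_dvd _ M).mp h0)
    have hmem : ((δ 1 1 : ℤ) : ZMod M) ∈ otherCusps M :=
      Finset.mem_filter.mpr ⟨Finset.mem_univ _, hd0, hne, hne'⟩
    refine Finset.prod_eq_zero (Finset.mem_univ ⟨_, hmem⟩) (coeffHom_injective A ι ?_)
    rw [map_zero, HahnSeries.coeff_sub, map_sub, hW0, HahnSeries.C_apply,
      HahnSeries.coeff_single_same, haι, sub_eq_zero, sepVal, sepVal]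
    congr 1
    refine xConst_congr hO.pos ?_
    rw [← ZMod.intCast_eq_intCast_iff_dvd_sub, Int.cast_natCast, ZMod.natCast_zmod_val]

end Separator

/-! ### Unipotent translates -/

omit [NeZero M] in
/-- `δ` is `± T ^ b` modulo `M`. -/
theorem exists_act_eq_T {δ : SL(2, ℤ)} (h : AtInfty M δ)
    (hd : ((δ 1 1 : ℤ) : ZMod M) = 1 ∨ ((δ 1 1 : ℤ) : ZMod M) = -1) :
    ∃ b : ℤ, ∀ f : LevelRing A ι M,
      act δ (f : ℍ → ℂ) = act (ModularGroup.T ^ b) (f : ℍ → ℂ) := by
  set b : ℤ := δ 0 1 * δ 1 1 with hb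
  refine ⟨b, fun f => ?_⟩
  set δ' := δ * ModularGroup.T ^ (-b) with hδ'
  have hac := h.mul_eq_one
  have h' : ((δ 1 0 : ℤ) : ZMod M) = 0 := h
  have ha : ((δ 0 0 : ℤ) : ZMod M) = ((δ 1 1 : ℤ) : ZMod M) := by
    rcases hd with e | e <;> rw [e] at hac ⊢
    · linear_combination hac
    · linear_combination -hac
  have hT : redMat M (ModularGroup.T ^ (-b)) = !![1, ((-b : ℤ) : ZMod M); 0, 1] := by
    ext i j
    fin_cases i <;> fin_cases j <;> simp [redMat, ModularGroup.coe_T_zpow]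
  have hred : redMat M δ' = !![((δ 1 1 : ℤ) : ZMod M), 0; 0, ((δ 1 1 : ℤ) : ZMod M)] := by
    rw [hδ', redMat_mul, hT]
    have hδ : redMat M δ =
        !![((δ 0 0 : ℤ) : ZMod M), ((δ 0 1 : ℤ) : ZMod M); 0, ((δ 1 1 : ℤ) : ZMod M)] := by
      ext i j
      fin_cases i <;> fin_cases j <;> simp [redMat, h']
    rw [hδ, Matrix.mul_fin_two]
    have hsq : ((δ 1 1 : ℤ) : ZMod M) * ((δ 1 1 : ℤ) : ZMod M) = 1 := by
      rcases hd with e | e <;> rw [e] <;> ring
    ext i j
    fin_cases i <;> fin_cases j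
    · simp [ha]
    · simp [ha, hb]
      linear_combination (norm := ring_nf) -((δ 0 1 : ℤ) : ZMod M) * hsq
    · simp
    · simp
  have htriv : IsTrivMod M δ' := by
    rcases hd with e | e <;> rw [e] at hred
    · exact Or.inl (by rw [hred]; exact Matrix.one_fin_two.symm)
    · exact Or.inr (by rw [hred, Matrix.one_fin_two]; simp)
  have hsplit : δ = δ' * ModularGroup.T ^ b := by
    rw [hδ', mul_assoc, ← zpow_add, neg_add_cancel, zpow_zero, mul_one]
  rw [hsplit, act_mul, htriv.act_eq f.2.2.1]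

/-- The effect of `T ^ b` on expansions. -/
theorem coeff_levelExp_act_T {δ : SL(2, ℤ)} {b : ℤ}
    (hδ : ∀ f : LevelRing A ι M, act δ (f : ℍ → ℂ) = act (ModularGroup.T ^ b) (f : ℍ → ℂ))
    (f : LevelRing A ι M) (n : ℤ) :
    coeffHom A ι ((levelExp A ι M (gEl A ι M δ • f)).coeff n) =
      coeffHom A ι ((levelExp A ι M f).coeff n) * zetaM M ^ (b * n) := by
  have hM : 0 < M := Nat.pos_of_ne_zero (NeZero.ne M)
  have h1 := hasExp_levelExp (gEl A ι M δ • f)
  rw [coe_gEl_smul, hδ] at h1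
  have h2 := congrArg (fun s : LaurentSeries ℂ => s.coeff n)
    (h1.unique hM ((hasExp_levelExp f).act_T b))
  simp only [twist_coeff, ModularCurve.coeffMap_coeff] at h2
  rw [h2, zpow_mul, zetaM_zpow]

/-- **The cusp data.** -/
theorem cuspData [NeZero K] (hK : SmallLevel K) (hdvd : K ∣ M) (hM : 3 ≤ M)
    (hO : GoodRing M (coeffRing A ι)) :
    CuspData (LevelGroup A ι M) (levelExp A ι M) (levelJ A ι M) M := by
  classical
  have hfact : Fact (1 < M) := ⟨by omega⟩
  -- a unit root of unity factor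
  have hroot : ∀ k : ℤ, ∃ a : A, IsUnit a ∧ coeffHom A ι a = zetaM M ^ k := fun k => by
    obtain ⟨a, ha, he⟩ := hO.zpow_mem k
    exact ⟨⟨a, ha⟩, isUnit_of_coeffHom he (hO.isUnitIn_zpow k), he⟩
  have hgel1 : gEl A ι M 1 = 1 := by rw [gEl, inv_one, map_one]
  have h1inf : AtInfty M (1 : SL(2, ℤ)) := by simp [AtInfty]
  have h1d : (((1 : SL(2, ℤ)) 1 1 : ℤ) : ZMod M) = 1 := by simp
  -- the cusp function
  obtain ⟨n, k, hbd, hout, hin⟩ := pow_uInfty_mul_lead hO hM (sepProd hO hM hK hdvd)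
    fun δ hδ => (sepProd_atInfty hO hM hK hdvd hδ).1
  set f := uInfty hO ^ k * sepProd hO hM hK hdvd
  have hlead : (redHom (levelExp A ι M) f).coeff (-((M * n : ℕ) : ℤ)) ≠ 0 := by
    obtain ⟨a, ha, h2, -⟩ := hin 1 h1inf
    rw [hgel1, one_smul, one_smul] at h2
    rw [redHom_apply, ModularCurve.coeffMap_coeff, h2, IsLocalRing.residue_ne_zero_iff_isUnit]
    have h3 := (sepProd_atInfty hO hM hK hdvd h1inf).2.1 (Or.inl h1d)
    rw [hgel1, one_smul] at h3
    exact ha.mul h3
  have hcases : ∀ δ, (redHom (levelExp A ι M) (gEl A ι M δ • f)).coeff (-((M * n : ℕ) : ℤ)) = 0 ∨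
      ∃ b : ℤ, ∀ f : LevelRing A ι M,
        act δ (f : ℍ → ℂ) = act (ModularGroup.T ^ b) (f : ℍ → ℂ) := by
    intro δ
    by_cases hδ : AtInfty M δ
    · by_cases hd : ((δ 1 1 : ℤ) : ZMod M) = 1 ∨ ((δ 1 1 : ℤ) : ZMod M) = -1
      · exact Or.inr (exists_act_eq_T hδ hd)
      · push Not at hd
        obtain ⟨a, -, h2, -⟩ := hin δ hδ
        left
        rw [redHom_apply, ModularCurve.coeffMap_coeff, h2,
          (sepProd_atInfty hO hM hK hdvd hδ).2.2 hd.1 hd.2, mul_zero, map_zero]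
    · left
      rw [redHom_apply, ModularCurve.coeffMap_coeff, hout δ hδ, map_zero]
  -- the uniformizer
  have hpT : XPair (![1, 0] : Fin 2 → ZMod M) ![1, 1] :=
    ⟨fun e => one_ne_zero (α := ZMod M) (by simpa using congrFun e 0),
      fun e => one_ne_zero (α := ZMod M) (by simpa using congrFun e 0),
      fun e => one_ne_zero (α := ZMod M) (by simpa using (congrFun e 1).symm),
      fun e => one_ne_zero (α := ZMod M) (by simpa using (congrFun e 1).symm)⟩
  set t := xr hO hpT (xpair_T_X hM)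
  have htlead : ∀ δ, UnitLead (levelExp A ι M (gEl A ι M δ • t))
      ((xord (vact ![1, 0] δ) (vact ![1, 1] δ) : ℤ) -
        xord (vact (ptT M) δ) (vact ![1, 0] δ)) := fun δ => unitLead_xr hO _ _ δ
  have ht0 : ∀ δ, AtInfty M δ → xord (vact (ptT M) δ) (vact (![1, 0] : Fin 2 → ZMod M) δ) = 0 :=
    fun δ hδ => xord_eq_zero_of_left (by
      have h' : ((δ 1 0 : ℤ) : ZMod M) = 0 := hδ
      simp [vact_apply, ptT, h'])
  have ht1 : UnitLead (levelExp A ι M t) 1 := by
    have := htlead 1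
    rw [hgel1, one_smul, ht0 1 h1inf, vact_one, vact_one] at this
    have hx : xord (![1, 0] : Fin 2 → ZMod M) ![1, 1] = 1 := by
      have h1 : (1 : ZMod M).valMinAbs = 1 := by
        rw [← Nat.cast_one, ZMod.valMinAbs_natCast_of_le_half (by omega)]
        simp
      simp [xord, h1]
    rw [hx] at this
    simpa using this
  obtain ⟨n₂, k₂, hbd₂, -, hin₂⟩ := pow_uInfty_mul_lead hO hM t fun δ hδ i hi => (htlead δ).1 i
    (by rw [ht0 δ hδ]; omega)
  refine
    { pos := by omega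
      lead := levelExp_levelJ_lead.1
      low := levelExp_levelJ_lead.2
      faithful := fun g hg => ?_
      exists_cusp_function := ⟨n, f, hbd, hlead, fun g => ?_⟩
      exists_uniformizer := ⟨n₂, _, hbd₂, ?_, ?_⟩ }
  · obtain ⟨δ, rfl⟩ := exists_gEl_eq g
    rcases hcases δ with h0 | ⟨b, hb⟩
    · exact absurd (hg f ▸ h0) hlead
    · by_cases hdiv : (M : ℤ) ∣ b
      · refine gEl_eq_one_of_act fun F => ?_
        rw [hb F]
        refine F.2.2.1 _ ((mem_Gamma_iff_redMat _).mpr ?_)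
        have hb0 := (ZMod.intCast_zmod_eq_zero_iff_dvd _ M).mpr hdiv
        ext i j
        fin_cases i <;> fin_cases j <;> simp [redMat, ModularGroup.coe_T_zpow, hb0]
      · exfalso
        obtain ⟨a, -, hae⟩ := hroot b
        have h1 := coeff_levelExp_act_T hb t 1
        rw [mul_one, ← hae, ← map_mul] at h1
        have h2 := congrArg (fun s : LaurentSeries k_A => s.coeff 1) (hg t)
        simp only [redHom_apply, ModularCurve.coeffMap_coeff, coeffHom_injective A ι h1,
          map_mul] at h2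
        have h3 : IsLocalRing.residue A ((levelExp A ι M t).coeff 1) ≠ 0 := by
          rw [IsLocalRing.residue_ne_zero_iff_isUnit]; exact ht1.2
        have h4 : IsLocalRing.residue A a = 1 := mul_left_cancel₀ h3 (h2.trans (mul_one _).symm)
        have h5 : IsUnit (1 - a) := isUnit_of_coeffHom (ι := ι) (c := 1 - zetaM M ^ b)
          (by rw [map_sub, map_one, hae]) (hO.isUnitIn_one_sub hdiv)
        rw [← IsLocalRing.residue_ne_zero_iff_isUnit, map_sub, map_one, h4, sub_self] at h5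
        exact h5 rfl
  · obtain ⟨δ, rfl⟩ := exists_gEl_eq g
    rcases hcases δ with h0 | ⟨b, hb⟩
    · exact Or.inl h0
    · refine Or.inr fun F m => ?_
      obtain ⟨a, hau, hae⟩ := hroot (b * m)
      have h1 := coeff_levelExp_act_T hb F m
      rw [← hae, ← map_mul] at h1
      have h3 : IsLocalRing.residue A a ≠ 0 := IsLocalRing.residue_ne_zero_iff_isUnit a |>.mpr hau
      simp only [redHom_apply, ModularCurve.coeffMap_coeff, coeffHom_injective A ι h1, map_mul,
        mul_eq_zero, h3, or_false]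
  · obtain ⟨a, -, h2, -⟩ := hin₂ 1 h1inf
    rw [hgel1, one_smul, one_smul] at h2
    rw [redHom_apply, ModularCurve.coeffMap_coeff, h2, ht1.1 0 zero_lt_one, mul_zero, map_zero]
  · obtain ⟨a, ha, -, h2⟩ := hin₂ 1 h1inf
    rw [hgel1, one_smul, one_smul] at h2
    rw [redHom_apply, ModularCurve.coeffMap_coeff, h2 (ht1.1 0 zero_lt_one),
      IsLocalRing.residue_ne_zero_iff_isUnit]
    exact ha.mul ht1.2

end FLTAgent.LevelM
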