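import Fermat.Agent.MFDim.Cosets
import Fermat.Agent.LevelM.ConcreteData
import Fermat.Agent.LevelM.XRatio
import Fermat.Agent.GoodReduction.PoleBounded

/-!
# Units with prescribed leading terms at the cusps

Leading terms at all cusps of the units `(x_T - x_U) / (x_V - x_W)` of the level `M` ring; their
product `uInfty` has its maximal pole exactly at the cusps over `∞` (`pow_uInfty_mul_lead`).
-/

set_option autoImplicit false

noncomputable section

open Filter Complex
open UpperHalfPlane hiding I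
open scoped UpperHalfPlane Real MatrixGroups Manifold
open FLTAgent.GoodReduction

namespace FLTAgent.LevelM

variable {L : Type*} [Field L] {A : ValuationSubring L} {ι : L →+* ℂ} {M : ℕ}

/-! ### Series with unit leading coefficient -/

/-- Coefficients vanish below `m` and the one in degree `m` is a unit. -/
def UnitLead {R : Type*} [CommRing R] (s : LaurentSeries R) (m : ℤ) : Prop :=
  (∀ n < m, s.coeff n = 0) ∧ IsUnit (s.coeff m)

section Series

variable {R : Type*} [CommRing R]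

theorem UnitLead.mul {s t : LaurentSeries R} {a b : ℤ} (hs : UnitLead s a) (ht : UnitLead t b) :
    UnitLead (s * t) (a + b) :=
  ⟨fun _ hn => coeff_mul_below hs.1 ht.1 hn, by
    rw [coeff_mul_lead hs.1 ht.1]; exact hs.2.mul ht.2⟩

theorem unitLead_one : UnitLead (1 : LaurentSeries R) 0 :=
  ⟨fun n hn => by rw [HahnSeries.coeff_one, if_neg hn.ne], by simp [HahnSeries.coeff_one]⟩

theorem UnitLead.pow {s : LaurentSeries R} {a : ℤ} (hs : UnitLead s a) (k : ℕ) :
    UnitLead (s ^ k) ((k : ℤ) * a) := by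
  obtain ⟨h1, h2⟩ := coeff_pow_below hs.1 k
  exact ⟨h1, by rw [h2]; exact hs.2.pow k⟩

theorem unitLead_prod {α : Type*} (S : Finset α) (f : α → LaurentSeries R) (m : α → ℤ)
    (h : ∀ a ∈ S, UnitLead (f a) (m a)) : UnitLead (∏ a ∈ S, f a) (∑ a ∈ S, m a) := by
  classical
  induction S using Finset.induction_on with
  | empty => simpa using unitLead_one
  | insert a S ha ih =>
    rw [Finset.prod_insert ha, Finset.sum_insert ha]
    exact (h a (Finset.mem_insert_self _ _)).mul (ih fun b hb => h b (Finset.mem_insert_of_mem hb))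

theorem nonneg_prod {α : Type*} (S : Finset α) (f : α → LaurentSeries R)
    (h : ∀ a ∈ S, ∀ n < 0, (f a).coeff n = 0) :
    (∀ n < 0, (∏ a ∈ S, f a).coeff n = 0) ∧
      (∏ a ∈ S, f a).coeff 0 = ∏ a ∈ S, (f a).coeff 0 := by
  classical
  induction S using Finset.induction_on with
  | empty =>
    exact ⟨fun n hn => by rw [Finset.prod_empty, HahnSeries.coeff_one, if_neg hn.ne],
      by simp [HahnSeries.coeff_one]⟩
  | insert a S ha ih =>
    obtain ⟨h1, h2⟩ := ih fun b hb => h b (Finset.mem_insert_of_mem hb)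
    have ha' := h a (Finset.mem_insert_self _ _)
    rw [Finset.prod_insert ha, Finset.prod_insert ha]
    refine ⟨fun n hn => coeff_mul_below ha' h1 (by omega), ?_⟩
    have := coeff_mul_lead ha' h1
    rw [add_zero, h2] at this
    exact this

end Series

/-! ### The group elements -/

variable (A ι M) in
/-- The group element whose action is `f ↦ f ∘ δ`. -/
def gEl (δ : SL(2, ℤ)) : LevelGroup A ι M := (levelAutHom A ι M).rangeRestrict δ⁻¹

theorem coe_gEl_smul (δ : SL(2, ℤ)) (f : LevelRing A ι M) :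
    ((gEl A ι M δ • f : LevelRing A ι M) : ℍ → ℂ) = act δ (f : ℍ → ℂ) := by
  rw [gEl, levelGroup_smul, inv_inv]

theorem exists_gEl_eq (g : LevelGroup A ι M) : ∃ δ : SL(2, ℤ), gEl A ι M δ = g := by
  obtain ⟨γ, rfl⟩ := exists_smul_eq g
  exact ⟨γ⁻¹, by rw [gEl, inv_inv]⟩

theorem gEl_eq_one_of_act {δ : SL(2, ℤ)}
    (h : ∀ f : LevelRing A ι M, act δ (f : ℍ → ℂ) = f) : gEl A ι M δ = 1 := by
  refine Subtype.ext (RingEquiv.ext fun f => Subtype.ext ?_)
  show ((gEl A ι M δ • f : LevelRing A ι M) : ℍ → ℂ) = _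
  rw [coe_gEl_smul, h f]
  rfl

variable [NeZero M]

/-- Reading off a unit leading coefficient. -/
theorem levelExp_lead (f : LevelRing A ι M) {m : ℤ} {c : ℂ}
    (h : Lead M (coeffRing A ι) (f : ℍ → ℂ) m c) :
    (∀ n < m, (levelExp A ι M f).coeff n = 0) ∧
      coeffHom A ι ((levelExp A ι M f).coeff m) = c := by
  obtain ⟨s, hs, -, h2, h3⟩ := h
  have heq := hs.unique (Nat.pos_of_ne_zero (NeZero.ne M)) (hasExp_levelExp f)
  subst heq
  refine ⟨fun n hn => coeffHom_injective A ι ?_, ?_⟩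
  · rw [map_zero, ← ModularCurve.coeffMap_coeff]; exact h2 n hn
  · rw [← ModularCurve.coeffMap_coeff]; exact h3

theorem isUnit_of_coeffHom {a : A} {c : ℂ} (ha : coeffHom A ι a = c)
    (hc : IsUnitIn (coeffRing A ι) c) : IsUnit a := by
  obtain ⟨b, hb, hb'⟩ := hc.2.2
  refine IsUnit.of_mul_eq_one ⟨b, hb⟩ (coeffHom_injective A ι ?_)
  rw [map_mul, map_one, ha]
  show c * ι b = 1
  rw [hb', mul_inv_cancel₀ hc.1]

theorem unitLead_levelExp (f : LevelRing A ι M) {m : ℤ} {c : ℂ}
    (h : Lead M (coeffRing A ι) (f : ℍ → ℂ) m c) (hc : IsUnitIn (coeffRing A ι) c) :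
    UnitLead (levelExp A ι M f) m :=
  ⟨(levelExp_lead f h).1, isUnit_of_coeffHom (levelExp_lead f h).2 hc⟩

/-- A torsion ratio as an element of the level `M` ring. -/
def xr (hO : GoodRing M (coeffRing A ι)) {T U V W : Fin 2 → ZMod M} (hTU : XPair T U)
    (hVW : XPair V W) : LevelRing A ι M :=
  ⟨xratio M T U V W, xratio_mem hO hTU.1 hTU.2.1 hVW⟩

theorem coe_gEl_xr (hO : GoodRing M (coeffRing A ι)) {T U V W : Fin 2 → ZMod M}
    (hTU : XPair T U) (hVW : XPair V W) (δ : SL(2, ℤ)) :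
    ((gEl A ι M δ • xr hO hTU hVW : LevelRing A ι M) : ℍ → ℂ) =
      xratio M (vact T δ) (vact U δ) (vact V δ) (vact W δ) := by
  rw [coe_gEl_smul]
  exact act_xratio δ T U V W

theorem unitLead_xr (hO : GoodRing M (coeffRing A ι)) {T U V W : Fin 2 → ZMod M}
    (hTU : XPair T U) (hVW : XPair V W) (δ : SL(2, ℤ)) :
    UnitLead (levelExp A ι M (gEl A ι M δ • xr hO hTU hVW))
      ((xord (vact T δ) (vact U δ) : ℤ) - xord (vact V δ) (vact W δ)) := by
  obtain ⟨c, hc, hL⟩ := exists_lead_xratio hO (hTU.vact δ) (hVW.vact δ)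
  exact unitLead_levelExp _ (by rw [coe_gEl_xr]; exact hL) hc

/-! ### The cusps over `∞` -/

/-- `δ ∞` lies over the cusp `∞` of `X₀(M)`. -/
def AtInfty (M : ℕ) (δ : SL(2, ℤ)) : Prop := ((δ 1 0 : ℤ) : ZMod M) = 0

omit [NeZero M] in
theorem vact_apply (T : Fin 2 → ZMod M) (δ : SL(2, ℤ)) (i : Fin 2) :
    vact T δ i = T 0 * ((δ 0 i : ℤ) : ZMod M) + T 1 * ((δ 1 i : ℤ) : ZMod M) := by
  simp [vact, redMat, Matrix.vecMul, dotProduct, Fin.sum_univ_two]

omit [NeZero M] in
theorem AtInfty.mul_eq_one {δ : SL(2, ℤ)} (h : AtInfty M δ) :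
    ((δ 0 0 : ℤ) : ZMod M) * (δ 1 1 : ℤ) = 1 := by
  have := MFDim.det_cast (N := M) δ
  rw [show ((δ 1 0 : ℤ) : ZMod M) = 0 from h, mul_zero, sub_zero] at this
  exact this

/-! ### The unit with maximal pole exactly over `∞` -/

/-- `(0, 1)`. -/
def ptT (M : ℕ) : Fin 2 → ZMod M := ![0, 1]

open Classical in
/-- The admissible pairs. -/
def pairSet (M : ℕ) [NeZero M] : Finset ((Fin 2 → ZMod M) × (Fin 2 → ZMod M)) :=
  Finset.univ.filter fun p => XPair p.1 p.2

open Classical in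
/-- The admissible partners of `(0, 1)`. -/
def partnerSet (M : ℕ) [NeZero M] : Finset (Fin 2 → ZMod M) :=
  Finset.univ.filter fun U => XPair (ptT M) U

theorem mem_pairSet {p : (Fin 2 → ZMod M) × (Fin 2 → ZMod M)} :
    p ∈ pairSet M ↔ XPair p.1 p.2 := by
  classical simp [pairSet]

theorem mem_partnerSet {U : Fin 2 → ZMod M} : U ∈ partnerSet M ↔ XPair (ptT M) U := by
  classical simp [partnerSet]

/-- The unit with pole of the maximal order exactly at the cusps over `∞`. -/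
def uInfty (hO : GoodRing M (coeffRing A ι)) : LevelRing A ι M :=
  ∏ U : partnerSet M, ∏ p : pairSet M,
    xr hO (mem_partnerSet.mp U.2) (mem_pairSet.mp p.2)

/-- The pole order of `uInfty` over `∞`. -/
def uPole (M : ℕ) [NeZero M] : ℕ := (partnerSet M).card * ∑ p ∈ pairSet M, xord p.1 p.2

/-- The excess of the order of `uInfty` at `δ ∞`. -/
def uExcess (M : ℕ) [NeZero M] (δ : SL(2, ℤ)) : ℕ :=
  (pairSet M).card * ∑ U ∈ partnerSet M, xord (vact (ptT M) δ) (vact U δ)

theorem sum_xord_vact (δ : SL(2, ℤ)) :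
    ∑ p ∈ pairSet M, xord (vact p.1 δ) (vact p.2 δ) = ∑ p ∈ pairSet M, xord p.1 p.2 := by
  refine Finset.sum_nbij' (fun p => (vact p.1 δ, vact p.2 δ))
    (fun p => (vact p.1 δ⁻¹, vact p.2 δ⁻¹)) (fun p hp => ?_) (fun p hp => ?_) (fun p _ => ?_)
    (fun p _ => ?_) (fun p _ => rfl)
  · exact mem_pairSet.mpr ((mem_pairSet.mp hp).vact δ)
  · exact mem_pairSet.mpr ((mem_pairSet.mp hp).vact δ⁻¹)
  · simp [← vact_mul, vact_one]
  · simp [← vact_mul, vact_one]

theorem unitLead_uInfty (hO : GoodRing M (coeffRing A ι)) (δ : SL(2, ℤ)) :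
    UnitLead (levelExp A ι M (gEl A ι M δ • uInfty hO))
      ((uExcess M δ : ℤ) - uPole M) := by
  rw [uInfty, Finset.smul_prod', map_prod]
  have h := unitLead_prod (R := A) Finset.univ
    (fun U : partnerSet M => levelExp A ι M (gEl A ι M δ •
      ∏ p : pairSet M, xr hO (mem_partnerSet.mp U.2) (mem_pairSet.mp p.2)))
    (fun U => ∑ p : pairSet M, ((xord (vact (ptT M) δ) (vact U.1 δ) : ℤ) -
      xord (vact p.1.1 δ) (vact p.1.2 δ))) (fun U _ => by
        rw [Finset.smul_prod', map_prod]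
        exact unitLead_prod _ _ _ fun p _ => unitLead_xr hO _ _ δ)
  convert h using 1
  simp only [Finset.sum_sub_distrib, Finset.sum_const, Finset.card_univ, Fintype.card_coe,
    nsmul_eq_mul]
  rw [Finset.sum_coe_sort (pairSet M) (fun p => (xord (vact p.1 δ) (vact p.2 δ) : ℤ)),
    ← Finset.mul_sum,
    Finset.sum_coe_sort (partnerSet M) (fun U => (xord (vact (ptT M) δ) (vact U δ) : ℤ)),
    ← Nat.cast_sum (pairSet M), sum_xord_vact δ, uExcess, uPole]
  push_cast
  ring

omit [NeZero M] in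
theorem xord_eq_zero_of_left {T U : Fin 2 → ZMod M} (h : T 0 = 0) : xord T U = 0 := by
  rw [xord, h, ZMod.valMinAbs_zero, Int.natAbs_zero, Nat.zero_min]

theorem uExcess_eq_zero {δ : SL(2, ℤ)} (h : AtInfty M δ) : uExcess M δ = 0 := by
  have h0 : vact (ptT M) δ 0 = 0 := by
    rw [vact_apply]
    simpa [ptT, AtInfty] using h
  simp [uExcess, xord_eq_zero_of_left h0]

theorem one_le_uExcess (hM : 3 ≤ M) {δ : SL(2, ℤ)} (h : ¬AtInfty M δ) : 1 ≤ uExcess M δ := by
  have : Fact (1 < M) := ⟨by omega⟩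
  set c : ZMod M := ((δ 1 0 : ℤ) : ZMod M) with hc
  have h0 : vact (ptT M) δ 0 = c := by rw [vact_apply]; simp [ptT, hc]
  -- a partner with first coordinate `1` after translation
  obtain ⟨x, hx⟩ : ∃ x : ZMod M, x ≠ vact (ptT M) δ 1 ∧ x ≠ -vact (ptT M) δ 1 := by
    classical
    obtain ⟨x, hx⟩ := Finset.exists_mem_notMem_of_card_lt_card
      (s := ({vact (ptT M) δ 1, -vact (ptT M) δ 1} : Finset (ZMod M))) (t := Finset.univ)
      (by rw [Finset.card_univ, ZMod.card]; exact lt_of_le_of_lt Finset.card_le_two (by omega))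
    simp only [Finset.mem_insert, Finset.mem_singleton, not_or] at hx
    exact ⟨x, hx.2⟩
  set U' : Fin 2 → ZMod M := ![1, x]
  have hpair : XPair (vact (ptT M) δ) U' :=
    ⟨vact_ne_zero (fun e => one_ne_zero (α := ZMod M) (by simpa [ptT] using congrFun e 1)) δ,
      fun e => one_ne_zero (α := ZMod M) (by simpa [U'] using congrFun e 0),
      fun e => hx.1 (by simpa [U'] using (congrFun e 1).symm),
      fun e => hx.2 (by
        have h2 : vact (ptT M) δ 1 = -x := by simpa [U'] using congrFun e 1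
        rw [h2, neg_neg])⟩
  set U := vact U' δ⁻¹
  have hUU : vact U δ = U' := by simp [U, ← vact_mul, vact_one]
  have hU : XPair (ptT M) U := by
    have := hpair.vact δ⁻¹
    rwa [← vact_mul, mul_inv_cancel, vact_one] at this
  have hpos : 0 < xord (vact (ptT M) δ) (vact U δ) := by
    rw [hUU, xord, h0]
    refine lt_min ?_ ?_
    · rw [Int.natAbs_pos, Ne, ZMod.valMinAbs_eq_zero]; exact h
    · rw [Int.natAbs_pos, Ne, ZMod.valMinAbs_eq_zero]
      simp [U']
  refine Nat.mul_pos (Finset.card_pos.mpr ⟨(ptT M, U), mem_pairSet.mpr hU⟩) ?_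
  exact lt_of_lt_of_le hpos (Finset.single_le_sum (f := fun U => xord (vact (ptT M) δ) (vact U δ))
    (fun _ _ => Nat.zero_le _) (mem_partnerSet.mpr hU))

/-- The pole bound of `uInfty ^ k * h`. -/
theorem pow_uInfty_mul_lead (hO : GoodRing M (coeffRing A ι)) (hM : 3 ≤ M) (h : LevelRing A ι M)
    (hh : ∀ δ, AtInfty M δ → ∀ n < 0, (levelExp A ι M (gEl A ι M δ • h)).coeff n = 0) :
    ∃ n k : ℕ, PoleBounded (LevelGroup A ι M) (levelExp A ι M) M n (uInfty hO ^ k * h) ∧
      (∀ δ, ¬AtInfty M δ →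
        (levelExp A ι M (gEl A ι M δ • (uInfty hO ^ k * h))).coeff (-((M * n : ℕ) : ℤ)) = 0) ∧
      ∀ δ, AtInfty M δ → ∃ a : A, IsUnit a ∧
        (levelExp A ι M (gEl A ι M δ • (uInfty hO ^ k * h))).coeff (-((M * n : ℕ) : ℤ)) =
          a * (levelExp A ι M (gEl A ι M δ • h)).coeff 0 ∧
        ((levelExp A ι M (gEl A ι M δ • h)).coeff 0 = 0 →
          (levelExp A ι M (gEl A ι M δ • (uInfty hO ^ k * h))).coeff (1 - ((M * n : ℕ) : ℤ)) =
            a * (levelExp A ι M (gEl A ι M δ • h)).coeff 1) := by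
  obtain ⟨B, hB⟩ := PoleBounded.exists_bound (LevelGroup A ι M) (levelExp A ι M)
    (e := M) (by omega) h
  set k := M * (B + 1) with hk
  set n := (B + 1) * uPole M with hn
  have hkP : (k : ℤ) * uPole M = ((M * n : ℕ) : ℤ) := by rw [hk, hn]; push_cast; ring
  have hu : ∀ δ, UnitLead (levelExp A ι M (gEl A ι M δ • uInfty hO) ^ k)
      ((k : ℤ) * uExcess M δ - ((M * n : ℕ) : ℤ)) := fun δ => by
    rw [← hkP, ← mul_sub]
    exact (unitLead_uInfty hO δ).pow k
  have hsplit : ∀ δ, levelExp A ι M (gEl A ι M δ • (uInfty hO ^ k * h)) =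
      levelExp A ι M (gEl A ι M δ • uInfty hO) ^ k * levelExp A ι M (gEl A ι M δ • h) := fun δ => by
    rw [smul_mul', smul_pow', map_mul, map_pow]
  have hout : ∀ δ, ¬AtInfty M δ → ∀ i ≤ -((M * n : ℕ) : ℤ),
      (levelExp A ι M (gEl A ι M δ • (uInfty hO ^ k * h))).coeff i = 0 := by
    intro δ hδ i hi
    rw [hsplit]
    refine coeff_mul_below (hu δ).1 (hB (gEl A ι M δ)) ?_
    have h1 : (1 : ℤ) ≤ (uExcess M δ : ℤ) := by exact_mod_cast one_le_uExcess hM hδ
    have h2 : (k : ℤ) ≤ (k : ℤ) * uExcess M δ := le_mul_of_one_le_right (by positivity) h1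
    have h3 : (k : ℤ) = (M : ℤ) * B + M := by rw [hk]; push_cast; ring
    push_cast at hi ⊢
    omega
  have hin : ∀ δ, AtInfty M δ → UnitLead (levelExp A ι M (gEl A ι M δ • uInfty hO) ^ k)
      (-((M * n : ℕ) : ℤ)) := by
    intro δ hδ
    have := hu δ
    rwa [uExcess_eq_zero hδ, Nat.cast_zero, mul_zero, zero_sub] at this
  refine ⟨n, k, fun g i hi => ?_, fun δ hδ => hout δ hδ _ le_rfl, fun δ hδ => ?_⟩
  · obtain ⟨δ, rfl⟩ := exists_gEl_eq g
    by_cases hδ : AtInfty M δ
    · rw [hsplit]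
      exact coeff_mul_below (hin δ hδ).1 (hh δ hδ) (by omega)
    · exact hout δ hδ i hi.le
  · refine ⟨_, (hin δ hδ).2, ?_, fun h0 => ?_⟩
    · rw [hsplit, ← coeff_mul_lead (hin δ hδ).1 (hh δ hδ), add_zero]
    · rw [hsplit]
      have h1 : ∀ i < (1 : ℤ), (levelExp A ι M (gEl A ι M δ • h)).coeff i = 0 := fun i hi => by
        rcases lt_or_eq_of_le (Int.lt_add_one_iff.mp (by simpa using hi) : i ≤ 0) with h' | h'
        · exact hh δ hδ i h'
        · rw [h']; exact h0
      rw [← coeff_mul_lead (hin δ hδ).1 h1]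
      congr 1
      ring

end FLTAgent.LevelM
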