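import Fermat.Agent.GoodReduction.Bridge

/-!
# Invariant elements lie in the charts

Invariant elements of the level `M` ring are integral over `A[j]` (`isIntegral_of_levelExp`) and
pole bounded ones over `A[j⁻¹]` (`isIntegral_of_poleBounded`), via characteristic polynomials.
-/

set_option autoImplicit false

noncomputable section

open scoped MatrixGroups
open ModularCurve Polynomial FLTAgent.GoodReduction

namespace FLTAgent.LevelM

variable {L : Type} [Field L] [Algebra ℚ L] {A : ValuationSubring L} {ι : L →+* ℂ} {M : ℕ}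
  [NeZero M]

local notation "inc" => coeffMap (ValuationSubring.subtype A)

omit [Algebra ℚ L] in
theorem qExpand_evJ (Q : Polynomial A) :
    levelExp A ι M (eval₂ (algebraMap A (LevelRing A ι M)) (levelJ A ι M) Q) =
      qExpand A M (evJ A Q) := by
  induction Q using Polynomial.induction_on' with
  | add p q hp hq => rw [eval₂_add, map_add, hp, hq, map_add, map_add]
  | monomial k a =>
    rw [eval₂_monomial, map_mul, map_pow, levelExp_algebraMap, levelExp_levelJ, evJ,
      coe_eval₂RingHom, eval₂_monomial, map_mul, map_pow, qExpand_C]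

omit [Algebra ℚ L] in
/-- The characteristic polynomial of an invariant element, over `A[j]`. -/
theorem exists_charpoly [Fintype (LevelGroup A ι M)] (f : LevelRing A ι M) {y : LaurentSeries A}
    (hy : qExpand A M y = levelExp A ι M f) :
    ∃ p : Polynomial (Polynomial A), p.Monic ∧
      p.natDegree = Fintype.card (LevelGroup A ι M) ∧ eval₂ (evJ A) y p = 0 ∧
      ∀ i, qExpand A M (evJ A (p.coeff i)) = levelExp A ι M
        ((∏ g : LevelGroup A ι M, (X - C (g • f))).coeff i) := by
  classical
  set P := ∏ g : LevelGroup A ι M, (X - C (g • f)) with hP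
  have hinv : ∀ (g : LevelGroup A ι M) i, g • P.coeff i = P.coeff i := by
    intro g i
    have : P.map (MulSemiringAction.toRingHom _ (LevelRing A ι M) g) = P := by
      rw [hP, Polynomial.map_prod]
      refine Fintype.prod_equiv (Equiv.mulLeft g) _ _ fun δ => ?_
      simp [smul_smul]
    conv_rhs => rw [← this]
    simp [Polynomial.coeff_map]
  choose Q hQ using fun i => levelOne_polynomial (P.coeff i) fun g => hinv g i
  have hmon : P.Monic := monic_prod_of_monic _ _ fun g _ => monic_X_sub_C _
  have : Nontrivial (LevelRing A ι M) := (levelExp A ι M).domain_nontrivial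
  have hdeg : P.natDegree = Fintype.card (LevelGroup A ι M) := by
    rw [hP, natDegree_prod_of_monic _ _ fun g _ => monic_X_sub_C _]
    simp
  obtain ⟨p, hp, hpdeg, hpm⟩ := lifts_and_natDegree_eq_and_monic
    (f := (qExpand A M).comp (evJ A)) (p := P.map (levelExp A ι M))
    ((lifts_iff_coeff_lifts _).mpr fun i => ⟨Q i, by
      rw [RingHom.comp_apply, coeff_map, hQ i, qExpand_evJ]⟩) (hmon.map _)
  refine ⟨p, hpm, by rw [hpdeg, hmon.natDegree_map, hdeg], ?_, fun i => ?_⟩
  · have h0 : P.eval f = 0 := by
      rw [hP, eval_prod]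
      exact Finset.prod_eq_zero (Finset.mem_univ 1) (by simp)
    have h1 := congrArg (levelExp A ι M) h0
    rw [map_zero, ← eval₂_at_apply, ← hy, ← eval_map, ← hp, eval_map, ← hom_eval₂] at h1
    exact (map_eq_zero_iff _ (qExpand_injective M)).mp h1
  · have h2 := congrArg (fun q => Polynomial.coeff q i) hp
    simpa only [coeff_map, RingHom.comp_apply] using h2

omit [Algebra ℚ L] in
/-- Invariant elements are integral over `A[j]`. -/
theorem isIntegral_of_levelExp [Fintype (LevelGroup A ι M)] (f : LevelRing A ι M)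
    {y : LaurentSeries A} (hy : qExpand A M y = levelExp A ι M f) :
    IsIntegral (baseRing A (jqModC L)) (inc y) := by
  obtain ⟨p, hpm, -, hp0, -⟩ := exists_charpoly f hy
  rw [isIntegral_baseRing_iff]
  refine ⟨p, hpm, ?_⟩
  rw [show evAt A (jqModC L) = (inc).comp (evJ A) from RingHom.ext (evAt_j A), ← hom_eval₂, hp0,
    map_zero]

omit [Algebra ℚ L] in
/-- Pole bounded invariant elements give elements integral over `A[j⁻¹]`. -/
theorem isIntegral_of_poleBounded [Fintype (LevelGroup A ι M)] {K : ℕ}
    [Fintype (levelSubgroup A ι M K)]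
    (hd : LevelData (levelSubgroup A ι M K) (levelExp A ι M) (levelJ A ι M))
    {f : LevelRing A ι M} {n : ℕ}
    (hb : PoleBounded (LevelGroup A ι M) (levelExp A ι M) M n f)
    {y jinv : LaurentSeries A} (hy : qExpand A M y = levelExp A ι M f)
    (hjinv : inc jinv = (jqModC L)⁻¹) :
    IsIntegral (baseRing A (jqModC L)⁻¹) (inc (y * jinv ^ n)) := by
  classical
  obtain ⟨p, hpm, hdeg, hp0, hcoef⟩ := exists_charpoly f hy
  set J := jqModC L
  have hJ : J ≠ 0 := jqModC_ne_zero_of_nontrivial L
  obtain ⟨hjl, hjlow⟩ := levelExp_levelJ_lead (A := A) (ι := ι) (M := M)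
  have hbd : ∀ i, (p.coeff i).natDegree ≤ n * (p.natDegree - i) := by
    intro i
    have hb' := LevelData.coeff_prod_bounded hd Finset.univ (fun g => g • f)
      (fun g _ => hb.smul g) i 1
    rw [one_smul, Finset.card_univ, ← hdeg, ← hcoef] at hb'
    refine natDegree_le_iff_coeff_eq_zero.mpr fun d hlt => ?_
    refine polynomial_coeff_eq_zero_of_bounded (qExpand A M (jqModC A)) M
      (Nat.pos_of_ne_zero (NeZero.ne M)) (by rw [← levelExp_levelJ (ι := ι)]; exact hjlow)
      (by rw [← levelExp_levelJ (ι := ι)]; exact hjl) _ (M * (n * (p.natDegree - i))) ?_ d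
      (Nat.mul_lt_mul_of_pos_left hlt (Nat.pos_of_ne_zero (NeZero.ne M)))
    intro m hm
    have := hb' m hm
    rw [evJ, coe_eval₂RingHom, hom_eval₂] at this
    rwa [show (qExpand A M).comp HahnSeries.C = HahnSeries.C from
      RingHom.ext fun a => qExpand_C M a] at this
  set w := J⁻¹ ^ n
  set q := (p.map (evAt A J)).scaleRoots w with hq
  have hqm : q.Monic := (monic_scaleRoots_iff _).mpr (hpm.map _)
  have hqroot : q.eval (w * inc y) = 0 := by
    rw [hq, scaleRoots_eval_mul, eval_map, show evAt A J = (inc).comp (evJ A) from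
      RingHom.ext (evAt_j A), ← hom_eval₂, hp0, map_zero, mul_zero]
  have hqcoeff : ∀ i, q.coeff i ∈ baseRing A J⁻¹ := by
    intro i
    rw [hq, coeff_scaleRoots, coeff_map, hpm.natDegree_map, ← pow_mul, evAt, coe_eval₂RingHom,
      eval₂_eq_sum_range, Finset.sum_mul]
    refine sum_mem fun d hd' => ?_
    have hd'' : d ≤ n * (p.natDegree - i) :=
      (Nat.lt_succ_iff.mp (Finset.mem_range.mp hd')).trans (hbd i)
    rw [mul_assoc, show n * (p.natDegree - i) = d + (n * (p.natDegree - i) - d) by omega, pow_add,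
      ← mul_assoc (J ^ d), ← mul_pow, mul_inv_cancel₀ hJ, one_pow, one_mul]
    exact mul_mem (algebraMap_mem_baseRing A _ _) (pow_mem (self_mem_baseRing A _) _)
  obtain ⟨q', hq'q, -, hq'm⟩ := lifts_and_natDegree_eq_and_monic
    (f := algebraMap (baseRing A J⁻¹) (LaurentSeries L)) (p := q)
    ((lifts_iff_coeff_lifts q).mpr fun i => ⟨⟨q.coeff i, hqcoeff i⟩, rfl⟩) hqm
  rw [map_mul, map_pow, hjinv, mul_comm]
  exact ⟨q', hq'm, by rw [eval₂_eq_eval_map, hq'q, hqroot]⟩

end FLTAgent.LevelM
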